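import Mathlib
import Fermat.Prelude.Def_GaloisRep_Adic
import Fermat.Prelude.Def_GaloisRep_DeformationCondition

/-!
# Residual data for an absolutely irreducible residual representation (S53, part B1 core)

Structure-independent core facts:
* Schur's lemma over the ground field `k` for an absolutely irreducible `ρbar`;
* existence of a cyclic basis `(v, ρbar(g₁) v)`;
* existence of `g₂` with `ρbar(g₂)` not commuting with `ρbar(g₁)`.
-/

set_option autoImplicit false

namespace Fermat.Agent.S53

open scoped TensorProduct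
open Module

section Core

variable {k : Type} [Field k] (ρbar : ResidualGaloisRep k)

local notation "Γ" => (AlgebraicClosure ℚ ≃ₐ[ℚ] AlgebraicClosure ℚ)

instance residual_finiteDimensional : FiniteDimensional k ρbar.V :=
  ρbar.instModuleFinite

theorem residual_nontrivial : Nontrivial ρbar.V := by
  apply Module.nontrivial_of_finrank_pos (R := k)
  rw [ρbar.finrank_eq]; norm_num

/-- `1 ⊗ v ≠ 0` in a base change along a field extension when `v ≠ 0`. -/
theorem one_tmul_ne_zero (K : Type) [Field K] [Algebra k K] {v : ρbar.V} (hv : v ≠ 0) :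
    (1 : K) ⊗ₜ[k] v ≠ 0 := by
  classical
  let b := Module.finBasis k ρbar.V
  intro h
  have h1 := congrArg (Algebra.TensorProduct.basis K b).repr h
  rw [Algebra.TensorProduct.basis_repr_tmul, one_smul, map_zero] at h1
  apply hv
  apply b.repr.injective
  rw [map_zero]
  ext i
  have h2 := DFunLike.congr_fun h1 i
  simp only [Finsupp.mapRange_apply, Finsupp.coe_zero, Pi.zero_apply] at h2
  exact (map_eq_zero_iff _ (algebraMap k K).injective).mp h2

theorem baseChange_ρ_apply (K : Type) [Field K] [Algebra k K] (σ : Γ) :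
    (ρbar.baseChange K).ρ σ = (ρbar.ρ σ).baseChange K := rfl

/-- Schur's lemma over the ground field. -/
theorem schur_end (habs : ρbar.IsAbsolutelyIrreducible) (x : Module.End k ρbar.V)
    (hx : ∀ σ : Γ, x * ρbar.ρ σ = ρbar.ρ σ * x) : ∃ c : k, x = c • (1 : Module.End k ρbar.V) := by
  classical
  let K := AlgebraicClosure k
  let V' := K ⊗[k] ρbar.V
  let x' : Module.End K V' := x.baseChange K
  have : Nontrivial ρbar.V := residual_nontrivial ρbar
  have : FiniteDimensional K V' := Module.Finite.base_change k K ρbar.V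
  have hfr : Module.finrank K V' = 2 := by
    rw [Module.finrank_baseChange, ρbar.finrank_eq]
  have : Nontrivial V' := by
    apply Module.nontrivial_of_finrank_pos (R := K)
    rw [hfr]; norm_num
  obtain ⟨μ, hμ⟩ := Module.End.exists_eigenvalue x'
  let W : Submodule K V' := Module.End.eigenspace x' μ
  have hWne : W ≠ ⊥ := hμ
  have hWstab : ∀ σ : Γ, ∀ y ∈ W, (ρbar.baseChange K).ρ σ y ∈ W := by
    intro σ y hy
    rw [Module.End.mem_eigenspace_iff] at hy ⊢
    have hcomm : x' ∘ₗ ((ρbar.ρ σ).baseChange K) = ((ρbar.ρ σ).baseChange K) ∘ₗ x' := by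
      rw [← LinearMap.baseChange_comp, ← LinearMap.baseChange_comp]
      congr 1
      exact hx σ
    rw [baseChange_ρ_apply]
    have := LinearMap.congr_fun hcomm y
    simp only [LinearMap.comp_apply] at this
    rw [this, hy, map_smul]
  have hWtop : W = ⊤ := (habs W hWstab).resolve_left hWne
  have hx' : ∀ y : V', x' y = μ • y := by
    intro y
    have : y ∈ W := hWtop ▸ Submodule.mem_top
    exact Module.End.mem_eigenspace_iff.mp this
  -- pass to matrices
  let b := Module.finBasis k ρbar.V
  have hn : Module.finrank k ρbar.V = 2 := ρbar.finrank_eq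
  let M := LinearMap.toMatrix b b x
  have hM : M.map (algebraMap k K) = μ • (1 : Matrix _ _ K) := by
    rw [← LinearMap.toMatrix_baseChange]
    have : x.baseChange K = μ • (1 : Module.End K V') := LinearMap.ext fun y => by
      simpa using hx' y
    rw [this, map_smul]
    congr 1
    exact LinearMap.toMatrix_one _
  have hinj := (algebraMap k K).injective
  have hoff : ∀ i j, i ≠ j → M i j = 0 := by
    intro i j hij
    have := congrFun (congrFun hM i) j
    simp only [Matrix.map_apply, Matrix.smul_apply, Matrix.one_apply_ne hij, smul_zero] at this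
    exact (map_eq_zero_iff _ hinj).mp this
  have hdiag : ∀ i, algebraMap k K (M i i) = μ := by
    intro i
    have := congrFun (congrFun hM i) i
    simpa using this
  -- pick an index
  have hpos : 0 < Module.finrank k ρbar.V := by rw [hn]; norm_num
  let i₀ : Fin (Module.finrank k ρbar.V) := ⟨0, hpos⟩
  refine ⟨M i₀ i₀, ?_⟩
  apply (LinearMap.toMatrix b b).injective
  rw [map_smul, LinearMap.toMatrix_one]
  ext i j
  by_cases hij : i = j
  · subst hij
    simp only [Matrix.smul_apply, Matrix.one_apply_eq, smul_eq_mul, mul_one]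
    apply hinj
    show algebraMap k K (M i i) = algebraMap k K (M i₀ i₀)
    rw [hdiag, hdiag]
  · simp only [Matrix.smul_apply, Matrix.one_apply_ne hij, smul_zero]
    exact hoff i j hij

/-- A cyclic vector: `v` and `ρbar(g₁) v` are linearly independent for suitable `v`, `g₁`. -/
theorem exists_cyclic (habs : ρbar.IsAbsolutelyIrreducible) :
    ∃ (v : ρbar.V) (g₁ : Γ), LinearIndependent k ![v, ρbar.ρ g₁ v] := by
  classical
  have : Nontrivial ρbar.V := residual_nontrivial ρbar
  obtain ⟨v, hv⟩ := exists_ne (0 : ρbar.V)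
  by_contra hcon
  push Not at hcon
  -- every ρ(g) v is a multiple of v
  have hmul : ∀ g : Γ, ∃ c : k, ρbar.ρ g v = c • v := by
    intro g
    have hdep := hcon v g
    rw [LinearIndependent.pair_iff] at hdep
    push Not at hdep
    obtain ⟨s, t, hst, hne⟩ := hdep
    have ht : t ≠ 0 := by
      intro ht0
      rw [ht0, zero_smul, add_zero] at hst
      have hs0 : s = 0 := (smul_eq_zero.mp hst).resolve_right hv
      exact hne hs0 ht0
    refine ⟨-(t⁻¹ * s), ?_⟩
    have h1 : t • ρbar.ρ g v = -(s • v) := eq_neg_of_add_eq_zero_right hst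
    calc ρbar.ρ g v = t⁻¹ • (t • ρbar.ρ g v) := by rw [smul_smul, inv_mul_cancel₀ ht, one_smul]
      _ = t⁻¹ • (-(s • v)) := by rw [h1]
      _ = (-(t⁻¹ * s)) • v := by rw [smul_neg, smul_smul, neg_smul]
  let K := AlgebraicClosure k
  let V' := K ⊗[k] ρbar.V
  let W : Submodule K V' := K ∙ ((1 : K) ⊗ₜ[k] v)
  have hWstab : ∀ σ : Γ, ∀ y ∈ W, (ρbar.baseChange K).ρ σ y ∈ W := by
    intro σ y hy
    obtain ⟨a, rfl⟩ := Submodule.mem_span_singleton.mp hy
    obtain ⟨c, hc⟩ := hmul σ
    have h1 : (1 : K) ⊗ₜ[k] (c • v) = (algebraMap k K c) • ((1 : K) ⊗ₜ[k] v) := by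
      rw [TensorProduct.smul_tmul', smul_eq_mul, mul_one, ← TensorProduct.smul_tmul,
        Algebra.smul_def, mul_one]
    rw [baseChange_ρ_apply, map_smul, LinearMap.baseChange_tmul, hc, h1]
    exact W.smul_mem a (W.smul_mem (algebraMap k K c) (Submodule.mem_span_singleton_self _))
  have hWne : W ≠ ⊥ := by
    intro hbot
    have : (1 : K) ⊗ₜ[k] v ∈ (⊥ : Submodule K V') := hbot ▸ Submodule.mem_span_singleton_self _
    exact one_tmul_ne_zero ρbar K hv ((Submodule.mem_bot K).mp this)
  have hWtop : W = ⊤ := (habs W hWstab).resolve_left hWne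
  have hfr : Module.finrank K V' = 2 := by
    rw [Module.finrank_baseChange, ρbar.finrank_eq]
  have hle : Module.finrank K W ≤ 1 := by
    have h1v : (1 : K) ⊗ₜ[k] v ≠ 0 := one_tmul_ne_zero ρbar K hv
    exact (finrank_span_singleton (K := K) h1v).le
  rw [hWtop, finrank_top, hfr] at hle
  omega

end Core

end Fermat.Agent.S53
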