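/-
T-S53 common definitions (helper18).  Matrix model of 2-dimensional Galois representations,
slice data attached to an absolutely irreducible residual representation, normalized lifts, pairs.
-/
import Mathlib
import Fermat.Prelude.Def_GaloisRep_DeformationRingData
import Fermat.Prelude.Def_GaloisRep_DeformationCondition

set_option autoImplicit false

namespace Fermat.Agent.S53

open IsLocalRing

/-- The absolute Galois group of `ℚ`. -/
abbrev GQ : Type := AlgebraicClosure ℚ ≃ₐ[ℚ] AlgebraicClosure ℚ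

/-- `2 × 2` matrices. -/
abbrev M2 (A : Type) : Type := Matrix (Fin 2) (Fin 2) A

section MapMat

/-- Push a matrix representation forward along a ring homomorphism. -/
noncomputable def mapMat {A B : Type} [CommRing A] [CommRing B] (f : A →+* B) (r : GQ →* M2 A) : GQ →* M2 B :=
  (f.mapMatrix (m := Fin 2)).toMonoidHom.comp r

@[simp] theorem mapMat_apply {A B : Type} [CommRing A] [CommRing B] (f : A →+* B) (r : GQ →* M2 A)
    (σ : GQ) (i j : Fin 2) : mapMat f r σ i j = f (r σ i j) := by
  simp [mapMat]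

theorem mapMat_mapMat {A B C : Type} [CommRing A] [CommRing B] [CommRing C] (f : A →+* B)
    (g : B →+* C) (r : GQ →* M2 A) : mapMat g (mapMat f r) = mapMat (g.comp f) r := by
  ext σ i j; simp

/-- Pair two matrix representations into one over the product ring. -/
noncomputable def prodMat {A B : Type} [CommRing A] [CommRing B] (r : GQ →* M2 A) (r' : GQ →* M2 B) :
    GQ →* M2 (A × B) where
  toFun σ := Matrix.of fun i j => (r σ i j, r' σ i j)
  map_one' := by
    ext i j <;> simp [Matrix.one_apply] <;> split_ifs <;> rfl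
  map_mul' σ τ := by
    ext i j <;> simp [Matrix.mul_apply, Fin.sum_univ_two]

@[simp] theorem prodMat_apply {A B : Type} [CommRing A] [CommRing B] (r : GQ →* M2 A)
    (r' : GQ →* M2 B) (σ : GQ) (i j : Fin 2) : prodMat r r' σ i j = (r σ i j, r' σ i j) := rfl

end MapMat

section MatrixModel

variable {A : Type} [CommRing A] [IsLocalRing A]

/-- Adic continuity of a matrix valued representation: for every `n` it is trivial modulo
`m_A ^ n` on the absolute Galois group of a finite extension of `ℚ`. -/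
def MatCont (r : GQ →* M2 A) : Prop :=
  ∀ n : ℕ, ∃ L : IntermediateField ℚ (AlgebraicClosure ℚ), FiniteDimensional ℚ L ∧
    ∀ σ : GQ, (∀ x ∈ L, σ x = x) → ∀ i j, (r σ - 1) i j ∈ maximalIdeal A ^ n

omit [IsLocalRing A] in
theorem mem_pow_smul_top_pi (I : Ideal A) (v : Fin 2 → A) (hv : ∀ i, v i ∈ I) :
    v ∈ I • (⊤ : Submodule A (Fin 2 → A)) := by
  have hv' : v = ∑ i, (v i) • (Pi.single i (1 : A) : Fin 2 → A) := by
    funext j
    simp [Finset.sum_apply, Pi.single_apply]
  rw [hv']
  exact Submodule.sum_mem _ fun i _ => Submodule.smul_mem_smul (hv i) Submodule.mem_top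

/-- The Galois representation on `A²` attached to a continuous matrix valued representation. -/
noncomputable def ofMatrix (r : GQ →* M2 A) (h : MatCont r) : GaloisRepAdic A where
  V := Fin 2 → A
  finrank_eq := by simp
  ρ := (Matrix.toLinAlgEquiv' (R := A) (n := Fin 2) : M2 A →* Module.End A (Fin 2 → A)).comp r
  isAdicContinuous := by
    intro n
    obtain ⟨L, hL, hσ⟩ := h n
    refine ⟨L, hL, fun σ hσL v => ?_⟩
    apply mem_pow_smul_top_pi
    intro i
    have h1 : ((Matrix.toLinAlgEquiv' (R := A) (n := Fin 2) : M2 A →* Module.End A (Fin 2 → A)).comp r) σ v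
        - v = (r σ - 1).mulVec v := by
      simp [Matrix.sub_mulVec]
    rw [h1]
    simp only [Matrix.mulVec, dotProduct]
    exact Ideal.sum_mem _ fun j _ => Ideal.mul_mem_right _ _ (hσ σ hσL i j)

@[simp] theorem ofMatrix_V (r : GQ →* M2 A) (h : MatCont r) : (ofMatrix r h).V = (Fin 2 → A) := rfl

theorem ofMatrix_ρ_apply (r : GQ →* M2 A) (h : MatCont r) (σ : GQ) (v : Fin 2 → A) :
    (ofMatrix r h).ρ σ v = (r σ).mulVec v := rfl

end MatrixModel

section Slice

variable {𝒪 : Type} [CommRing 𝒪] [IsLocalRing 𝒪]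

/-- `r` reduces entrywise to `rbar` (formulated without mentioning the residue field of `A`). -/
def IsStrictLift {A : Type} [CommRing A] [IsLocalRing A] [Algebra 𝒪 A]
    (rbar : GQ →* M2 (ResidueField 𝒪)) (r : GQ →* M2 A) : Prop :=
  ∀ (σ : GQ) (i j : Fin 2) (a : 𝒪), residue 𝒪 a = rbar σ i j →
    r σ i j - algebraMap 𝒪 A a ∈ maximalIdeal A

/-- The data used to rigidify lifts of an absolutely irreducible residual representation. -/
structure SliceData (𝒪 : Type) [CommRing 𝒪] [IsLocalRing 𝒪]
    (ρbar : ResidualGaloisRep (ResidueField 𝒪)) where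
  /-- the residual representation in matrix form -/
  rbar : GQ →* M2 (ResidueField 𝒪)
  basis : Module.Basis (Fin 2) (ResidueField 𝒪) ρbar.V
  rbar_eq : ∀ σ, rbar σ = LinearMap.toMatrix basis basis (ρbar.ρ σ)
  schur : ∀ x : M2 (ResidueField 𝒪), (∀ σ, x * rbar σ = rbar σ * x) →
    ∃ c : ResidueField 𝒪, x = c • (1 : M2 (ResidueField 𝒪))
  g1 : GQ
  g2 : GQ
  g1_col : rbar g1 0 0 = 0 ∧ rbar g1 1 0 = 1
  i : Fin 2
  j : Fin 2
  comm_ne : (rbar g2 * rbar g1 - rbar g1 * rbar g2) i j ≠ 0
  c : 𝒪
  hc : residue 𝒪 c = rbar g2 i j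

variable {ρbar : ResidualGaloisRep (ResidueField 𝒪)}

/-- Normalized lifts: strict lifts `r` with `r g1 e₁ = e₂` and `r g2 i j = c`. -/
def IsNormalized (D : SliceData 𝒪 ρbar) {A : Type} [CommRing A] [IsLocalRing A] [Algebra 𝒪 A]
    (r : GQ →* M2 A) : Prop :=
  IsStrictLift D.rbar r ∧ r D.g1 0 0 = 0 ∧ r D.g1 1 0 = 1 ∧ r D.g2 D.i D.j = algebraMap 𝒪 A D.c

/-- A pair: an Artinian test algebra with a normalized continuous lift of type `𝒟`. -/
structure IsPair (D : SliceData 𝒪 ρbar)
    (𝒟 : ∀ ⦃A : Type⦄ [CommRing A] [IsLocalRing A] [Algebra 𝒪 A], GaloisRepAdic A → Prop)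
    (A : Type) [CommRing A] [IsLocalRing A] [Algebra 𝒪 A] (r : GQ →* M2 A) : Prop where
  test : GaloisRep.IsArtinianTestAlgebra 𝒪 A
  cont : MatCont r
  norm : IsNormalized D r
  type : 𝒟 (ofMatrix r cont)

end Slice

end Fermat.Agent.S53
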