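import Mathlib
import Fermat.Agent.S53.Defs

/-!
# S53, part (A) helper lemmas (helper23): matrix models of `GaloisRepAdic`

Built on `Fermat.Agent.S53.Defs`. All names live in `Fermat.Agent.S53.MatrixModel`
(a sub-namespace, to avoid clashes with `MatrixRep.lean`).
-/

set_option autoImplicit false

open scoped TensorProduct

namespace Fermat.Agent.S53.MatrixModel

open Fermat.Agent.S53

section Adic

variable {A : Type} [CommRing A] [IsLocalRing A]

/-- The matrix representation of a `GaloisRepAdic` in a basis. -/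
noncomputable def matrixOf (ρ : GaloisRepAdic A) (b : Module.Basis (Fin 2) A ρ.V) :
    GQ →* Matrix (Fin 2) (Fin 2) A :=
  (LinearMap.toMatrixAlgEquiv b : Module.End A ρ.V ≃ₐ[A] Matrix (Fin 2) (Fin 2) A).toAlgHom.toRingHom.toMonoidHom.comp
    ρ.ρ

theorem matrixOf_apply (ρ : GaloisRepAdic A) (b : Module.Basis (Fin 2) A ρ.V) (σ : GQ) :
    matrixOf ρ b σ = LinearMap.toMatrix b b (ρ.ρ σ) := rfl

omit [IsLocalRing A] in
/-- Coordinates of an element of `I • ⊤` lie in `I`. -/
theorem repr_mem_of_mem_smul_top {V : Type} [AddCommGroup V] [Module A V]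
    (b : Module.Basis (Fin 2) A V) {I : Ideal A} {x : V}
    (hx : x ∈ I • (⊤ : Submodule A V)) (i : Fin 2) : b.repr x i ∈ I := by
  refine Submodule.smul_induction_on (p := fun x => b.repr x i ∈ I) hx ?_ ?_
  · intro a ha y _
    rw [map_smul, Finsupp.smul_apply, smul_eq_mul]
    exact Ideal.mul_mem_right _ _ ha
  · intro x y hx hy
    rw [map_add, Finsupp.add_apply]
    exact Ideal.add_mem _ hx hy

theorem matCont_matrixOf (ρ : GaloisRepAdic A) (b : Module.Basis (Fin 2) A ρ.V) :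
    MatCont (matrixOf ρ b) := by
  intro n
  obtain ⟨L, hL, h⟩ := ρ.isAdicContinuous n
  refine ⟨L, hL, fun σ hσ i j => ?_⟩
  have h1 : (matrixOf ρ b σ - 1) i j = b.repr (ρ.ρ σ (b j) - b j) i := by
    rw [matrixOf_apply, Matrix.sub_apply, LinearMap.toMatrix_apply, map_sub, Finsupp.sub_apply,
      Matrix.one_apply, Module.Basis.repr_self, Finsupp.single_apply]
    congr 1
    by_cases hij : i = j
    · simp [hij]
    · simp [hij, Ne.symm hij]
  rw [h1]
  exact repr_mem_of_mem_smul_top b (h σ hσ (b j)) i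

/-- A representation is equivalent to the matrix representation in any basis. -/
noncomputable def equivOfMatrixMatrixOf (ρ : GaloisRepAdic A) (b : Module.Basis (Fin 2) A ρ.V) :
    GaloisRepAdic.Equiv ρ (ofMatrix (matrixOf ρ b) (matCont_matrixOf ρ b)) where
  toLinearEquiv := b.equivFun
  map_apply := fun σ x => by
    show b.equivFun (ρ.ρ σ x) = (matrixOf ρ b σ).mulVec (b.equivFun x)
    rw [matrixOf_apply]
    exact (LinearMap.toMatrix_mulVec_repr b b (ρ.ρ σ) x).symm

theorem isEquiv_ofMatrix_matrixOf (ρ : GaloisRepAdic A) (b : Module.Basis (Fin 2) A ρ.V) :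
    ρ.IsEquiv (ofMatrix (matrixOf ρ b) (matCont_matrixOf ρ b)) :=
  ⟨equivOfMatrixMatrixOf ρ b⟩

/-- A basis of the underlying module of a `GaloisRepAdic`. -/
noncomputable def someBasis (ρ : GaloisRepAdic A) : Module.Basis (Fin 2) A ρ.V :=
  Module.finBasisOfFinrankEq A ρ.V ρ.finrank_eq

theorem exists_isEquiv_ofMatrix (ρ : GaloisRepAdic A) :
    ∃ (r : GQ →* Matrix (Fin 2) (Fin 2) A) (hr : MatCont r), ρ.IsEquiv (ofMatrix r hr) :=
  ⟨_, _, isEquiv_ofMatrix_matrixOf ρ (someBasis ρ)⟩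

/-- The standard basis of the underlying module of `ofMatrix r hr`. -/
noncomputable def stdBasis (r : GQ →* Matrix (Fin 2) (Fin 2) A) (hr : MatCont r) :
    Module.Basis (Fin 2) A (ofMatrix r hr).V :=
  Pi.basisFun A (Fin 2)

theorem matrixOf_ofMatrix (r : GQ →* Matrix (Fin 2) (Fin 2) A) (hr : MatCont r) :
    matrixOf (ofMatrix r hr) (stdBasis r hr) = r := by
  ext σ : 1
  rw [matrixOf_apply]
  show LinearMap.toMatrix (Pi.basisFun A (Fin 2)) (Pi.basisFun A (Fin 2)) (Matrix.toLin' (r σ)) = r σ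
  rw [LinearMap.toMatrix_eq_toMatrix', LinearMap.toMatrix'_toLin']

/-- Conjugate matrix representations give equivalent `GaloisRepAdic`s. -/
noncomputable def equivOfConj {r r' : GQ →* Matrix (Fin 2) (Fin 2) A} (hr : MatCont r)
    (hr' : MatCont r') (g g' : Matrix (Fin 2) (Fin 2) A) (hgg' : g * g' = 1) (hg'g : g' * g = 1)
    (h : ∀ σ, g * r σ = r' σ * g) : GaloisRepAdic.Equiv (ofMatrix r hr) (ofMatrix r' hr') where
  toLinearEquiv := Matrix.toLin'OfInv hg'g hgg'
  map_apply := fun σ (x : Fin 2 → A) => by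
    show g.mulVec ((r σ).mulVec x) = (r' σ).mulVec (g.mulVec x)
    rw [Matrix.mulVec_mulVec, Matrix.mulVec_mulVec, h σ]

theorem ofMatrix_isEquiv_iff {r r' : GQ →* Matrix (Fin 2) (Fin 2) A} (hr : MatCont r)
    (hr' : MatCont r') :
    (ofMatrix r hr).IsEquiv (ofMatrix r' hr') ↔
      ∃ g : Matrix (Fin 2) (Fin 2) A, IsUnit g ∧ ∀ σ, g * r σ = r' σ * g := by
  constructor
  · rintro ⟨e⟩
    let f : (Fin 2 → A) ≃ₗ[A] (Fin 2 → A) := e.toLinearEquiv
    refine ⟨LinearMap.toMatrix' f.toLinearMap, ?_, fun σ => ?_⟩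
    · refine ⟨⟨LinearMap.toMatrix' f.toLinearMap, LinearMap.toMatrix' f.symm.toLinearMap, ?_, ?_⟩,
        rfl⟩
      · rw [← LinearMap.toMatrix'_comp]; simp
      · rw [← LinearMap.toMatrix'_comp]; simp
    · have h1 : f.toLinearMap ∘ₗ Matrix.toLin' (r σ) = Matrix.toLin' (r' σ) ∘ₗ f.toLinearMap := by
        exact LinearMap.ext fun x => e.map_apply σ x
      have h2 := congrArg LinearMap.toMatrix' h1
      rwa [LinearMap.toMatrix'_comp, LinearMap.toMatrix'_comp, LinearMap.toMatrix'_toLin',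
        LinearMap.toMatrix'_toLin'] at h2
  · rintro ⟨g, hg, h⟩
    obtain ⟨u, rfl⟩ := hg
    exact ⟨equivOfConj hr hr' (u : Matrix (Fin 2) (Fin 2) A) (↑u⁻¹ : Matrix (Fin 2) (Fin 2) A)
      (by simp) (by simp) h⟩

/-- Equal matrix representations give equivalent `GaloisRepAdic`s. -/
theorem ofMatrix_isEquiv_of_eq {r r' : GQ →* Matrix (Fin 2) (Fin 2) A} (hr : MatCont r)
    (hr' : MatCont r') (h : r = r') : (ofMatrix r hr).IsEquiv (ofMatrix r' hr') := by
  subst h
  exact ⟨GaloisRepAdic.Equiv.refl _⟩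

section BaseChange

variable {B : Type} [CommRing B] [IsLocalRing B]

omit [IsLocalRing A] [IsLocalRing B] in
theorem mapMat_apply' (φ : A →+* B) (r : GQ →* Matrix (Fin 2) (Fin 2) A) (σ : GQ) :
    mapMat φ r σ = (r σ).map φ := rfl

theorem matCont_mapMat {r : GQ →* Matrix (Fin 2) (Fin 2) A} (hr : MatCont r) (φ : A →+* B)
    (hφ : IsLocalHom φ) : MatCont (mapMat φ r) := by
  intro n
  obtain ⟨L, hL, h⟩ := hr n
  refine ⟨L, hL, fun σ hσ i j => ?_⟩
  have hmap : (IsLocalRing.maximalIdeal A ^ n).map φ ≤ IsLocalRing.maximalIdeal B ^ n := by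
    rw [Ideal.map_pow]
    exact Ideal.pow_right_mono (Ideal.map_le_iff_le_comap.mpr fun a ha =>
      Ideal.mem_comap.mpr (haveI := hφ; map_nonunit φ a ha)) n
  have h1 : (mapMat φ r σ - 1) i j = φ ((r σ - 1) i j) := by
    rw [Matrix.sub_apply, Matrix.sub_apply, map_sub, mapMat_apply, Matrix.one_apply,
      Matrix.one_apply]
    split_ifs <;> simp
  rw [h1]
  exact hmap (Ideal.mem_map_of_mem φ (h σ hσ i j))

/-- The basis of the base change of `ρ` along `φ` induced by a basis of `ρ`. -/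
noncomputable def bcBasis (φ : A →+* B) (hφ : IsLocalHom φ) (ρ : GaloisRepAdic A)
    (b : Module.Basis (Fin 2) A ρ.V) : Module.Basis (Fin 2) B (ρ.baseChangeAlong φ hφ).V :=
  letI : Algebra A B := φ.toAlgebra
  Algebra.TensorProduct.basis B b

theorem matrixOf_baseChangeAlong (φ : A →+* B) (hφ : IsLocalHom φ) (ρ : GaloisRepAdic A)
    (b : Module.Basis (Fin 2) A ρ.V) :
    matrixOf (ρ.baseChangeAlong φ hφ) (bcBasis φ hφ ρ b) = mapMat φ (matrixOf ρ b) := by
  let _ : Algebra A B := φ.toAlgebra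
  ext σ : 1
  rw [matrixOf_apply, mapMat_apply', matrixOf_apply]
  exact LinearMap.toMatrix_baseChange B (ρ.ρ σ) b b

/-- Base change of a matrix model is the matrix model of the pushed-forward matrices. -/
theorem baseChangeAlong_ofMatrix (φ : A →+* B) (hφ : IsLocalHom φ)
    (r : GQ →* Matrix (Fin 2) (Fin 2) A) (hr : MatCont r) :
    ((ofMatrix r hr).baseChangeAlong φ hφ).IsEquiv (ofMatrix (mapMat φ r) (matCont_mapMat hr φ hφ)) := by
  have h := isEquiv_ofMatrix_matrixOf ((ofMatrix r hr).baseChangeAlong φ hφ)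
    (bcBasis φ hφ (ofMatrix r hr) (stdBasis r hr))
  have e : matrixOf ((ofMatrix r hr).baseChangeAlong φ hφ)
      (bcBasis φ hφ (ofMatrix r hr) (stdBasis r hr)) = mapMat φ r := by
    rw [matrixOf_baseChangeAlong, matrixOf_ofMatrix]
  obtain ⟨h⟩ := h
  refine ⟨?_⟩
  have key : ∀ (r' : GQ →* Matrix (Fin 2) (Fin 2) B) (hr' : MatCont r'),
      r' = mapMat φ r → GaloisRepAdic.Equiv (ofMatrix r' hr') (ofMatrix (mapMat φ r) (matCont_mapMat hr φ hφ)) := by
    intro r' hr' h'
    subst h'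
    exact GaloisRepAdic.Equiv.refl _
  exact h.trans (key _ _ e)

end BaseChange

end Adic

end Fermat.Agent.S53.MatrixModel
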