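import Mathlib
import Fermat.Agent.S53.Defs
import Fermat.Agent.S53.MatrixModel

/-!
# S53, part (A), residual part (helper9; ported from helper27's `MatrixRep`/`MatrixLift` onto
`Defs.lean` + `MatrixModel.lean`)

* `ofMatrixRes rbar h : ResidualGaloisRep k` : the residual representation on `Fin 2 → k` given by
  a matrix valued homomorphism factoring through a finite level.
* `ofMatrix_residual` : the residual representation of `ofMatrix r hr` is `ofMatrixRes` of the
  reduction of `r`.
* `conjHom g r` : the conjugate `σ ↦ g * r σ * g⁻¹`.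
* `isStrictLift_iff` : `IsStrictLift rbar r` iff `r` reduces entrywise to the image of `rbar`.
* `exists_strictLift` (A5a), `residual_isEquiv_of_strictLift` (A5b), `ofResidual_isEquiv_ofMatrix_rbar` (A5c; `isEquiv_ofResidual` is in `Pairs.lean`).
* `IsDeformationCondition_of_isEquiv_complete` : a deformation condition is invariant under
  equivalence over complete Noetherian local coefficient rings.
-/

set_option autoImplicit false
set_option linter.style.haveILetI false

open scoped TensorProduct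

namespace Fermat.Agent.S53

open IsLocalRing

/-! ### Invertible matrices and conjugation -/

section Conj

variable {A : Type} [CommRing A]

/-- The linear automorphism of `Fin 2 → A` attached to an invertible matrix. -/
noncomputable def unitLinearEquiv (g : (M2 A)ˣ) : (Fin 2 → A) ≃ₗ[A] (Fin 2 → A) :=
  LinearEquiv.ofLinearMap (Matrix.toLin' (g : M2 A)) (Matrix.toLin' ((g⁻¹ : (M2 A)ˣ) : M2 A))
    (by rw [← Matrix.toLin'_mul, Units.mul_inv, Matrix.toLin'_one])
    (by rw [← Matrix.toLin'_mul, Units.inv_mul, Matrix.toLin'_one])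

theorem unitLinearEquiv_apply (g : (M2 A)ˣ) (v : Fin 2 → A) :
    unitLinearEquiv g v = (g : M2 A).mulVec v := rfl

/-- The invertible matrix attached to a linear automorphism of `Fin 2 → A`. -/
noncomputable def linearEquivUnit (e : (Fin 2 → A) ≃ₗ[A] (Fin 2 → A)) : (M2 A)ˣ where
  val := LinearMap.toMatrix' (e : (Fin 2 → A) →ₗ[A] (Fin 2 → A))
  inv := LinearMap.toMatrix' (e.symm : (Fin 2 → A) →ₗ[A] (Fin 2 → A))
  val_inv := by
    rw [← LinearMap.toMatrix'_comp]
    simp
  inv_val := by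
    rw [← LinearMap.toMatrix'_comp]
    simp

theorem linearEquivUnit_mulVec (e : (Fin 2 → A) ≃ₗ[A] (Fin 2 → A)) (v : Fin 2 → A) :
    ((linearEquivUnit e : (M2 A)ˣ) : M2 A).mulVec v = e v :=
  LinearMap.toMatrix'_mulVec _ v

/-- Conjugation of a matrix-valued homomorphism by an invertible matrix. -/
noncomputable def conjHom (g : (M2 A)ˣ) (r : GQ →* M2 A) : GQ →* M2 A where
  toFun σ := (g : M2 A) * r σ * ((g⁻¹ : (M2 A)ˣ) : M2 A)
  map_one' := by rw [map_one, mul_one, Units.mul_inv]
  map_mul' σ τ := by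
    rw [map_mul]
    simp only [mul_assoc, Units.inv_mul_cancel_left]

theorem conjHom_apply (g : (M2 A)ˣ) (r : GQ →* M2 A) (σ : GQ) :
    conjHom g r σ = (g : M2 A) * r σ * ((g⁻¹ : (M2 A)ˣ) : M2 A) := rfl

theorem mul_eq_conjHom_mul (g : (M2 A)ˣ) (r : GQ →* M2 A) (σ : GQ) :
    (g : M2 A) * r σ = conjHom g r σ * g := by
  rw [conjHom_apply, mul_assoc, Units.inv_mul, mul_one]

/-- All entries of `M * N * P` lie in `I` if all entries of `N` do. -/
theorem mul_mul_apply_mem (I : Ideal A) (M N P : M2 A) (hN : ∀ i j, N i j ∈ I) (i j : Fin 2) :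
    (M * N * P) i j ∈ I := by
  rw [Matrix.mul_apply]
  refine Ideal.sum_mem _ fun l _ => Ideal.mul_mem_right _ _ ?_
  rw [Matrix.mul_apply]
  exact Ideal.sum_mem _ fun l' _ => Ideal.mul_mem_left _ _ (hN l' l)

end Conj

/-! ### Adic representations -/

section Adic

variable {A : Type} [CommRing A] [IsLocalRing A]

theorem toMatrix_basisFun_ofMatrix (r : GQ →* M2 A) (hr : MatCont r) (σ : GQ) :
    LinearMap.toMatrix (Pi.basisFun A (Fin 2)) (Pi.basisFun A (Fin 2)) ((ofMatrix r hr).ρ σ) =
      r σ := by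
  show LinearMap.toMatrix (Pi.basisFun A (Fin 2)) (Pi.basisFun A (Fin 2))
    (Matrix.toLin' (r σ)) = r σ
  rw [LinearMap.toMatrix_eq_toMatrix', LinearMap.toMatrix'_toLin']

theorem matCont_conjHom (g : (M2 A)ˣ) {r : GQ →* M2 A} (hr : MatCont r) :
    MatCont (conjHom g r) := by
  intro n
  obtain ⟨L, hL, h⟩ := hr n
  refine ⟨L, hL, fun σ hσ i j => ?_⟩
  have h1 : conjHom g r σ - 1 = (g : M2 A) * (r σ - 1) * ((g⁻¹ : (M2 A)ˣ) : M2 A) := by
    rw [conjHom_apply, mul_sub, sub_mul, mul_one, Units.mul_inv]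
  rw [h1]
  exact mul_mul_apply_mem _ _ _ _ (h σ hσ) i j

/-- (A3), formulated with units. -/
theorem ofMatrix_isEquiv_iff_units {r r' : GQ →* M2 A} (hr : MatCont r) (hr' : MatCont r') :
    (ofMatrix r hr).IsEquiv (ofMatrix r' hr') ↔
      ∃ g : (M2 A)ˣ, ∀ σ, (g : M2 A) * r σ = r' σ * g := by
  rw [MatrixModel.ofMatrix_isEquiv_iff hr hr']
  constructor
  · rintro ⟨g, hg, h⟩
    exact ⟨hg.unit, h⟩
  · rintro ⟨g, h⟩
    exact ⟨g, g.isUnit, h⟩

/-- A representation is equivalent to each of its conjugates. -/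
theorem ofMatrix_isEquiv_conjHom (g : (M2 A)ˣ) {r : GQ →* M2 A} (hr : MatCont r) :
    (ofMatrix r hr).IsEquiv (ofMatrix (conjHom g r) (matCont_conjHom g hr)) :=
  (ofMatrix_isEquiv_iff_units hr (matCont_conjHom g hr)).mpr ⟨g, mul_eq_conjHom_mul g r⟩

/-- A matrix over a local ring whose reduction is invertible is invertible. -/
theorem isUnit_of_isUnit_map_residue (M : M2 A) (h : IsUnit (M.map (residue A))) : IsUnit M := by
  rw [Matrix.isUnit_iff_isUnit_det] at h ⊢
  have h1 : (M.map (residue A)).det = residue A M.det := (RingHom.map_det (residue A) M).symm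
  rw [h1] at h
  exact (residue_ne_zero_iff_isUnit _).mp h.ne_zero

/-- Invertible matrices over the residue field lift to invertible matrices. -/
theorem exists_unit_map_residue_eq (gbar : (M2 (ResidueField A))ˣ) :
    ∃ g : (M2 A)ˣ, (g : M2 A).map (residue A) = gbar := by
  have hsurj := residue_surjective (R := A)
  choose f hf using hsurj
  let M : M2 A := fun i j => f ((gbar : M2 (ResidueField A)) i j)
  have hM : M.map (residue A) = gbar := by
    ext i j
    rw [Matrix.map_apply]
    exact hf _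
  have hu : IsUnit M := isUnit_of_isUnit_map_residue M (by rw [hM]; exact gbar.isUnit)
  exact ⟨hu.unit, hM⟩

theorem adicIsEquiv_refl (ρ : GaloisRepAdic A) : ρ.IsEquiv ρ := ⟨GaloisRepAdic.Equiv.refl ρ⟩

theorem adicIsEquiv_symm {ρ₁ ρ₂ : GaloisRepAdic A} (h : ρ₁.IsEquiv ρ₂) : ρ₂.IsEquiv ρ₁ :=
  h.elim fun e => ⟨e.symm⟩

theorem adicIsEquiv_trans {ρ₁ ρ₂ ρ₃ : GaloisRepAdic A} (h : ρ₁.IsEquiv ρ₂) (h' : ρ₂.IsEquiv ρ₃) :
    ρ₁.IsEquiv ρ₃ :=
  h.elim fun e => h'.elim fun e' => ⟨e.trans e'⟩

theorem adicIsEquiv_residual {ρ₁ ρ₂ : GaloisRepAdic A} (h : ρ₁.IsEquiv ρ₂) :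
    ρ₁.residual.IsEquiv ρ₂.residual :=
  h.elim fun e => ⟨e.residual⟩

theorem adicIsEquiv_baseChangeAlong {B : Type} [CommRing B] [IsLocalRing B] (φ : A →+* B)
    (hφ : IsLocalHom φ) {ρ₁ ρ₂ : GaloisRepAdic A} (h : ρ₁.IsEquiv ρ₂) :
    (ρ₁.baseChangeAlong φ hφ).IsEquiv (ρ₂.baseChangeAlong φ hφ) :=
  h.elim fun e => ⟨e.baseChangeAlong φ hφ⟩

/-- Pointwise equal matrix-valued homomorphisms give equivalent representations. -/
theorem ofMatrix_isEquiv_of_forall_eq {r r' : GQ →* M2 A} (hr : MatCont r) (hr' : MatCont r')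
    (h : ∀ σ, r σ = r' σ) : (ofMatrix r hr).IsEquiv (ofMatrix r' hr') :=
  (ofMatrix_isEquiv_iff_units hr hr').mpr
    ⟨1, fun σ => by rw [Units.val_one, one_mul, mul_one, h σ]⟩

end Adic

/-! ### Residual representations -/

section Residual

variable {k : Type} [Field k]

/-- The residual representation on `Fin 2 → k` attached to a matrix-valued homomorphism. -/
noncomputable def ofMatrixRes (rbar : GQ →* M2 k) (h : GaloisFactorsThroughFiniteLevel rbar) :
    ResidualGaloisRep k where
  V := Fin 2 → k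
  finrank_eq := by simp
  ρ := ((Matrix.toLinAlgEquiv' : M2 k ≃ₐ[k] _) : M2 k →* Module.End k (Fin 2 → k)).comp rbar
  factorsThroughFiniteLevel := by
    obtain ⟨L, hL, h1⟩ := h
    refine ⟨L, hL, fun σ hσ => ?_⟩
    rw [MonoidHom.comp_apply, h1 σ hσ, map_one]

theorem ofMatrixRes_ρ_apply (rbar : GQ →* M2 k) (h : GaloisFactorsThroughFiniteLevel rbar)
    (σ : GQ) (v : Fin 2 → k) : (ofMatrixRes rbar h).ρ σ v = (rbar σ).mulVec v := rfl

/-- The matrix-valued homomorphism attached to a residual representation and a basis. -/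
noncomputable def matrixOfBasisRes (ρ : ResidualGaloisRep k) (b : Module.Basis (Fin 2) k ρ.V) :
    GQ →* M2 k :=
  ((LinearMap.toMatrixAlgEquiv b : Module.End k ρ.V ≃ₐ[k] M2 k) :
    Module.End k ρ.V →* M2 k).comp ρ.ρ

theorem matrixOfBasisRes_apply (ρ : ResidualGaloisRep k) (b : Module.Basis (Fin 2) k ρ.V)
    (σ : GQ) : matrixOfBasisRes ρ b σ = LinearMap.toMatrix b b (ρ.ρ σ) := rfl

theorem matrixOfBasisRes_factors (ρ : ResidualGaloisRep k) (b : Module.Basis (Fin 2) k ρ.V) :
    GaloisFactorsThroughFiniteLevel (matrixOfBasisRes ρ b) := by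
  obtain ⟨L, hL, h1⟩ := ρ.factorsThroughFiniteLevel
  refine ⟨L, hL, fun σ hσ => ?_⟩
  rw [matrixOfBasisRes, MonoidHom.comp_apply, h1 σ hσ, map_one]

/-- A residual representation is equivalent to the matrix representation attached to any basis,
provided the matrices agree. -/
noncomputable def resEquivOfMatrixOfBasis (ρ : ResidualGaloisRep k)
    (b : Module.Basis (Fin 2) k ρ.V) (rbar : GQ →* M2 k)
    (hr : GaloisFactorsThroughFiniteLevel rbar)
    (h : ∀ σ, LinearMap.toMatrix b b (ρ.ρ σ) = rbar σ) :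
    ResidualGaloisRep.Equiv ρ (ofMatrixRes rbar hr) where
  toLinearEquiv := b.equivFun
  map_apply σ x := by
    show b.equivFun (ρ.ρ σ x) = (rbar σ).mulVec (b.equivFun x)
    rw [← h σ]
    exact (LinearMap.toMatrix_mulVec_repr b b (ρ.ρ σ) x).symm

/-- (A1, residual) Every residual representation is equivalent to a matrix representation. -/
theorem exists_ofMatrixRes_isEquiv (ρ : ResidualGaloisRep k) :
    ∃ (rbar : GQ →* M2 k) (h : GaloisFactorsThroughFiniteLevel rbar),
      ρ.IsEquiv (ofMatrixRes rbar h) := by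
  let b : Module.Basis (Fin 2) k ρ.V := Module.finBasisOfFinrankEq k ρ.V ρ.finrank_eq
  exact ⟨matrixOfBasisRes ρ b, matrixOfBasisRes_factors ρ b,
    ⟨resEquivOfMatrixOfBasis ρ b _ _ fun _ => rfl⟩⟩

theorem toMatrix_basisFun_ofMatrixRes (rbar : GQ →* M2 k)
    (h : GaloisFactorsThroughFiniteLevel rbar) (σ : GQ) :
    LinearMap.toMatrix (Pi.basisFun k (Fin 2)) (Pi.basisFun k (Fin 2)) ((ofMatrixRes rbar h).ρ σ) =
      rbar σ := by
  show LinearMap.toMatrix (Pi.basisFun k (Fin 2)) (Pi.basisFun k (Fin 2))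
    (Matrix.toLin' (rbar σ)) = rbar σ
  rw [LinearMap.toMatrix_eq_toMatrix', LinearMap.toMatrix'_toLin']

theorem factors_mapMat {k' : Type} [Field k'] (ψ : k →+* k') {rbar : GQ →* M2 k}
    (h : GaloisFactorsThroughFiniteLevel rbar) :
    GaloisFactorsThroughFiniteLevel (mapMat ψ rbar) := by
  obtain ⟨L, hL, h1⟩ := h
  refine ⟨L, hL, fun σ hσ => ?_⟩
  rw [mapMat, MonoidHom.comp_apply, h1 σ hσ, map_one]

/-- Base change (along a ring homomorphism) of a residual representation with a basis. -/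
theorem res_baseChangeAlong_isEquiv_ofMatrixRes {k' : Type} [Field k'] (ψ : k →+* k')
    (ρ : ResidualGaloisRep k) (b : Module.Basis (Fin 2) k ρ.V) (r' : GQ →* M2 k')
    (hr' : GaloisFactorsThroughFiniteLevel r')
    (h : ∀ σ, (LinearMap.toMatrix b b (ρ.ρ σ)).map ψ = r' σ) :
    (ρ.baseChangeAlong ψ).IsEquiv (ofMatrixRes r' hr') := by
  letI : Algebra k k' := ψ.toAlgebra
  refine ⟨resEquivOfMatrixOfBasis (ρ.baseChangeAlong ψ) (Algebra.TensorProduct.basis k' b) r' hr'
    fun σ => ?_⟩
  rw [← h σ]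
  exact LinearMap.toMatrix_baseChange k' (ρ.ρ σ) b b

/-- (A2, residual) Base change of a residual matrix representation. -/
theorem ofMatrixRes_baseChangeAlong {k' : Type} [Field k'] (ψ : k →+* k') (rbar : GQ →* M2 k)
    (h : GaloisFactorsThroughFiniteLevel rbar) :
    ((ofMatrixRes rbar h).baseChangeAlong ψ).IsEquiv
      (ofMatrixRes (mapMat ψ rbar) (factors_mapMat ψ h)) :=
  res_baseChangeAlong_isEquiv_ofMatrixRes ψ (ofMatrixRes rbar h) (Pi.basisFun k (Fin 2)) _ _
    fun σ => congrArg (fun M : M2 k => M.map ψ) (toMatrix_basisFun_ofMatrixRes rbar h σ)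

/-- Conjugate residual matrix representations are equivalent. -/
noncomputable def resEquivOfConj {r r' : GQ →* M2 k} (hr : GaloisFactorsThroughFiniteLevel r)
    (hr' : GaloisFactorsThroughFiniteLevel r') (g : (M2 k)ˣ)
    (h : ∀ σ, (g : M2 k) * r σ = r' σ * g) :
    ResidualGaloisRep.Equiv (ofMatrixRes r hr) (ofMatrixRes r' hr') where
  toLinearEquiv := unitLinearEquiv g
  map_apply σ x := by
    have key : ∀ v : Fin 2 → k, (g : M2 k).mulVec ((r σ).mulVec v) =
        (r' σ).mulVec ((g : M2 k).mulVec v) := fun v => by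
      rw [Matrix.mulVec_mulVec, Matrix.mulVec_mulVec, h σ]
    exact key x

/-- (A3, residual) Two residual matrix representations are equivalent iff they are conjugate. -/
theorem ofMatrixRes_isEquiv_iff {r r' : GQ →* M2 k} (hr : GaloisFactorsThroughFiniteLevel r)
    (hr' : GaloisFactorsThroughFiniteLevel r') :
    (ofMatrixRes r hr).IsEquiv (ofMatrixRes r' hr') ↔
      ∃ g : (M2 k)ˣ, ∀ σ, (g : M2 k) * r σ = r' σ * g := by
  constructor
  · rintro ⟨e⟩
    let e' : (Fin 2 → k) ≃ₗ[k] (Fin 2 → k) := e.toLinearEquiv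
    refine ⟨linearEquivUnit e', fun σ => ?_⟩
    apply Matrix.toLin'.injective
    apply LinearMap.ext
    intro v
    rw [Matrix.toLin'_apply, Matrix.toLin'_apply, ← Matrix.mulVec_mulVec, ← Matrix.mulVec_mulVec,
      linearEquivUnit_mulVec, linearEquivUnit_mulVec]
    exact e.map_apply σ v
  · rintro ⟨g, hg⟩
    exact ⟨resEquivOfConj hr hr' g hg⟩

theorem resIsEquiv_refl (ρ : ResidualGaloisRep k) : ρ.IsEquiv ρ := ⟨ResidualGaloisRep.Equiv.refl ρ⟩

theorem resIsEquiv_symm {ρ₁ ρ₂ : ResidualGaloisRep k} (h : ρ₁.IsEquiv ρ₂) : ρ₂.IsEquiv ρ₁ :=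
  h.elim fun e => ⟨e.symm⟩

theorem resIsEquiv_trans {ρ₁ ρ₂ ρ₃ : ResidualGaloisRep k} (h : ρ₁.IsEquiv ρ₂)
    (h' : ρ₂.IsEquiv ρ₃) : ρ₁.IsEquiv ρ₃ :=
  h.elim fun e => h'.elim fun e' => ⟨e.trans e'⟩

theorem resIsEquiv_baseChangeAlong {k' : Type} [Field k'] (ψ : k →+* k')
    {ρ₁ ρ₂ : ResidualGaloisRep k} (h : ρ₁.IsEquiv ρ₂) :
    (ρ₁.baseChangeAlong ψ).IsEquiv (ρ₂.baseChangeAlong ψ) :=
  h.elim fun e => ⟨e.baseChangeAlong ψ⟩

/-- Pointwise equal matrix-valued homomorphisms give equivalent residual representations. -/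
theorem ofMatrixRes_isEquiv_of_forall_eq {r r' : GQ →* M2 k}
    (hr : GaloisFactorsThroughFiniteLevel r) (hr' : GaloisFactorsThroughFiniteLevel r')
    (h : ∀ σ, r σ = r' σ) : (ofMatrixRes r hr).IsEquiv (ofMatrixRes r' hr') :=
  (ofMatrixRes_isEquiv_iff hr hr').mpr ⟨1, fun σ => by rw [Units.val_one, one_mul, mul_one, h σ]⟩

end Residual

/-! ### The residual representation of a matrix representation -/

section ResidualOfAdic

variable {A : Type} [CommRing A] [IsLocalRing A]

theorem factors_of_matCont_residue {r : GQ →* M2 A} (hr : MatCont r) :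
    GaloisFactorsThroughFiniteLevel (mapMat (residue A) r) := by
  obtain ⟨L, hL, h⟩ := hr 1
  refine ⟨L, hL, fun σ hσ => ?_⟩
  ext i j
  have h1 := h σ hσ i j
  rw [pow_one, ← residue_eq_zero_iff, Matrix.sub_apply, map_sub, sub_eq_zero] at h1
  rw [mapMat_apply, h1]
  by_cases hij : i = j
  · subst hij; simp
  · simp [Matrix.one_apply_ne hij]

/-- The residual representation of a representation with a basis. -/
theorem residual_isEquiv_ofMatrixRes (ρ : GaloisRepAdic A) (b : Module.Basis (Fin 2) A ρ.V)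
    (r' : GQ →* M2 (ResidueField A)) (hr' : GaloisFactorsThroughFiniteLevel r')
    (h : ∀ σ, (LinearMap.toMatrix b b (ρ.ρ σ)).map (residue A) = r' σ) :
    ρ.residual.IsEquiv (ofMatrixRes r' hr') := by
  refine ⟨resEquivOfMatrixOfBasis ρ.residual
    (Algebra.TensorProduct.basis (ResidueField A) b) r' hr' fun σ => ?_⟩
  rw [← h σ]
  exact LinearMap.toMatrix_baseChange (ResidueField A) (ρ.ρ σ) b b

/-- (A4) The residual representation of a matrix representation. -/
theorem ofMatrix_residual (r : GQ →* M2 A) (hr : MatCont r) :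
    (ofMatrix r hr).residual.IsEquiv
      (ofMatrixRes (mapMat (residue A) r) (factors_of_matCont_residue hr)) :=
  residual_isEquiv_ofMatrixRes (ofMatrix r hr) (Pi.basisFun A (Fin 2)) _ _ fun σ =>
    congrArg (fun M : M2 A => M.map (residue A)) (toMatrix_basisFun_ofMatrix r hr σ)

end ResidualOfAdic

/-! ### Lifts of a residual matrix representation -/

section Lift

variable {𝒪 : Type} [CommRing 𝒪] [IsLocalRing 𝒪] {A : Type} [CommRing A] [IsLocalRing A]
  [Algebra 𝒪 A] [IsLocalHom (algebraMap 𝒪 A)]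

/-- `IsStrictLift rbar r` says that `r` reduces entrywise to the image of `rbar`. -/
theorem isStrictLift_iff (rbar : GQ →* M2 (ResidueField 𝒪)) (r : GQ →* M2 A) :
    IsStrictLift rbar r ↔
      ∀ σ, (r σ).map (residue A) = (rbar σ).map (ResidueField.map (algebraMap 𝒪 A)) := by
  constructor
  · intro h σ
    ext i j
    obtain ⟨a, ha⟩ := residue_surjective (rbar σ i j)
    have h1 := h σ i j a ha
    rw [← residue_eq_zero_iff, map_sub, sub_eq_zero] at h1
    rw [Matrix.map_apply, Matrix.map_apply, h1, ← ha]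
    exact (ResidueField.map_residue (algebraMap 𝒪 A) a).symm
  · intro h σ i j a ha
    have h1 := congrFun (congrFun (h σ) i) j
    rw [Matrix.map_apply, Matrix.map_apply] at h1
    rw [← residue_eq_zero_iff, map_sub, sub_eq_zero, h1, ← ha]
    exact ResidueField.map_residue (algebraMap 𝒪 A) a

/-- (A5b, general form) The residual representation of a strict lift of `rbar`. -/
theorem residual_isEquiv_of_isStrictLift (ρbar : ResidualGaloisRep (ResidueField 𝒪))
    {rbar : GQ →* M2 (ResidueField 𝒪)} (hrbar : GaloisFactorsThroughFiniteLevel rbar)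
    (hρbar : ρbar.IsEquiv (ofMatrixRes rbar hrbar)) {r : GQ →* M2 A} (hr : MatCont r)
    (hlift : IsStrictLift rbar r) :
    (ofMatrix r hr).residual.IsEquiv
      (ρbar.baseChangeAlong (ResidueField.map (algebraMap 𝒪 A))) := by
  refine resIsEquiv_trans (ofMatrix_residual r hr) ?_
  refine resIsEquiv_trans ?_ (resIsEquiv_symm (resIsEquiv_baseChangeAlong _ hρbar))
  refine resIsEquiv_trans ?_ (resIsEquiv_symm (ofMatrixRes_baseChangeAlong _ rbar hrbar))
  exact ofMatrixRes_isEquiv_of_forall_eq _ _ ((isStrictLift_iff rbar r).mp hlift)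

/-- (A5a, general form) A representation whose residual representation is `ρbar` (base changed)
is equivalent to a matrix representation which is a strict lift of `rbar`. -/
theorem exists_isStrictLift_of_residual_isEquiv (ρbar : ResidualGaloisRep (ResidueField 𝒪))
    {rbar : GQ →* M2 (ResidueField 𝒪)} (hrbar : GaloisFactorsThroughFiniteLevel rbar)
    (hρbar : ρbar.IsEquiv (ofMatrixRes rbar hrbar)) (ρA : GaloisRepAdic A)
    (hres : ρA.residual.IsEquiv (ρbar.baseChangeAlong (ResidueField.map (algebraMap 𝒪 A)))) :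
    ∃ (r : GQ →* M2 A) (hr : MatCont r), IsStrictLift rbar r ∧ ρA.IsEquiv (ofMatrix r hr) := by
  obtain ⟨r₀, hr₀, h₀⟩ := MatrixModel.exists_isEquiv_ofMatrix ρA
  -- the residual representation of `ofMatrix r₀` is conjugate to the image of `rbar`
  have h1 : (ofMatrixRes (mapMat (residue A) r₀) (factors_of_matCont_residue hr₀)).IsEquiv
      (ofMatrixRes (mapMat (ResidueField.map (algebraMap 𝒪 A)) rbar)
        (factors_mapMat _ hrbar)) := by
    refine resIsEquiv_trans (resIsEquiv_symm (ofMatrix_residual r₀ hr₀)) ?_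
    refine resIsEquiv_trans (resIsEquiv_symm (adicIsEquiv_residual h₀)) ?_
    refine resIsEquiv_trans hres ?_
    exact resIsEquiv_trans (resIsEquiv_baseChangeAlong _ hρbar)
      (ofMatrixRes_baseChangeAlong _ rbar hrbar)
  obtain ⟨gbar, hgbar⟩ := (ofMatrixRes_isEquiv_iff _ _).mp h1
  obtain ⟨g, hg⟩ := exists_unit_map_residue_eq gbar
  refine ⟨conjHom g r₀, matCont_conjHom g hr₀, ?_,
    adicIsEquiv_trans h₀ (ofMatrix_isEquiv_conjHom g hr₀)⟩
  rw [isStrictLift_iff]
  intro σ
  -- reduce the conjugate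
  have hginv : (((g⁻¹ : (M2 A)ˣ) : M2 A)).map (residue A) =
      ((gbar⁻¹ : (M2 (ResidueField A))ˣ) : M2 (ResidueField A)) := by
    have h2 : (g : M2 A).map (residue A) * (((g⁻¹ : (M2 A)ˣ) : M2 A)).map (residue A) = 1 := by
      rw [← Matrix.map_mul, Units.mul_inv, Matrix.map_one _ (map_zero _) (map_one _)]
    rw [hg] at h2
    exact (Units.inv_eq_of_mul_eq_one_right h2).symm
  rw [conjHom_apply, Matrix.map_mul, Matrix.map_mul, hg, hginv]
  have h3 := hgbar σ
  rw [MatrixModel.mapMat_apply', MatrixModel.mapMat_apply'] at h3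
  rw [h3, mul_assoc, Units.mul_inv, mul_one]

end Lift

/-! ### Coefficient fields -/

section Field

theorem matCont_of_factors {A : Type} [CommRing A] [IsLocalRing A] {r : GQ →* M2 A}
    (h : GaloisFactorsThroughFiniteLevel r) : MatCont r := by
  intro n
  obtain ⟨L, hL, h1⟩ := h
  exact ⟨L, hL, fun σ hσ i j => by rw [h1 σ hσ, sub_self]; exact zero_mem _⟩

theorem factors_of_matCont_field {k : Type} [Field k] {r : GQ →* M2 k} (h : MatCont r) :
    GaloisFactorsThroughFiniteLevel r := by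
  obtain ⟨L, hL, h1⟩ := h 1
  refine ⟨L, hL, fun σ hσ => ?_⟩
  have hbot : maximalIdeal k = ⊥ :=
    (Ideal.eq_bot_or_top _).resolve_right (Ideal.IsMaximal.ne_top inferInstance)
  ext i j
  have h2 := h1 σ hσ i j
  rw [hbot, pow_one, Ideal.mem_bot, Matrix.sub_apply, sub_eq_zero] at h2
  exact h2

/-- (A4') Over a field, `ofResidualGaloisRep` of a residual representation equivalent to
`ofMatrixRes rbar` is equivalent to `ofMatrix rbar`. -/
theorem ofResidualGaloisRep_isEquiv_ofMatrix {k : Type} [Field k] (ρ : ResidualGaloisRep k)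
    {rbar : GQ →* M2 k} (hrbar : GaloisFactorsThroughFiniteLevel rbar)
    (h : ρ.IsEquiv (ofMatrixRes rbar hrbar)) (hcont : MatCont rbar) :
    (GaloisRepAdic.ofResidualGaloisRep ρ).IsEquiv (ofMatrix rbar hcont) :=
  h.elim fun e => ⟨{ toLinearEquiv := e.toLinearEquiv, map_apply := e.map_apply }⟩

end Field

/-! ### Slice data -/

section Slice

variable {𝒪 : Type} [CommRing 𝒪] [IsLocalRing 𝒪] {ρbar : ResidualGaloisRep (ResidueField 𝒪)}

theorem SliceData.factors (D : SliceData 𝒪 ρbar) : GaloisFactorsThroughFiniteLevel D.rbar := by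
  obtain ⟨L, hL, h1⟩ := ρbar.factorsThroughFiniteLevel
  refine ⟨L, hL, fun σ hσ => ?_⟩
  rw [D.rbar_eq σ, h1 σ hσ]
  exact LinearMap.toMatrix_one D.basis

theorem SliceData.matCont_rbar (D : SliceData 𝒪 ρbar) : MatCont D.rbar :=
  matCont_of_factors D.factors

theorem SliceData.isEquiv_ofMatrixRes (D : SliceData 𝒪 ρbar) :
    ρbar.IsEquiv (ofMatrixRes D.rbar D.factors) :=
  ⟨resEquivOfMatrixOfBasis ρbar D.basis D.rbar D.factors fun σ => (D.rbar_eq σ).symm⟩

/-- (A5c) The residual representation itself, viewed as a representation over the residue field,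
is the matrix representation attached to `D.rbar`. -/
theorem ofResidual_isEquiv_ofMatrix_rbar (D : SliceData 𝒪 ρbar) (hcont : MatCont D.rbar) :
    (GaloisRepAdic.ofResidualGaloisRep ρbar).IsEquiv (ofMatrix D.rbar hcont) :=
  ofResidualGaloisRep_isEquiv_ofMatrix ρbar D.factors D.isEquiv_ofMatrixRes hcont

variable {A : Type} [CommRing A] [IsLocalRing A] [Algebra 𝒪 A] [IsLocalHom (algebraMap 𝒪 A)]

/-- (A5a) A representation whose residual representation is `ρbar` (base changed) is equivalent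
to a matrix representation which is a strict lift of `D.rbar`. -/
theorem exists_strictLift (D : SliceData 𝒪 ρbar) (ρA : GaloisRepAdic A)
    (hres : ρA.residual.IsEquiv (ρbar.baseChangeAlong (ResidueField.map (algebraMap 𝒪 A)))) :
    ∃ (r : GQ →* M2 A) (h : MatCont r), IsStrictLift D.rbar r ∧ ρA.IsEquiv (ofMatrix r h) :=
  exists_isStrictLift_of_residual_isEquiv ρbar D.factors D.isEquiv_ofMatrixRes ρA hres

/-- (A5b) The residual representation of a strict lift of `D.rbar` is `ρbar` (base changed). -/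
theorem residual_isEquiv_of_strictLift (D : SliceData 𝒪 ρbar) {r : GQ →* M2 A} (h : MatCont r)
    (hlift : IsStrictLift D.rbar r) :
    (ofMatrix r h).residual.IsEquiv
      (ρbar.baseChangeAlong (ResidueField.map (algebraMap 𝒪 A))) :=
  residual_isEquiv_of_isStrictLift ρbar D.factors D.isEquiv_ofMatrixRes h hlift

end Slice

/-! ### Deformation conditions -/

section Condition

open GaloisRep

variable {𝒪 : Type} [CommRing 𝒪]
  {𝒟 : ∀ ⦃A : Type⦄ [CommRing A] [IsLocalRing A] [Algebra 𝒪 A], GaloisRepAdic A → Prop}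

/-- A deformation condition is invariant under equivalence also over complete Noetherian local
coefficient rings (the prelude only postulates this over Artinian ones). -/
theorem IsDeformationCondition_of_isEquiv_complete (h𝒟 : IsDeformationCondition 𝒪 𝒟)
    {A : Type} [CommRing A] [IsLocalRing A] [IsNoetherianRing A]
    [IsAdicComplete (maximalIdeal A) A] [Algebra 𝒪 A]
    (hloc : IsLocalHom (algebraMap 𝒪 A))
    (hsurj : Function.Surjective (residue A ∘ algebraMap 𝒪 A))
    {ρ ρ' : GaloisRepAdic A} (he : ρ.IsEquiv ρ') (hρ : 𝒟 ρ) : 𝒟 ρ' := by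
  rw [h𝒟.iff_forall_surjective hloc hsurj] at hρ ⊢
  intro B _ _ _ hB q hq hqs
  exact h𝒟.of_isEquiv hB (adicIsEquiv_baseChangeAlong _ hq he) (hρ hB q hq hqs)

end Condition

end Fermat.Agent.S53
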