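import Mathlib

/-!
# S53, part (D1): evaluation of multivariate power series at "nilpotent" tuples

For a commutative `𝒪`-algebra `A`, a finite index type `σ`, a tuple `u : σ → A` and `n : ℕ` with
`(Ideal.span (Set.range u)) ^ n = ⊥`, we construct the `𝒪`-algebra homomorphism
`MvPowerSeries σ 𝒪 →ₐ[𝒪] A` sending `X i` to `u i`, purely algebraically (truncation to
polynomials modulo the `n`-th power of the ideal of variables).
-/

set_option autoImplicit false

noncomputable section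

namespace Fermat.Agent.S53

open MvPowerSeries

variable {𝒪 : Type*} [CommRing 𝒪] {σ : Type*} {A : Type*} [CommRing A] [Algebra 𝒪 A]

theorem aeval_eq_zero_of_mem_pow_idealOfVars (u : σ → A) (n : ℕ)
    (hu : Ideal.span (Set.range u) ^ n = ⊥) (p : MvPolynomial σ 𝒪)
    (hp : p ∈ MvPolynomial.idealOfVars σ 𝒪 ^ n) : MvPolynomial.aeval u p = 0 := by
  have h1 : Ideal.map (MvPolynomial.aeval (R := 𝒪) u) (MvPolynomial.idealOfVars σ 𝒪 ^ n) ≤
      Ideal.span (Set.range u) ^ n := by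
    rw [Ideal.map_pow]
    refine Ideal.pow_right_mono ?_ n
    rw [MvPolynomial.idealOfVars, Ideal.map_span]
    refine Ideal.span_mono ?_
    rintro _ ⟨_, ⟨i, rfl⟩, rfl⟩
    exact ⟨i, by simp⟩
  have h2 := h1 (Ideal.mem_map_of_mem _ hp)
  rw [hu] at h2
  simpa using h2

variable [Finite σ]

/-- Evaluation of a power series at a tuple `u` with `(span (range u)) ^ n = ⊥`. -/
def evalNilp (u : σ → A) (n : ℕ) (hu : Ideal.span (Set.range u) ^ n = ⊥) :
    MvPowerSeries σ 𝒪 →ₐ[𝒪] A :=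
  (Ideal.Quotient.liftₐ (MvPolynomial.idealOfVars σ 𝒪 ^ n) (MvPolynomial.aeval (R := 𝒪) u)
    (aeval_eq_zero_of_mem_pow_idealOfVars u n hu)).comp
    ((truncTotalAlgHom σ 𝒪 n).restrictScalars 𝒪)

theorem evalNilp_apply (u : σ → A) (n : ℕ) (hu : Ideal.span (Set.range u) ^ n = ⊥)
    (p : MvPowerSeries σ 𝒪) :
    evalNilp u n hu p = MvPolynomial.aeval u (truncTotal n p) := rfl

theorem evalNilp_coe (u : σ → A) (n : ℕ) (hu : Ideal.span (Set.range u) ^ n = ⊥)
    (p : MvPolynomial σ 𝒪) :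
    evalNilp u n hu (p : MvPowerSeries σ 𝒪) = MvPolynomial.aeval u p := by
  rw [evalNilp_apply]
  have hmem : truncTotal n (p : MvPowerSeries σ 𝒪) - p ∈ MvPolynomial.idealOfVars σ 𝒪 ^ n := by
    rw [MvPolynomial.mem_pow_idealOfVars_iff']
    intro x hx
    rw [MvPolynomial.coeff_sub, coeff_truncTotal _ hx, MvPolynomial.coeff_coe, sub_self]
  have h0 := aeval_eq_zero_of_mem_pow_idealOfVars u n hu _ hmem
  rw [map_sub, sub_eq_zero] at h0
  exact h0

@[simp]
theorem evalNilp_X (u : σ → A) (n : ℕ) (hu : Ideal.span (Set.range u) ^ n = ⊥) (i : σ) :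
    evalNilp u n hu (X i : MvPowerSeries σ 𝒪) = u i := by
  have := evalNilp_coe (𝒪 := 𝒪) u n hu (MvPolynomial.X i)
  rwa [MvPolynomial.coe_X, MvPolynomial.aeval_X] at this

theorem evalNilp_range (u : σ → A) (n : ℕ) (hu : Ideal.span (Set.range u) ^ n = ⊥) :
    (evalNilp (𝒪 := 𝒪) u n hu).range = Algebra.adjoin 𝒪 (Set.range u) := by
  apply le_antisymm
  · rintro _ ⟨p, rfl⟩
    show evalNilp u n hu p ∈ _
    rw [evalNilp_apply, ← MvPolynomial.aeval_range]
    exact ⟨_, rfl⟩
  · rw [Algebra.adjoin_le_iff]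
    rintro _ ⟨i, rfl⟩
    exact ⟨X i, evalNilp_X u n hu i⟩

omit [Finite σ] in
/-- Any algebra hom out of the power series ring sending `X i` to `u i` kills
`(span (range X)) ^ n` as soon as `(span (range u)) ^ n = ⊥`. -/
theorem pow_span_X_le_ker_of_apply_X (φ : MvPowerSeries σ 𝒪 →ₐ[𝒪] A) (u : σ → A) (n : ℕ)
    (hu : Ideal.span (Set.range u) ^ n = ⊥) (hφ : ∀ i, φ (X i) = u i) :
    (Ideal.span (Set.range (X : σ → MvPowerSeries σ 𝒪))) ^ n ≤ RingHom.ker φ := by
  intro p hp
  have h1 : Ideal.map φ ((Ideal.span (Set.range (X : σ → MvPowerSeries σ 𝒪))) ^ n) ≤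
      Ideal.span (Set.range u) ^ n := by
    rw [Ideal.map_pow]
    refine Ideal.pow_right_mono ?_ n
    rw [Ideal.map_span]
    refine Ideal.span_mono ?_
    rintro _ ⟨_, ⟨i, rfl⟩, rfl⟩
    exact ⟨i, (hφ i).symm⟩
  have h2 := h1 (Ideal.mem_map_of_mem _ hp)
  rw [hu] at h2
  simpa using h2

theorem pow_span_X_le_ker_evalNilp (u : σ → A) (n : ℕ) (hu : Ideal.span (Set.range u) ^ n = ⊥) :
    (Ideal.span (Set.range (X : σ → MvPowerSeries σ 𝒪))) ^ n ≤
      RingHom.ker (evalNilp (𝒪 := 𝒪) u n hu) :=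
  pow_span_X_le_ker_of_apply_X _ u n hu (evalNilp_X u n hu)

/-- A power series differs from its truncation by an element of `(span (range X)) ^ n`. -/
theorem sub_truncTotal_mem_pow_span_X (n : ℕ) (p : MvPowerSeries σ 𝒪) :
    p - (truncTotal n p : MvPolynomial σ 𝒪) ∈
      (Ideal.span (Set.range (X : σ → MvPowerSeries σ 𝒪))) ^ n := by
  set q : MvPowerSeries σ 𝒪 := p - (truncTotal n p : MvPolynomial σ 𝒪) with hq
  set e := toAdicCompletionAlgEquiv σ 𝒪 with he
  -- truncation of `q` vanishes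
  have htr : truncTotal n q = 0 := by
    ext x
    rw [hq, map_sub, MvPolynomial.coeff_sub, MvPolynomial.coeff_zero]
    by_cases hx : Finsupp.degree x < n
    · rw [coeff_truncTotal _ hx, coeff_truncTotal _ hx, MvPolynomial.coeff_coe, coeff_truncTotal _ hx,
        sub_self]
    · rw [coeff_truncTotal_eq_zero _ (not_lt.mp hx), coeff_truncTotal_eq_zero _ (not_lt.mp hx),
        sub_self]
  have hker : e q ∈ (AdicCompletion.eval (MvPolynomial.idealOfVars σ 𝒪) (MvPolynomial σ 𝒪) n).ker := by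
    rw [LinearMap.mem_ker, AdicCompletion.eval_apply, he, toAdicCompletionAlgEquiv_apply,
      toAdicCompletion_apply_eq_mk_truncTotal, htr, map_zero]
  rw [← AdicCompletion.pow_smul_top_eq_ker_eval (MvPolynomial.idealOfVars_fg σ 𝒪)] at hker
  -- transport back
  have hmap : ∀ y ∈ (MvPolynomial.idealOfVars σ 𝒪 ^ n • ⊤ :
      Submodule (MvPolynomial σ 𝒪) (AdicCompletion (MvPolynomial.idealOfVars σ 𝒪) (MvPolynomial σ 𝒪))),
      e.symm y ∈ (Ideal.span (Set.range (X : σ → MvPowerSeries σ 𝒪))) ^ n := by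
    intro y hy
    refine Submodule.smul_induction_on hy ?_ ?_
    · intro r hr y _
      rw [map_smul, Algebra.smul_def]
      refine Ideal.mul_mem_right _ _ ?_
      have h1 : Ideal.map (algebraMap (MvPolynomial σ 𝒪) (MvPowerSeries σ 𝒪))
          (MvPolynomial.idealOfVars σ 𝒪 ^ n) ≤
          (Ideal.span (Set.range (X : σ → MvPowerSeries σ 𝒪))) ^ n := by
        rw [Ideal.map_pow]
        refine Ideal.pow_right_mono ?_ n
        rw [MvPolynomial.idealOfVars, Ideal.map_span]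
        refine Ideal.span_mono ?_
        rintro _ ⟨_, ⟨i, rfl⟩, rfl⟩
        exact ⟨i, (MvPolynomial.coe_X i).symm⟩
      exact h1 (Ideal.mem_map_of_mem _ hr)
    · intro x y hx hy
      rw [map_add]
      exact Ideal.add_mem _ hx hy
  have := hmap _ hker
  rwa [AlgEquiv.symm_apply_apply] at this

/-- Uniqueness: an algebra hom out of the power series ring with `X i ↦ u i`, where
`(span (range u)) ^ n = ⊥`, is `evalNilp`. -/
theorem eq_evalNilp (φ : MvPowerSeries σ 𝒪 →ₐ[𝒪] A) (u : σ → A) (n : ℕ)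
    (hu : Ideal.span (Set.range u) ^ n = ⊥) (hφ : ∀ i, φ (X i) = u i) :
    φ = evalNilp u n hu := by
  ext p
  have h1 := pow_span_X_le_ker_of_apply_X φ u n hu hφ (sub_truncTotal_mem_pow_span_X n p)
  have h2 := pow_span_X_le_ker_evalNilp (𝒪 := 𝒪) u n hu (sub_truncTotal_mem_pow_span_X n p)
  rw [RingHom.mem_ker, map_sub, sub_eq_zero] at h1 h2
  rw [h1, h2]
  -- both agree on polynomials
  have h3 : ∀ q : MvPolynomial σ 𝒪, φ (q : MvPowerSeries σ 𝒪) = MvPolynomial.aeval u q := by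
    intro q
    have : (φ.comp (MvPolynomial.coeToMvPowerSeries.algHom 𝒪)) = MvPolynomial.aeval u := by
      apply MvPolynomial.algHom_ext
      intro i
      simp [hφ]
    exact DFunLike.congr_fun this q
  rw [h3, evalNilp_coe]

end Fermat.Agent.S53
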