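/-
T-S53 (C1)/(C2) (helper18): Artinian test algebras are finite local rings; closure properties of
test algebras (subalgebras, quotients, fibre products over the residue field) and of pairs.
-/
import Mathlib
import Fermat.Agent.S53.Defs
import Fermat.Agent.S53.MatrixModel

set_option autoImplicit false
set_option linter.style.haveILetI false
set_option linter.unusedSectionVars false

namespace Fermat.Agent.S53

open IsLocalRing GaloisRep

variable {𝒪 : Type} [CommRing 𝒪] [IsLocalRing 𝒪]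

section Test

variable {A : Type} [CommRing A] [IsLocalRing A] [Algebra 𝒪 A]

theorem test_exists_sub_mem (hA : IsArtinianTestAlgebra 𝒪 A) (a : A) :
    ∃ c : 𝒪, a - algebraMap 𝒪 A c ∈ maximalIdeal A := by
  obtain ⟨c, hc⟩ := hA.residue_surjective (residue A a)
  refine ⟨c, ?_⟩
  rw [← residue_eq_zero_iff, map_sub, sub_eq_zero]
  exact hc.symm

theorem test_exists_pow_eq_bot (hA : IsArtinianTestAlgebra 𝒪 A) :
    ∃ n : ℕ, maximalIdeal A ^ n = ⊥ := by
  haveI := hA.isArtinian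
  obtain ⟨n, hn⟩ := (isArtinianRing_iff_isNilpotent_maximalIdeal A).mp inferInstance
  exact ⟨n, by simpa using hn⟩

theorem test_isNilpotent_of_mem (hA : IsArtinianTestAlgebra 𝒪 A) {a : A}
    (ha : a ∈ maximalIdeal A) : IsNilpotent a := by
  obtain ⟨n, hn⟩ := test_exists_pow_eq_bot hA
  refine ⟨n, ?_⟩
  have : a ^ n ∈ maximalIdeal A ^ n := Ideal.pow_mem_pow ha n
  rwa [hn, Ideal.mem_bot] at this

theorem test_finite [Finite (ResidueField 𝒪)] (hA : IsArtinianTestAlgebra 𝒪 A) : Finite A := by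
  haveI := hA.isArtinian
  haveI := hA.isLocalHom
  have hsurj : Function.Surjective (ResidueField.map (algebraMap 𝒪 A)) := by
    intro x
    obtain ⟨c, hc⟩ := hA.residue_surjective x
    exact ⟨residue 𝒪 c, by rw [ResidueField.map_residue]; exact hc⟩
  haveI : Finite (ResidueField A) := Finite.of_surjective _ hsurj
  haveI : Finite (A ⧸ maximalIdeal A) := ‹Finite (ResidueField A)›
  obtain ⟨n, hn⟩ := test_exists_pow_eq_bot hA
  haveI : Finite (A ⧸ maximalIdeal A ^ n) :=
    Ideal.finite_quotient_pow (IsNoetherian.noetherian _) n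
  rw [hn] at this
  exact Finite.of_equiv _ (RingEquiv.quotientBot A).toEquiv

/-- Every `𝒪`-algebra homomorphism out of a test algebra into a local ring is local. -/
theorem isLocalHom_of_test {B : Type} [CommRing B] [IsLocalRing B] [Algebra 𝒪 B]
    (hA : IsArtinianTestAlgebra 𝒪 A) (f : A →ₐ[𝒪] B) : IsLocalHom (f : A →+* B) := by
  refine ⟨fun a ha => ?_⟩
  by_contra hna
  have hmem : a ∈ maximalIdeal A := (mem_maximalIdeal a).mpr hna
  obtain ⟨n, hn⟩ := test_isNilpotent_of_mem hA hmem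
  have h0 : ((f : A →+* B) a) ^ n = 0 := by rw [← map_pow, hn, map_zero]
  have hu : IsUnit (((f : A →+* B) a) ^ n) := ha.pow n
  rw [h0] at hu
  exact not_isUnit_zero hu

theorem test_residueField : IsArtinianTestAlgebra 𝒪 (ResidueField 𝒪) where
  isLocalHom := by
    rw [ResidueField.algebraMap_eq]; infer_instance
  residue_surjective := by
    intro x
    obtain ⟨y, rfl⟩ := residue_surjective x
    obtain ⟨c, rfl⟩ := residue_surjective y
    exact ⟨c, rfl⟩
  isArtinian := inferInstance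

end Test


section Subalgebra

variable {S : Type} [CommRing S] [Algebra 𝒪 S]

/-- In a finite ring, a subalgebra is closed under inverses of units. -/
theorem isUnit_subalgebra_of_isUnit [Finite S] (E : Subalgebra 𝒪 S) (x : E)
    (hx : IsUnit (x : S)) : IsUnit x := by
  obtain ⟨u, hu⟩ := hx
  have hfin : IsOfFinOrder u := isOfFinOrder_of_finite u
  obtain ⟨n, hn, hpow⟩ := hfin.exists_pow_eq_one
  have h1 : (x : S) ^ n = 1 := by
    rw [← hu, ← Units.val_pow_eq_pow_val, hpow, Units.val_one]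
  refine IsUnit.of_mul_eq_one (x ^ (n - 1)) ?_
  apply Subtype.ext
  rw [Subalgebra.coe_mul, Subalgebra.coe_pow, Subalgebra.coe_one, ← pow_succ',
    Nat.sub_add_cancel hn, h1]

end Subalgebra

section SubTest

variable {A : Type} [CommRing A] [IsLocalRing A] [Algebra 𝒪 A]

theorem isUnit_subalgebra_iff [Finite (ResidueField 𝒪)] (hA : IsArtinianTestAlgebra 𝒪 A)
    (E : Subalgebra 𝒪 A) (x : E) : IsUnit x ↔ IsUnit (x : A) := by
  haveI := test_finite hA
  exact ⟨fun h => h.map E.val, isUnit_subalgebra_of_isUnit E x⟩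

/-- A subalgebra of a test algebra is a local ring. -/
theorem isLocalRing_subalgebra [Finite (ResidueField 𝒪)] (hA : IsArtinianTestAlgebra 𝒪 A)
    (E : Subalgebra 𝒪 A) : IsLocalRing E := by
  haveI : Nontrivial E := ⟨⟨0, 1, fun h => zero_ne_one (α := A) (congrArg Subtype.val h)⟩⟩
  refine IsLocalRing.of_nonunits_add fun a b ha hb => ?_
  rw [mem_nonunits_iff, isUnit_subalgebra_iff hA] at ha hb ⊢
  have := (IsLocalRing.nonunits_add (R := A) ha hb)
  simpa using this

end SubTest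


section SubTest2

variable {A : Type} [CommRing A] [IsLocalRing A] [Algebra 𝒪 A]

theorem mem_maximalIdeal_subalgebra_iff [Finite (ResidueField 𝒪)]
    (hA : IsArtinianTestAlgebra 𝒪 A) (E : Subalgebra 𝒪 A) (x : E) :
    haveI := isLocalRing_subalgebra hA E
    x ∈ maximalIdeal E ↔ (x : A) ∈ maximalIdeal A := by
  haveI := isLocalRing_subalgebra hA E
  rw [mem_maximalIdeal, mem_maximalIdeal, mem_nonunits_iff, mem_nonunits_iff,
    isUnit_subalgebra_iff hA]

/-- A subalgebra of a test algebra is a test algebra. -/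
theorem test_subalgebra [Finite (ResidueField 𝒪)] (hA : IsArtinianTestAlgebra 𝒪 A)
    (E : Subalgebra 𝒪 A) :
    haveI := isLocalRing_subalgebra hA E
    IsArtinianTestAlgebra 𝒪 E := by
  haveI := isLocalRing_subalgebra hA E
  haveI := test_finite hA
  refine ⟨⟨fun c hc => ?_⟩, fun x => ?_, inferInstance⟩
  · haveI := hA.isLocalHom
    have h1 : IsUnit (algebraMap 𝒪 A c) := by
      have := hc.map E.val
      simpa using this
    exact isUnit_of_map_unit (algebraMap 𝒪 A) c h1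
  · obtain ⟨y, rfl⟩ := residue_surjective x
    obtain ⟨c, hc⟩ := test_exists_sub_mem hA (y : A)
    refine ⟨c, ?_⟩
    rw [Function.comp_apply, ← sub_eq_zero, ← map_sub, residue_eq_zero_iff,
      mem_maximalIdeal_subalgebra_iff hA]
    have : ((algebraMap 𝒪 E c - y : E) : A) = -(↑y - algebraMap 𝒪 A c) := by
      simp
    rw [this]
    exact neg_mem hc

end SubTest2

section Quotient

variable {A : Type} [CommRing A] [IsLocalRing A] [Algebra 𝒪 A]

theorem isLocalRing_quotient (I : Ideal A) (hI : I ≠ ⊤) : IsLocalRing (A ⧸ I) :=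
  haveI : Nontrivial (A ⧸ I) := Ideal.Quotient.nontrivial_iff.mpr hI
  IsLocalRing.of_surjective' (Ideal.Quotient.mk I) Ideal.Quotient.mk_surjective

/-- A nontrivial quotient of a test algebra is a test algebra. -/
theorem test_quotient (hA : IsArtinianTestAlgebra 𝒪 A) (I : Ideal A) (hI : I ≠ ⊤) :
    haveI := isLocalRing_quotient I hI
    IsArtinianTestAlgebra 𝒪 (A ⧸ I) := by
  haveI := isLocalRing_quotient I hI
  haveI := hA.isArtinian
  haveI := hA.isLocalHom
  have hloc : IsLocalHom ((Ideal.Quotient.mkₐ 𝒪 I : A →ₐ[𝒪] A ⧸ I) : A →+* A ⧸ I) :=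
    isLocalHom_of_test hA _
  refine ⟨⟨fun c hc => ?_⟩, fun x => ?_, ?_⟩
  · have h1 : IsUnit (algebraMap 𝒪 A c) := by
      apply hloc.map_nonunit
      simpa using hc
    exact isUnit_of_map_unit (algebraMap 𝒪 A) c h1
  · obtain ⟨y, rfl⟩ := residue_surjective x
    obtain ⟨z, rfl⟩ := Ideal.Quotient.mk_surjective y
    obtain ⟨c, hc⟩ := test_exists_sub_mem hA z
    refine ⟨c, ?_⟩
    rw [Function.comp_apply, ← sub_eq_zero, ← map_sub, residue_eq_zero_iff]
    have h2 : (algebraMap 𝒪 (A ⧸ I) c - Ideal.Quotient.mk I z) =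
        Ideal.Quotient.mk I (-(z - algebraMap 𝒪 A c)) := by
      simp
    rw [h2]
    by_contra hcon
    have hu : IsUnit (Ideal.Quotient.mk I (-(z - algebraMap 𝒪 A c))) := by
      rwa [mem_maximalIdeal, mem_nonunits_iff, not_not] at hcon
    have hu' : IsUnit (-(z - algebraMap 𝒪 A c)) := hloc.map_nonunit _ hu
    exact (mem_maximalIdeal _).mp (neg_mem hc) hu'
  · exact (Ideal.Quotient.mk_surjective (I := I)).isArtinianRing

end Quotient


section ResK

variable {A : Type} [CommRing A] [IsLocalRing A] [Algebra 𝒪 A]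

theorem algebraMap_mem_maximalIdeal_iff (hA : IsArtinianTestAlgebra 𝒪 A) (c : 𝒪) :
    algebraMap 𝒪 A c ∈ maximalIdeal A ↔ c ∈ maximalIdeal 𝒪 := by
  haveI := hA.isLocalHom
  rw [mem_maximalIdeal, mem_maximalIdeal, mem_nonunits_iff, mem_nonunits_iff]
  exact not_congr ⟨fun h => isUnit_of_map_unit (algebraMap 𝒪 A) c h, fun h => h.map _⟩

/-- The residue map of a test algebra, with values in the residue field of `𝒪`. -/
theorem exists_resk (hA : IsArtinianTestAlgebra 𝒪 A) :
    ∃ f : A →ₐ[𝒪] ResidueField 𝒪, ∀ (a : A) (c : 𝒪),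
      f a = residue 𝒪 c ↔ a - algebraMap 𝒪 A c ∈ maximalIdeal A := by
  haveI := hA.isLocalHom
  have hbij : Function.Bijective (ResidueField.map (algebraMap 𝒪 A)) := by
    refine ⟨RingHom.injective _, fun x => ?_⟩
    obtain ⟨c, hc⟩ := hA.residue_surjective x
    exact ⟨residue 𝒪 c, by rw [ResidueField.map_residue]; exact hc⟩
  let e : ResidueField 𝒪 ≃+* ResidueField A := RingEquiv.ofBijective _ hbij
  have he : ∀ c : 𝒪, e (residue 𝒪 c) = residue A (algebraMap 𝒪 A c) := fun c =>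
    ResidueField.map_residue _ c
  let f0 : A →+* ResidueField 𝒪 := (e.symm : ResidueField A →+* ResidueField 𝒪).comp (residue A)
  have hf0 : ∀ c : 𝒪, f0 (algebraMap 𝒪 A c) = algebraMap 𝒪 (ResidueField 𝒪) c := by
    intro c
    show e.symm (residue A (algebraMap 𝒪 A c)) = _
    rw [← he, RingEquiv.symm_apply_apply, ResidueField.algebraMap_eq]
  refine ⟨{ f0 with commutes' := hf0 }, fun a c => ?_⟩
  show e.symm (residue A a) = residue 𝒪 c ↔ _
  rw [RingEquiv.symm_apply_eq, he, ← sub_eq_zero, ← map_sub, residue_eq_zero_iff]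

end ResK

section Fibre

variable (A B : Type) [CommRing A] [IsLocalRing A] [Algebra 𝒪 A]
  [CommRing B] [IsLocalRing B] [Algebra 𝒪 B]

/-- The fibre product of two local `𝒪`-algebras over the residue field of `𝒪`. -/
def fibre : Subalgebra 𝒪 (A × B) where
  carrier := {x | ∃ c : 𝒪, x.1 - algebraMap 𝒪 A c ∈ maximalIdeal A ∧
    x.2 - algebraMap 𝒪 B c ∈ maximalIdeal B}
  mul_mem' := by
    rintro x y ⟨c, hc1, hc2⟩ ⟨d, hd1, hd2⟩
    refine ⟨c * d, ?_, ?_⟩
    · have : (x * y).1 - algebraMap 𝒪 A (c * d) =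
          (x.1 - algebraMap 𝒪 A c) * y.1 + algebraMap 𝒪 A c * (y.1 - algebraMap 𝒪 A d) := by
        rw [map_mul, Prod.fst_mul]; ring
      rw [this]
      exact add_mem (Ideal.mul_mem_right _ _ hc1) (Ideal.mul_mem_left _ _ hd1)
    · have : (x * y).2 - algebraMap 𝒪 B (c * d) =
          (x.2 - algebraMap 𝒪 B c) * y.2 + algebraMap 𝒪 B c * (y.2 - algebraMap 𝒪 B d) := by
        rw [map_mul, Prod.snd_mul]; ring
      rw [this]
      exact add_mem (Ideal.mul_mem_right _ _ hc2) (Ideal.mul_mem_left _ _ hd2)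
  add_mem' := by
    rintro x y ⟨c, hc1, hc2⟩ ⟨d, hd1, hd2⟩
    refine ⟨c + d, ?_, ?_⟩
    · have : (x + y).1 - algebraMap 𝒪 A (c + d) =
          (x.1 - algebraMap 𝒪 A c) + (y.1 - algebraMap 𝒪 A d) := by
        rw [map_add, Prod.fst_add]; ring
      rw [this]
      exact add_mem hc1 hd1
    · have : (x + y).2 - algebraMap 𝒪 B (c + d) =
          (x.2 - algebraMap 𝒪 B c) + (y.2 - algebraMap 𝒪 B d) := by
        rw [map_add, Prod.snd_add]; ring
      rw [this]
      exact add_mem hc2 hd2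
  algebraMap_mem' := by
    intro c
    exact ⟨c, by simp, by simp⟩

variable {A B}

theorem mem_fibre_iff (x : A × B) : x ∈ fibre (𝒪 := 𝒪) A B ↔
    ∃ c : 𝒪, x.1 - algebraMap 𝒪 A c ∈ maximalIdeal A ∧
      x.2 - algebraMap 𝒪 B c ∈ maximalIdeal B := Iff.rfl

/-- First projection of the fibre product. -/
def fibreFst : fibre (𝒪 := 𝒪) A B →ₐ[𝒪] A := (AlgHom.fst 𝒪 A B).comp (fibre A B).val

/-- Second projection of the fibre product. -/
def fibreSnd : fibre (𝒪 := 𝒪) A B →ₐ[𝒪] B := (AlgHom.snd 𝒪 A B).comp (fibre A B).val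

@[simp] theorem fibreFst_apply (x : fibre (𝒪 := 𝒪) A B) : fibreFst x = (x : A × B).1 := rfl

@[simp] theorem fibreSnd_apply (x : fibre (𝒪 := 𝒪) A B) : fibreSnd x = (x : A × B).2 := rfl

theorem fibre_fst_mem_iff (hA : IsArtinianTestAlgebra 𝒪 A) (hB : IsArtinianTestAlgebra 𝒪 B)
    (x : fibre (𝒪 := 𝒪) A B) :
    (x : A × B).1 ∈ maximalIdeal A ↔ (x : A × B).2 ∈ maximalIdeal B := by
  obtain ⟨c, hc1, hc2⟩ := x.2
  have h1 : (x : A × B).1 ∈ maximalIdeal A ↔ algebraMap 𝒪 A c ∈ maximalIdeal A :=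
    ⟨fun h => by simpa using sub_mem h hc1, fun h => by simpa using add_mem hc1 h⟩
  have h2 : (x : A × B).2 ∈ maximalIdeal B ↔ algebraMap 𝒪 B c ∈ maximalIdeal B :=
    ⟨fun h => by simpa using sub_mem h hc2, fun h => by simpa using add_mem hc2 h⟩
  rw [h1, h2, algebraMap_mem_maximalIdeal_iff hA, algebraMap_mem_maximalIdeal_iff hB]

theorem isUnit_fibre_iff [Finite (ResidueField 𝒪)] (hA : IsArtinianTestAlgebra 𝒪 A)
    (hB : IsArtinianTestAlgebra 𝒪 B) (x : fibre (𝒪 := 𝒪) A B) :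
    IsUnit x ↔ IsUnit (x : A × B).1 := by
  haveI := test_finite hA
  haveI := test_finite hB
  constructor
  · intro h
    exact h.map (fibreFst (𝒪 := 𝒪) (A := A) (B := B))
  · intro h
    apply isUnit_subalgebra_of_isUnit
    rw [Prod.isUnit_iff]
    refine ⟨h, ?_⟩
    by_contra h2
    have h2' : (x : A × B).2 ∈ maximalIdeal B := (mem_maximalIdeal _).mpr h2
    exact (mem_maximalIdeal _).mp ((fibre_fst_mem_iff hA hB x).mpr h2') h

theorem isLocalRing_fibre [Finite (ResidueField 𝒪)] (hA : IsArtinianTestAlgebra 𝒪 A)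
    (hB : IsArtinianTestAlgebra 𝒪 B) : IsLocalRing (fibre (𝒪 := 𝒪) A B) := by
  haveI : Nontrivial (fibre (𝒪 := 𝒪) A B) :=
    ⟨⟨0, 1, fun h => zero_ne_one (α := A)
      (congrArg (fun y : fibre (𝒪 := 𝒪) A B => (y : A × B).1) h)⟩⟩
  refine IsLocalRing.of_nonunits_add fun a b ha hb => ?_
  rw [mem_nonunits_iff, isUnit_fibre_iff hA hB] at ha hb ⊢
  have := (IsLocalRing.nonunits_add (R := A) ha hb)
  simpa using this

theorem mem_maximalIdeal_fibre_iff [Finite (ResidueField 𝒪)] (hA : IsArtinianTestAlgebra 𝒪 A)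
    (hB : IsArtinianTestAlgebra 𝒪 B) (x : fibre (𝒪 := 𝒪) A B) :
    haveI := isLocalRing_fibre hA hB
    x ∈ maximalIdeal (fibre (𝒪 := 𝒪) A B) ↔ (x : A × B).1 ∈ maximalIdeal A := by
  haveI := isLocalRing_fibre hA hB
  rw [mem_maximalIdeal, mem_maximalIdeal, mem_nonunits_iff, mem_nonunits_iff,
    isUnit_fibre_iff hA hB]

theorem test_fibre [Finite (ResidueField 𝒪)] (hA : IsArtinianTestAlgebra 𝒪 A)
    (hB : IsArtinianTestAlgebra 𝒪 B) :
    haveI := isLocalRing_fibre hA hB
    IsArtinianTestAlgebra 𝒪 (fibre (𝒪 := 𝒪) A B) := by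
  haveI := isLocalRing_fibre hA hB
  haveI := test_finite hA
  haveI := test_finite hB
  refine ⟨⟨fun c hc => ?_⟩, fun x => ?_, inferInstance⟩
  · haveI := hA.isLocalHom
    have h1 : IsUnit (algebraMap 𝒪 A c) := by
      have := hc.map (fibreFst (𝒪 := 𝒪) (A := A) (B := B))
      simpa using this
    exact isUnit_of_map_unit (algebraMap 𝒪 A) c h1
  · obtain ⟨y, rfl⟩ := residue_surjective x
    obtain ⟨c, hc1, hc2⟩ := y.2
    refine ⟨c, ?_⟩
    rw [Function.comp_apply, ← sub_eq_zero, ← map_sub, residue_eq_zero_iff,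
      mem_maximalIdeal_fibre_iff hA hB]
    have : ((algebraMap 𝒪 (fibre (𝒪 := 𝒪) A B) c - y : fibre (𝒪 := 𝒪) A B) : A × B).1 =
        -((y : A × B).1 - algebraMap 𝒪 A c) := by
      simp
    rw [this]
    exact neg_mem hc1

end Fibre


section MatLemmas

variable {A B : Type} [CommRing A] [IsLocalRing A] [CommRing B] [IsLocalRing B]

theorem map_mem_maximalIdeal (f : A →+* B) (hf : IsLocalHom f) {a : A}
    (ha : a ∈ maximalIdeal A) : f a ∈ maximalIdeal B := by
  rw [mem_maximalIdeal, mem_nonunits_iff] at ha ⊢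
  exact fun h => ha (hf.map_nonunit a h)

theorem mem_maximalIdeal_of_map_mem (f : A →+* B) {a : A}
    (ha : f a ∈ maximalIdeal B) : a ∈ maximalIdeal A := by
  rw [mem_maximalIdeal, mem_nonunits_iff] at ha ⊢
  exact fun h => ha (h.map f)

theorem matCont_mapMat' {r : GQ →* M2 A} (hr : MatCont r) (f : A →+* B) (hf : IsLocalHom f) :
    MatCont (mapMat f r) :=
  MatrixModel.matCont_mapMat hr f hf

/-- Continuity descends along injective maps into rings with nilpotent maximal ideal. -/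
theorem matCont_of_injective {r : GQ →* M2 A} (f : A →+* B) (hf : Function.Injective f)
    (hB : ∃ n : ℕ, maximalIdeal B ^ n = ⊥) (hr : MatCont (mapMat f r)) : MatCont r := by
  obtain ⟨N, hN⟩ := hB
  obtain ⟨L, hL, h⟩ := hr N
  intro n
  refine ⟨L, hL, fun σ hσ i j => ?_⟩
  have h1 := h σ hσ i j
  rw [hN, Ideal.mem_bot, Matrix.sub_apply, mapMat_apply, sub_eq_zero] at h1
  have h2 : r σ i j = (1 : M2 A) i j := by
    apply hf
    rw [h1, Matrix.one_apply, Matrix.one_apply]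
    split_ifs <;> simp
  rw [Matrix.sub_apply, h2, sub_self]
  exact zero_mem _

/-- Restrict a matrix representation to a subalgebra containing all its entries. -/
noncomputable def restrictMat {𝒪 S : Type} [CommRing 𝒪] [CommRing S] [Algebra 𝒪 S]
    (E : Subalgebra 𝒪 S) (r : GQ →* M2 S) (h : ∀ σ i j, r σ i j ∈ E) : GQ →* M2 E where
  toFun σ := Matrix.of fun i j => ⟨r σ i j, h σ i j⟩
  map_one' := by
    ext i j
    simp only [Matrix.of_apply, map_one, Matrix.one_apply]
    split_ifs <;> simp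
  map_mul' σ τ := by
    ext i j
    simp [Matrix.mul_apply, map_mul]

@[simp] theorem restrictMat_apply {𝒪 S : Type} [CommRing 𝒪] [CommRing S] [Algebra 𝒪 S]
    (E : Subalgebra 𝒪 S) (r : GQ →* M2 S) (h : ∀ σ i j, r σ i j ∈ E) (σ : GQ) (i j : Fin 2) :
    ((restrictMat E r h σ i j : E) : S) = r σ i j := rfl

theorem mapMat_val_restrictMat {𝒪 S : Type} [CommRing 𝒪] [CommRing S] [Algebra 𝒪 S]
    (E : Subalgebra 𝒪 S) (r : GQ →* M2 S) (h : ∀ σ i j, r σ i j ∈ E) :
    mapMat (E.val : E →+* S) (restrictMat E r h) = r := by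
  ext σ i j
  simp

end MatLemmas

section Pairs

variable [Finite (ResidueField 𝒪)] {ρbar : ResidualGaloisRep (ResidueField 𝒪)}
  {D : SliceData 𝒪 ρbar}
  {𝒟 : ∀ ⦃A : Type⦄ [CommRing A] [IsLocalRing A] [Algebra 𝒪 A], GaloisRepAdic A → Prop}

variable {A B : Type} [CommRing A] [IsLocalRing A] [Algebra 𝒪 A]
  [CommRing B] [IsLocalRing B] [Algebra 𝒪 B]

omit [Finite (ResidueField 𝒪)] in
theorem isStrictLift_mapMat_alg {rbar : GQ →* M2 (ResidueField 𝒪)} {r : GQ →* M2 A}
    (f : A →ₐ[𝒪] B) (hf : IsLocalHom (f : A →+* B)) (hr : IsStrictLift rbar r) :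
    IsStrictLift rbar (mapMat (f : A →+* B) r) := by
  intro σ i j a ha
  have h1 := hr σ i j a ha
  have h2 : mapMat (f : A →+* B) r σ i j - algebraMap 𝒪 B a =
      (f : A →+* B) (r σ i j - algebraMap 𝒪 A a) := by
    simp
  rw [h2]
  exact map_mem_maximalIdeal _ hf h1

omit [Finite (ResidueField 𝒪)] in
theorem isStrictLift_of_mapMat {rbar : GQ →* M2 (ResidueField 𝒪)} {r : GQ →* M2 A}
    (f : A →ₐ[𝒪] B) (hr : IsStrictLift rbar (mapMat (f : A →+* B) r)) :
    IsStrictLift rbar r := by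
  intro σ i j a ha
  have h1 := hr σ i j a ha
  have h2 : mapMat (f : A →+* B) r σ i j - algebraMap 𝒪 B a =
      (f : A →+* B) (r σ i j - algebraMap 𝒪 A a) := by
    simp
  rw [h2] at h1
  exact mem_maximalIdeal_of_map_mem _ h1

omit [Finite (ResidueField 𝒪)] in
theorem isNormalized_mapMat_alg {r : GQ →* M2 A} (f : A →ₐ[𝒪] B) (hf : IsLocalHom (f : A →+* B))
    (hr : IsNormalized D r) : IsNormalized D (mapMat (f : A →+* B) r) := by
  obtain ⟨h1, h2, h3, h4⟩ := hr
  refine ⟨isStrictLift_mapMat_alg f hf h1, ?_, ?_, ?_⟩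
  · rw [mapMat_apply, h2, map_zero]
  · rw [mapMat_apply, h3, map_one]
  · rw [mapMat_apply, h4]; simp

omit [Finite (ResidueField 𝒪)] in
theorem isNormalized_of_mapMat {r : GQ →* M2 A} (f : A →ₐ[𝒪] B)
    (hinj : Function.Injective f) (hr : IsNormalized D (mapMat (f : A →+* B) r)) :
    IsNormalized D r := by
  obtain ⟨h1, h2, h3, h4⟩ := hr
  refine ⟨isStrictLift_of_mapMat f h1, ?_, ?_, ?_⟩
  · apply hinj; rw [map_zero]; simpa using h2
  · apply hinj; rw [map_one]; simpa using h3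
  · apply hinj; rw [AlgHom.commutes]; simpa using h4

omit [Finite (ResidueField 𝒪)] in
/-- Push-forward of pairs. -/
theorem IsPair.map (h𝒟 : IsDeformationCondition 𝒪 𝒟) {r : GQ →* M2 A} (hp : IsPair D 𝒟 A r)
    (hB : IsArtinianTestAlgebra 𝒪 B) (f : A →ₐ[𝒪] B) :
    IsPair D 𝒟 B (mapMat (f : A →+* B) r) := by
  have hf := isLocalHom_of_test hp.test f
  have hc : MatCont (mapMat (f : A →+* B) r) := matCont_mapMat' hp.cont _ hf
  refine ⟨hB, hc, isNormalized_mapMat_alg f hf hp.norm, ?_⟩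
  have h1 := h𝒟.baseChangeAlong hp.test hB f hf hp.type
  have h2 := MatrixModel.baseChangeAlong_ofMatrix (f : A →+* B) hf r hp.cont
  exact h𝒟.of_isEquiv hB h2 h1

omit [Finite (ResidueField 𝒪)] in
/-- Pairs descend along injective homomorphisms of test algebras. -/
theorem IsPair.of_injective (h𝒟 : IsDeformationCondition 𝒪 𝒟) {r : GQ →* M2 A}
    (hA : IsArtinianTestAlgebra 𝒪 A) (f : A →ₐ[𝒪] B) (hinj : Function.Injective f)
    (hp : IsPair D 𝒟 B (mapMat (f : A →+* B) r)) : IsPair D 𝒟 A r := by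
  have hf := isLocalHom_of_test hA f
  have hB := hp.test
  have hc : MatCont r := matCont_of_injective (f : A →+* B) hinj (test_exists_pow_eq_bot hB) hp.cont
  refine ⟨hA, hc, isNormalized_of_mapMat f hinj hp.norm, ?_⟩
  have h2 := MatrixModel.baseChangeAlong_ofMatrix (f : A →+* B) hf r hc
  obtain ⟨e⟩ := h2
  have h3 : 𝒟 ((ofMatrix r hc).baseChangeAlong (f : A →+* B) hf) :=
    h𝒟.of_isEquiv hB ⟨e.symm⟩ hp.type
  exact h𝒟.of_baseChangeAlong_injective hA hB f hf hinj h3

end Pairs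


section Pairs2

variable [Finite (ResidueField 𝒪)] {ρbar : ResidualGaloisRep (ResidueField 𝒪)}
  {D : SliceData 𝒪 ρbar}
  {𝒟 : ∀ ⦃A : Type⦄ [CommRing A] [IsLocalRing A] [Algebra 𝒪 A], GaloisRepAdic A → Prop}

variable {A B : Type} [CommRing A] [IsLocalRing A] [Algebra 𝒪 A]
  [CommRing B] [IsLocalRing B] [Algebra 𝒪 B]

/-- Restriction of a pair to a subalgebra containing all entries. -/
theorem IsPair.restrict (h𝒟 : IsDeformationCondition 𝒪 𝒟) {r : GQ →* M2 A}
    (hp : IsPair D 𝒟 A r) (E : Subalgebra 𝒪 A) (h : ∀ σ i j, r σ i j ∈ E) :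
    haveI := isLocalRing_subalgebra hp.test E
    IsPair D 𝒟 E (restrictMat E r h) := by
  haveI := isLocalRing_subalgebra hp.test E
  refine IsPair.of_injective h𝒟 (test_subalgebra hp.test E) E.val Subtype.val_injective ?_
  have : mapMat ((E.val : E →ₐ[𝒪] A) : E →+* A) (restrictMat E r h) = r :=
    mapMat_val_restrictMat E r h
  rw [this]
  exact hp

omit [Finite (ResidueField 𝒪)] in
theorem prodMat_mem_fibre {r : GQ →* M2 A} {r' : GQ →* M2 B}
    (hr : IsStrictLift D.rbar r) (hr' : IsStrictLift D.rbar r') (σ : GQ) (i j : Fin 2) :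
    prodMat r r' σ i j ∈ fibre (𝒪 := 𝒪) A B := by
  obtain ⟨a, ha⟩ := residue_surjective (D.rbar σ i j)
  exact ⟨a, hr σ i j a ha, hr' σ i j a ha⟩

/-- The join of two lifts, over the fibre product. -/
noncomputable def fibreMat {r : GQ →* M2 A} {r' : GQ →* M2 B}
    (hr : IsStrictLift D.rbar r) (hr' : IsStrictLift D.rbar r') :
    GQ →* M2 (fibre (𝒪 := 𝒪) A B) :=
  restrictMat (fibre A B) (prodMat r r') (prodMat_mem_fibre hr hr')

omit [Finite (ResidueField 𝒪)] in
theorem mapMat_fibreFst_fibreMat {r : GQ →* M2 A} {r' : GQ →* M2 B}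
    (hr : IsStrictLift D.rbar r) (hr' : IsStrictLift D.rbar r') :
    mapMat ((fibreFst : fibre (𝒪 := 𝒪) A B →ₐ[𝒪] A) : fibre (𝒪 := 𝒪) A B →+* A) (fibreMat hr hr') = r := by
  ext σ i j
  rw [mapMat_apply]
  rfl

omit [Finite (ResidueField 𝒪)] in
theorem mapMat_fibreSnd_fibreMat {r : GQ →* M2 A} {r' : GQ →* M2 B}
    (hr : IsStrictLift D.rbar r) (hr' : IsStrictLift D.rbar r') :
    mapMat ((fibreSnd : fibre (𝒪 := 𝒪) A B →ₐ[𝒪] B) : fibre (𝒪 := 𝒪) A B →+* B) (fibreMat hr hr') = r' := by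
  ext σ i j
  rw [mapMat_apply]
  rfl

/-- The join of two pairs is a pair. -/
theorem IsPair.join (h𝒟 : IsDeformationCondition 𝒪 𝒟) {r : GQ →* M2 A} {r' : GQ →* M2 B}
    (hp : IsPair D 𝒟 A r) (hp' : IsPair D 𝒟 B r') :
    haveI := isLocalRing_fibre hp.test hp'.test
    IsPair D 𝒟 (fibre (𝒪 := 𝒪) A B) (fibreMat hp.norm.1 hp'.norm.1) := by
  haveI := isLocalRing_fibre hp.test hp'.test
  have hA := hp.test
  have hB := hp'.test
  have hP := test_fibre hA hB
  set rr := fibreMat (D := D) hp.norm.1 hp'.norm.1 with hrr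
  have e1 : mapMat ((fibreFst : fibre (𝒪 := 𝒪) A B →ₐ[𝒪] A) : fibre (𝒪 := 𝒪) A B →+* A) rr = r :=
    mapMat_fibreFst_fibreMat _ _
  have e2 : mapMat ((fibreSnd : fibre (𝒪 := 𝒪) A B →ₐ[𝒪] B) : fibre (𝒪 := 𝒪) A B →+* B) rr = r' :=
    mapMat_fibreSnd_fibreMat _ _
  have hpA := isLocalHom_of_test hP (fibreFst : fibre (𝒪 := 𝒪) A B →ₐ[𝒪] A)
  have hpB := isLocalHom_of_test hP (fibreSnd : fibre (𝒪 := 𝒪) A B →ₐ[𝒪] B)
  -- continuity
  have hinj : Function.Injective
      (fun x : fibre (𝒪 := 𝒪) A B => ((fibreFst x : A), (fibreSnd x : B))) := by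
    intro x y hxy
    apply Subtype.ext
    simpa [Prod.ext_iff] using hxy
  have hc : MatCont rr := by
    obtain ⟨N, hN⟩ := test_exists_pow_eq_bot hA
    obtain ⟨N', hN'⟩ := test_exists_pow_eq_bot hB
    obtain ⟨L, hL, h⟩ := hp.cont N
    obtain ⟨L', hL', h'⟩ := hp'.cont N'
    intro n
    refine ⟨L ⊔ L', ?_, fun σ hσ i j => ?_⟩
    · haveI := hL; haveI := hL'
      exact IntermediateField.finiteDimensional_sup L L'
    · have h1 := h σ (fun x hx => hσ x (le_sup_left (a := L) hx)) i j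
      have h1' := h' σ (fun x hx => hσ x (le_sup_right (b := L') hx)) i j
      rw [hN, Ideal.mem_bot] at h1
      rw [hN', Ideal.mem_bot] at h1'
      have h2 : (rr σ - 1) i j = 0 := by
        apply Subtype.ext
        apply Prod.ext
        · rw [Matrix.sub_apply] at h1
          have : (((rr σ - 1) i j : fibre (𝒪 := 𝒪) A B) : A × B).1 = r σ i j - (1 : M2 A) i j := by
            rw [Matrix.sub_apply, Matrix.one_apply, Matrix.one_apply]
            split_ifs <;> rfl
          rw [this, h1]; rfl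
        · rw [Matrix.sub_apply] at h1'
          have : (((rr σ - 1) i j : fibre (𝒪 := 𝒪) A B) : A × B).2 = r' σ i j - (1 : M2 B) i j := by
            rw [Matrix.sub_apply, Matrix.one_apply, Matrix.one_apply]
            split_ifs <;> rfl
          rw [this, h1']; rfl
      rw [h2]
      exact zero_mem _
  -- normalization
  have hnorm : IsNormalized D rr := by
    obtain ⟨n1, n2, n3, n4⟩ := hp.norm
    obtain ⟨n1', n2', n3', n4'⟩ := hp'.norm
    refine ⟨fun σ i j a ha => ?_, ?_, ?_, ?_⟩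
    · rw [mem_maximalIdeal_fibre_iff hA hB]
      simpa [hrr, fibreMat] using n1 σ i j a ha
    · apply Subtype.ext; apply Prod.ext
      · simpa [hrr, fibreMat] using n2
      · simpa [hrr, fibreMat] using n2'
    · apply Subtype.ext; apply Prod.ext
      · simpa [hrr, fibreMat] using n3
      · simpa [hrr, fibreMat] using n3'
    · apply Subtype.ext; apply Prod.ext
      · simpa [hrr, fibreMat] using n4
      · simpa [hrr, fibreMat] using n4'
  refine ⟨hP, hc, hnorm, ?_⟩
  -- the deformation condition, by the fibre product axiom over the residue field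
  obtain ⟨f, hf⟩ := exists_resk hA
  obtain ⟨g, hg⟩ := exists_resk hB
  have hcomm : f.comp (fibreFst : fibre (𝒪 := 𝒪) A B →ₐ[𝒪] A) =
      g.comp (fibreSnd : fibre (𝒪 := 𝒪) A B →ₐ[𝒪] B) := by
    ext x
    obtain ⟨c, hc1, hc2⟩ := x.2
    show f (x : A × B).1 = g (x : A × B).2
    rw [(hf _ c).mpr hc1, (hg _ c).mpr hc2]
  have hex : ∀ (a : A) (b : B), f a = g b →
      ∃ x : fibre (𝒪 := 𝒪) A B, fibreFst x = a ∧ fibreSnd x = b := by
    intro a b hab
    obtain ⟨c, hc⟩ := residue_surjective (f a)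
    refine ⟨⟨(a, b), c, (hf a c).mp hc.symm, (hg b c).mp (hab ▸ hc.symm)⟩, rfl, rfl⟩
  have hcA : MatCont (mapMat ((fibreFst : fibre (𝒪 := 𝒪) A B →ₐ[𝒪] A) : fibre (𝒪 := 𝒪) A B →+* A) rr) :=
    matCont_mapMat' hc _ hpA
  have hcB : MatCont (mapMat ((fibreSnd : fibre (𝒪 := 𝒪) A B →ₐ[𝒪] B) : fibre (𝒪 := 𝒪) A B →+* B) rr) :=
    matCont_mapMat' hc _ hpB
  have hDA : 𝒟 ((ofMatrix rr hc).baseChangeAlong
      ((fibreFst : fibre (𝒪 := 𝒪) A B →ₐ[𝒪] A) : fibre (𝒪 := 𝒪) A B →+* A) hpA) := by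
    obtain ⟨e⟩ := MatrixModel.baseChangeAlong_ofMatrix _ hpA rr hc
    refine h𝒟.of_isEquiv hA ⟨e.symm⟩ ?_
    have : 𝒟 (ofMatrix (mapMat ((fibreFst : fibre (𝒪 := 𝒪) A B →ₐ[𝒪] A) : fibre (𝒪 := 𝒪) A B →+* A) rr) hcA) := by
      have key : ∀ (s : GQ →* M2 A) (hs : MatCont s), s = r → 𝒟 (ofMatrix s hs) := by
        intro s hs h; subst h; exact hp.type
      exact key _ _ e1
    exact this
  have hDB : 𝒟 ((ofMatrix rr hc).baseChangeAlong
      ((fibreSnd : fibre (𝒪 := 𝒪) A B →ₐ[𝒪] B) : fibre (𝒪 := 𝒪) A B →+* B) hpB) := by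
    obtain ⟨e⟩ := MatrixModel.baseChangeAlong_ofMatrix _ hpB rr hc
    refine h𝒟.of_isEquiv hB ⟨e.symm⟩ ?_
    have : 𝒟 (ofMatrix (mapMat ((fibreSnd : fibre (𝒪 := 𝒪) A B →ₐ[𝒪] B) : fibre (𝒪 := 𝒪) A B →+* B) rr) hcB) := by
      have key : ∀ (s : GQ →* M2 B) (hs : MatCont s), s = r' → 𝒟 (ofMatrix s hs) := by
        intro s hs h; subst h; exact hp'.type
      exact key _ _ e2
    exact this
  exact h𝒟.of_fibreProduct hA hB test_residueField hP f g fibreFst fibreSnd hpA hpB hcomm hinj hex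
    hDA hDB

end Pairs2


section ResidualPair

variable {ρbar : ResidualGaloisRep (ResidueField 𝒪)} (D : SliceData 𝒪 ρbar)
  {𝒟 : ∀ ⦃A : Type⦄ [CommRing A] [IsLocalRing A] [Algebra 𝒪 A], GaloisRepAdic A → Prop}

theorem matCont_rbar_slice : MatCont D.rbar := by
  obtain ⟨L, hL, h⟩ := ρbar.factorsThroughFiniteLevel
  intro n
  refine ⟨L, hL, fun σ hσ i j => ?_⟩
  have : D.rbar σ = 1 := by
    rw [D.rbar_eq, h σ hσ]
    exact LinearMap.toMatrix_one D.basis
  rw [this, sub_self]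
  exact zero_mem _

/-- The residual representation is equivalent to its matrix model. -/
theorem isEquiv_ofResidual_rbar :
    (GaloisRepAdic.ofResidualGaloisRep ρbar).IsEquiv (ofMatrix D.rbar (matCont_rbar_slice D)) := by
  refine ⟨{ toLinearEquiv := D.basis.equivFun, map_apply := fun σ x => ?_ }⟩
  show D.basis.equivFun (ρbar.ρ σ x) = (D.rbar σ).mulVec (D.basis.equivFun x)
  rw [D.rbar_eq]
  exact (LinearMap.toMatrix_mulVec_repr D.basis D.basis (ρbar.ρ σ) x).symm

theorem isNormalized_rbar : IsNormalized D D.rbar := by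
  refine ⟨fun σ i j a ha => ?_, D.g1_col.1, D.g1_col.2, ?_⟩
  · rw [ResidueField.algebraMap_eq, ha, sub_self]
    exact zero_mem _
  · rw [ResidueField.algebraMap_eq, D.hc]

/-- The residual pair. -/
theorem isPair_residue (h𝒟 : IsDeformationCondition 𝒪 𝒟)
    (hbar : 𝒟 (GaloisRepAdic.ofResidualGaloisRep ρbar)) :
    IsPair D 𝒟 (ResidueField 𝒪) D.rbar :=
  ⟨test_residueField, matCont_rbar_slice D, isNormalized_rbar D,
    h𝒟.of_isEquiv test_residueField (isEquiv_ofResidual_rbar D) hbar⟩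

end ResidualPair

end Fermat.Agent.S53
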