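import Mathlib
import Fermat.Agent.S53.Defs
import Fermat.Agent.S53.ResidualCore

/-!
# Existence of slice data (S53, part B1)

For an absolutely irreducible residual representation `ρbar` over the residue field of `𝒪`
there is a `SliceData 𝒪 ρbar`.
-/

set_option autoImplicit false

namespace Fermat.Agent.S53

open IsLocalRing Module

variable {𝒪 : Type} [CommRing 𝒪] [IsLocalRing 𝒪]

theorem exists_sliceData (ρbar : ResidualGaloisRep (ResidueField 𝒪))
    (habs : ρbar.IsAbsolutelyIrreducible) : Nonempty (SliceData 𝒪 ρbar) := by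
  classical
  obtain ⟨v, g1, hli⟩ := exists_cyclic ρbar habs
  have hcard : Fintype.card (Fin 2) = Module.finrank (ResidueField 𝒪) ρbar.V := by
    rw [ρbar.finrank_eq]; rfl
  let b : Module.Basis (Fin 2) (ResidueField 𝒪) ρbar.V :=
    basisOfLinearIndependentOfCardEqFinrank hli hcard
  have hb : ⇑b = ![v, ρbar.ρ g1 v] := coe_basisOfLinearIndependentOfCardEqFinrank hli hcard
  have hb0 : b 0 = v := by rw [hb]; rfl
  have hb1 : b 1 = ρbar.ρ g1 v := by rw [hb]; rfl
  let rbar : GQ →* M2 (ResidueField 𝒪) :=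
    ((LinearMap.toMatrixAlgEquiv b : Module.End (ResidueField 𝒪) ρbar.V ≃ₐ[ResidueField 𝒪]
      M2 (ResidueField 𝒪)) : Module.End (ResidueField 𝒪) ρbar.V →* M2 (ResidueField 𝒪)).comp ρbar.ρ
  have hrbar : ∀ σ, rbar σ = LinearMap.toMatrix b b (ρbar.ρ σ) := by
    intro σ
    ext i j
    simp [rbar, LinearMap.toMatrixAlgEquiv_apply, LinearMap.toMatrix_apply]
  have hschur : ∀ x : M2 (ResidueField 𝒪), (∀ σ, x * rbar σ = rbar σ * x) →
      ∃ c : ResidueField 𝒪, x = c • (1 : M2 (ResidueField 𝒪)) := by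
    intro x hx
    let x' : Module.End (ResidueField 𝒪) ρbar.V := Matrix.toLin b b x
    have hx' : ∀ σ : GQ, x' * ρbar.ρ σ = ρbar.ρ σ * x' := by
      intro σ
      apply (LinearMap.toMatrix b b).injective
      rw [LinearMap.toMatrix_mul, LinearMap.toMatrix_mul, LinearMap.toMatrix_toLin, ← hrbar]
      exact hx σ
    obtain ⟨c, hc⟩ := schur_end ρbar habs x' hx'
    refine ⟨c, ?_⟩
    have := congrArg (LinearMap.toMatrix b b) hc
    rw [LinearMap.toMatrix_toLin, map_smul, LinearMap.toMatrix_one] at this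
    exact this
  have hcol : rbar g1 0 0 = 0 ∧ rbar g1 1 0 = 1 := by
    rw [hrbar]
    simp only [LinearMap.toMatrix_apply]
    rw [hb0, ← hb1]
    simp
  -- a non-commuting element
  have hex : ∃ (g2 : GQ) (i j : Fin 2), (rbar g2 * rbar g1 - rbar g1 * rbar g2) i j ≠ 0 := by
    by_contra hcon
    push Not at hcon
    have hcomm : ∀ σ, rbar g1 * rbar σ = rbar σ * rbar g1 := by
      intro σ
      have : rbar σ * rbar g1 - rbar g1 * rbar σ = 0 := by
        ext i j
        exact hcon σ i j
      exact (sub_eq_zero.mp this).symm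
    obtain ⟨c, hc⟩ := hschur (rbar g1) hcomm
    have h10 := hcol.2
    rw [hc] at h10
    simp at h10
  obtain ⟨g2, i, j, hne⟩ := hex
  obtain ⟨c, hc⟩ := residue_surjective (R := 𝒪) (rbar g2 i j)
  exact ⟨{ rbar := rbar, basis := b, rbar_eq := hrbar, schur := hschur, g1 := g1, g2 := g2,
           g1_col := hcol, i := i, j := j, comm_ne := hne, c := c, hc := hc }⟩

end Fermat.Agent.S53
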