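import Mathlib
import Fermat.Prelude.Def_GaloisRep_DeformationCondition

/-!
# Complete local rings and their Artinian quotients (S53 glue)

For a Noetherian local `𝒪`-algebra `A` (structure map local, residue field generated by `𝒪`):
* `A ⧸ m_A ^ (n+1)` is an Artinian test algebra, the quotient map is a local surjection;
* every surjection of `A` onto an Artinian local ring factors through some `A ⧸ m_A ^ (n+1)`;
* compatible families of algebra maps into the quotients lift to `A` when `A` is complete.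
-/

set_option autoImplicit false

namespace Fermat.Agent.S53

open IsLocalRing

section QuotPow

variable (A : Type) [CommRing A] [IsLocalRing A]

/-- `A ⧸ m_A ^ (n + 1)`. -/
abbrev QuotPow (n : ℕ) : Type := A ⧸ (maximalIdeal A ^ (n + 1))

theorem maximalIdeal_pow_succ_ne_top (n : ℕ) : maximalIdeal A ^ (n + 1) ≠ ⊤ := by
  intro h
  have hle : maximalIdeal A ^ (n + 1) ≤ maximalIdeal A := Ideal.pow_le_self (Nat.succ_ne_zero n)
  rw [h] at hle
  exact (maximalIdeal.isMaximal A).ne_top (top_le_iff.mp hle)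

instance quotPow_nontrivial (n : ℕ) : Nontrivial (QuotPow A n) :=
  Ideal.Quotient.nontrivial_iff.mpr (maximalIdeal_pow_succ_ne_top A n)

instance quotPow_isLocalRing (n : ℕ) : IsLocalRing (QuotPow A n) :=
  IsLocalRing.of_surjective' (Ideal.Quotient.mk (maximalIdeal A ^ (n + 1)))
    Ideal.Quotient.mk_surjective

theorem isLocalHom_quotPow_mk (n : ℕ) :
    IsLocalHom (Ideal.Quotient.mk (maximalIdeal A ^ (n + 1))) :=
  IsLocalHom.of_surjective _ Ideal.Quotient.mk_surjective

theorem maximalIdeal_quotPow (n : ℕ) :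
    maximalIdeal (QuotPow A n) =
      (maximalIdeal A).map (Ideal.Quotient.mk (maximalIdeal A ^ (n + 1))) :=
  (map_maximalIdeal_of_surjective _ Ideal.Quotient.mk_surjective).symm

theorem maximalIdeal_quotPow_pow (n : ℕ) : maximalIdeal (QuotPow A n) ^ (n + 1) = ⊥ := by
  rw [maximalIdeal_quotPow, ← Ideal.map_pow, Ideal.map_quotient_self]

instance quotPow_isArtinianRing [IsNoetherianRing A] (n : ℕ) : IsArtinianRing (QuotPow A n) :=
  (isArtinianRing_iff_isNilpotent_maximalIdeal (QuotPow A n)).mpr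
    ⟨n + 1, maximalIdeal_quotPow_pow A n⟩

end QuotPow

section TestAlgebra

variable {𝒪 : Type} [CommRing 𝒪]
variable (A : Type) [CommRing A] [IsLocalRing A] [Algebra 𝒪 A]

/-- The quotient map as an `𝒪`-algebra hom. -/
noncomputable abbrev quotPowMk (n : ℕ) : A →ₐ[𝒪] QuotPow A n :=
  Ideal.Quotient.mkₐ 𝒪 (maximalIdeal A ^ (n + 1))

theorem quotPowMk_surjective (n : ℕ) : Function.Surjective (quotPowMk (𝒪 := 𝒪) A n) :=
  Ideal.Quotient.mkₐ_surjective 𝒪 _

theorem isLocalHom_quotPowMk (n : ℕ) :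
    IsLocalHom ((quotPowMk (𝒪 := 𝒪) A n : A →ₐ[𝒪] QuotPow A n) : A →+* QuotPow A n) :=
  isLocalHom_quotPow_mk A n

theorem isLocalHom_algebraMap_quotPow (hloc : IsLocalHom (algebraMap 𝒪 A)) (n : ℕ) :
    IsLocalHom (algebraMap 𝒪 (QuotPow A n)) := by
  have h1 : algebraMap 𝒪 (QuotPow A n) =
      (Ideal.Quotient.mk (maximalIdeal A ^ (n + 1))).comp (algebraMap 𝒪 A) := rfl
  rw [h1]
  have := hloc
  have := isLocalHom_quotPow_mk A n
  exact RingHom.isLocalHom_comp _ _

theorem residue_surjective_quotPow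
    (hsurj : Function.Surjective (IsLocalRing.residue A ∘ algebraMap 𝒪 A)) (n : ℕ) :
    Function.Surjective (IsLocalRing.residue (QuotPow A n) ∘ algebraMap 𝒪 (QuotPow A n)) := by
  intro y
  obtain ⟨z, rfl⟩ := IsLocalRing.residue_surjective y
  obtain ⟨a, rfl⟩ := Ideal.Quotient.mk_surjective z
  obtain ⟨c, hc⟩ := hsurj (IsLocalRing.residue A a)
  refine ⟨c, ?_⟩
  simp only [Function.comp_apply] at hc ⊢
  -- a - algebraMap c ∈ m_A, hence its image is in the maximal ideal of the quotient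
  have hmem : algebraMap 𝒪 A c - a ∈ maximalIdeal A := by
    rw [← IsLocalRing.residue_eq_zero_iff, map_sub, hc, sub_self]
  have hmem' : Ideal.Quotient.mk (maximalIdeal A ^ (n + 1)) (algebraMap 𝒪 A c - a) ∈
      maximalIdeal (QuotPow A n) := by
    rw [maximalIdeal_quotPow]
    exact Ideal.mem_map_of_mem _ hmem
  rw [← IsLocalRing.residue_eq_zero_iff, map_sub, map_sub, sub_eq_zero] at hmem'
  exact hmem'

theorem isArtinianTestAlgebra_quotPow [IsLocalRing 𝒪] [IsNoetherianRing A] (hloc : IsLocalHom (algebraMap 𝒪 A))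
    (hsurj : Function.Surjective (IsLocalRing.residue A ∘ algebraMap 𝒪 A)) (n : ℕ) :
    GaloisRep.IsArtinianTestAlgebra 𝒪 (QuotPow A n) where
  isLocalHom := isLocalHom_algebraMap_quotPow A hloc n
  residue_surjective := residue_surjective_quotPow A hsurj n
  isArtinian := inferInstance

/-- Transition maps between the quotients. -/
noncomputable abbrev quotPowFactor {m n : ℕ} (h : m ≤ n) : QuotPow A n →ₐ[𝒪] QuotPow A m :=
  Ideal.Quotient.factorₐ 𝒪 (Ideal.pow_le_pow_right (Nat.succ_le_succ h))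

theorem quotPowFactor_comp_mk {m n : ℕ} (h : m ≤ n) :
    (quotPowFactor (𝒪 := 𝒪) A h).comp (quotPowMk A n) = quotPowMk A m :=
  AlgHom.ext fun _ => rfl

/-- Every surjection onto an Artinian local ring factors through some `A ⧸ m_A ^ (n+1)`. -/
theorem exists_factor_quotPow {B : Type} [CommRing B] [IsLocalRing B] [IsArtinianRing B]
    [Algebra 𝒪 B] (q : A →ₐ[𝒪] B) (hq : Function.Surjective q) :
    ∃ (n : ℕ) (q' : QuotPow A n →ₐ[𝒪] B), q'.comp (quotPowMk A n) = q ∧
      Function.Surjective q' ∧ IsLocalHom (q' : QuotPow A n →+* B) := by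
  have : IsNoetherianRing B := inferInstance
  obtain ⟨n, hn⟩ := (isArtinianRing_iff_isNilpotent_maximalIdeal B).mp inferInstance
  have hmap : (maximalIdeal A).map (q : A →+* B) = maximalIdeal B :=
    map_maximalIdeal_of_surjective (q : A →+* B) hq
  have hker : ∀ a ∈ maximalIdeal A ^ (n + 1), q a = 0 := by
    intro a ha
    have h1 : (q : A →+* B) a ∈ (maximalIdeal A ^ (n + 1)).map (q : A →+* B) :=
      Ideal.mem_map_of_mem _ ha
    rw [Ideal.map_pow, hmap, pow_succ, hn, zero_mul] at h1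
    simpa using h1
  let q' : QuotPow A n →ₐ[𝒪] B := Ideal.Quotient.liftₐ (maximalIdeal A ^ (n + 1)) q hker
  have hq'surj : Function.Surjective q' := by
    intro b
    obtain ⟨a, rfl⟩ := hq b
    exact ⟨Ideal.Quotient.mk _ a, rfl⟩
  refine ⟨n, q', AlgHom.ext fun _ => rfl, hq'surj, ?_⟩
  exact IsLocalHom.of_surjective (q' : QuotPow A n →+* B) hq'surj

end TestAlgebra

section Lift

variable {𝒪 : Type} [CommRing 𝒪]
variable (A : Type) [CommRing A] [IsLocalRing A] [Algebra 𝒪 A]
  [IsAdicComplete (maximalIdeal A) A]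
variable {R : Type} [CommRing R] [Algebra 𝒪 R]

/-- A compatible family of `𝒪`-algebra maps `R → A ⧸ m_A ^ (n+1)` lifts to `R → A`. -/
theorem exists_lift_of_compatible (f : ∀ n : ℕ, R →ₐ[𝒪] QuotPow A n)
    (hf : ∀ n : ℕ, (quotPowFactor (𝒪 := 𝒪) A (Nat.le_succ n)).comp (f (n + 1)) = f n) :
    ∃ φ : R →ₐ[𝒪] A, ∀ n, (quotPowMk (𝒪 := 𝒪) A n).comp φ = f n := by
  -- reindex to all powers
  have hfac_id : ∀ m : ℕ, quotPowFactor (𝒪 := 𝒪) A (le_refl m) = AlgHom.id 𝒪 (QuotPow A m) := by
    intro m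
    apply AlgHom.ext
    intro x
    obtain ⟨a, rfl⟩ := Ideal.Quotient.mk_surjective x
    rfl
  have hfac_comp : ∀ {l m n : ℕ} (h₁ : l ≤ m) (h₂ : m ≤ n),
      (quotPowFactor (𝒪 := 𝒪) A h₁).comp (quotPowFactor (𝒪 := 𝒪) A h₂) =
        quotPowFactor (𝒪 := 𝒪) A (h₁.trans h₂) := by
    intro l m n h₁ h₂
    apply AlgHom.ext
    intro x
    obtain ⟨a, rfl⟩ := Ideal.Quotient.mk_surjective x
    rfl
  have hcompat : ∀ {m n : ℕ} (h : m ≤ n), (quotPowFactor (𝒪 := 𝒪) A h).comp (f n) = f m := by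
    intro m n h
    obtain ⟨d, rfl⟩ := Nat.exists_eq_add_of_le h
    revert h
    induction d with
    | zero => intro h; rw [hfac_id]; exact AlgHom.id_comp _
    | succ d ih =>
      intro h
      have h1 : m ≤ m + d := Nat.le_add_right m d
      rw [← ih h1, ← hf (m + d), ← AlgHom.comp_assoc, hfac_comp h1 (Nat.le_succ (m + d))]
      rfl
  let g : ∀ n : ℕ, R →ₐ[𝒪] A ⧸ (maximalIdeal A ^ n) := fun n =>
    match n with
    | 0 => (Ideal.Quotient.factorₐ 𝒪 (by simp : maximalIdeal A ^ 1 ≤ maximalIdeal A ^ 0)).comp (f 0)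
    | (k + 1) => f k
  have hg : ∀ {m n : ℕ} (hle : m ≤ n),
      (Ideal.Quotient.factorₐ 𝒪 (Ideal.pow_le_pow_right hle)).comp (g n) = g m := by
    intro m n hle
    rcases m with _ | m
    · apply AlgHom.ext
      intro x
      have htop : maximalIdeal A ^ 0 = ⊤ := by simp
      have : Subsingleton (A ⧸ maximalIdeal A ^ 0) :=
        Ideal.Quotient.subsingleton_iff.mpr htop
      exact Subsingleton.elim _ _
    · rcases n with _ | n
      · omega
      · have := hcompat (Nat.le_of_succ_le_succ hle)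
        exact this
  refine ⟨IsAdicComplete.liftAlgHom (maximalIdeal A) g hg, fun n => ?_⟩
  exact IsAdicComplete.mkₐ_comp_liftAlgHom (maximalIdeal A) g hg (n + 1)

/-- Two algebra maps into a complete (Hausdorff) local ring agreeing modulo all powers of the
maximal ideal are equal. -/
theorem algHom_ext_of_quotPow {φ ψ : R →ₐ[𝒪] A}
    (h : ∀ n, (quotPowMk (𝒪 := 𝒪) A n).comp φ = (quotPowMk (𝒪 := 𝒪) A n).comp ψ) : φ = ψ := by
  apply IsAdicComplete.algHom_ext (maximalIdeal A)
  intro n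
  rcases n with _ | n
  · apply AlgHom.ext
    intro x
    have htop : maximalIdeal A ^ 0 = ⊤ := by simp
    have : Subsingleton (A ⧸ maximalIdeal A ^ 0) := Ideal.Quotient.subsingleton_iff.mpr htop
    exact Subsingleton.elim _ _
  · exact h n

end Lift

end Fermat.Agent.S53
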