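import Mathlib
import Fermat.Agent.S53.Defs
import Fermat.Agent.S53.MatrixModel
import Fermat.Agent.S53.CompleteQuot

/-!
# The deformation condition at the complete level versus the finite levels (S53 glue)

For a complete Noetherian local `𝒪`-algebra `A` and a continuous matrix representation `r`
over `A`:  `𝒟 (ofMatrix r)` holds iff `𝒟` holds for all the reductions of `r` modulo
`m_A ^ (n+1)`.  Normalized lifts of type `𝒟` over `A` give pairs over all `A ⧸ m_A ^ (n+1)`.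
-/

set_option autoImplicit false

namespace Fermat.Agent.S53

open IsLocalRing GaloisRep MatrixModel

variable {𝒪 : Type} [CommRing 𝒪] [IsLocalRing 𝒪]
  {𝒟 : ∀ ⦃A : Type⦄ [CommRing A] [IsLocalRing A] [Algebra 𝒪 A], GaloisRepAdic A → Prop}

section Normalized

variable {ρbar : ResidualGaloisRep (ResidueField 𝒪)}

/-- Strict lifts are preserved by local `𝒪`-algebra homomorphisms. -/
theorem isStrictLift_mapMat {A B : Type} [CommRing A] [IsLocalRing A] [Algebra 𝒪 A]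
    [CommRing B] [IsLocalRing B] [Algebra 𝒪 B] (f : A →ₐ[𝒪] B)
    (hf : IsLocalHom (f : A →+* B)) {rbar : GQ →* M2 (ResidueField 𝒪)} {r : GQ →* M2 A}
    (h : IsStrictLift rbar r) : IsStrictLift rbar (mapMat (f : A →+* B) r) := by
  intro σ i j a ha
  have h1 := h σ i j a ha
  rw [mapMat_apply]
  have h2 : (f : A →+* B) (r σ i j) - algebraMap 𝒪 B a =
      (f : A →+* B) (r σ i j - algebraMap 𝒪 A a) := by
    rw [map_sub]
    congr 1
    exact (f.commutes a).symm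
  rw [h2]
  have := hf
  exact map_nonunit (f : A →+* B) _ h1

/-- Normalized lifts are preserved by local `𝒪`-algebra homomorphisms. -/
theorem isNormalized_mapMat (D : SliceData 𝒪 ρbar) {A B : Type} [CommRing A] [IsLocalRing A]
    [Algebra 𝒪 A] [CommRing B] [IsLocalRing B] [Algebra 𝒪 B] (f : A →ₐ[𝒪] B)
    (hf : IsLocalHom (f : A →+* B)) {r : GQ →* M2 A} (h : IsNormalized D r) :
    IsNormalized D (mapMat (f : A →+* B) r) := by
  obtain ⟨h1, h2, h3, h4⟩ := h
  refine ⟨isStrictLift_mapMat f hf h1, ?_, ?_, ?_⟩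
  · rw [mapMat_apply, h2, map_zero]
  · rw [mapMat_apply, h3, map_one]
  · rw [mapMat_apply, h4]
    exact f.commutes D.c

end Normalized

section Complete

variable {A : Type} [CommRing A] [IsLocalRing A] [IsNoetherianRing A]
  [IsAdicComplete (maximalIdeal A) A] [Algebra 𝒪 A]

omit [IsLocalRing 𝒪] in
/-- Invariance of the deformation condition under equivalence over complete coefficient rings. -/
theorem type_of_isEquiv_complete (h𝒟 : IsDeformationCondition 𝒪 𝒟)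
    (hloc : IsLocalHom (algebraMap 𝒪 A))
    (hsurj : Function.Surjective (IsLocalRing.residue A ∘ algebraMap 𝒪 A))
    {ρ ρ' : GaloisRepAdic A} (he : ρ.IsEquiv ρ') (hρ : 𝒟 ρ) : 𝒟 ρ' := by
  rw [h𝒟.iff_forall_surjective hloc hsurj] at hρ ⊢
  intro B _ _ _ hB q hq hqs
  obtain ⟨e⟩ := he
  exact h𝒟.of_isEquiv hB ⟨e.baseChangeAlong _ hq⟩ (hρ hB q hq hqs)

/-- The reduction modulo `m_A ^ (n+1)` of a representation of type `𝒟` is of type `𝒟`. -/
theorem type_mapMat_quotPow (h𝒟 : IsDeformationCondition 𝒪 𝒟)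
    (hloc : IsLocalHom (algebraMap 𝒪 A))
    (hsurj : Function.Surjective (IsLocalRing.residue A ∘ algebraMap 𝒪 A))
    (r : GQ →* M2 A) (hcont : MatCont r) (htype : 𝒟 (ofMatrix r hcont)) (n : ℕ) :
    𝒟 (ofMatrix (mapMat ((quotPowMk (𝒪 := 𝒪) A n : A →ₐ[𝒪] QuotPow A n) : A →+* QuotPow A n) r)
      (matCont_mapMat hcont _ (isLocalHom_quotPowMk (𝒪 := 𝒪) A n))) := by
  have hB := isArtinianTestAlgebra_quotPow (𝒪 := 𝒪) A hloc hsurj n
  have h1 := (h𝒟.iff_forall_surjective hloc hsurj (ofMatrix r hcont)).mp htype hB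
    (quotPowMk (𝒪 := 𝒪) A n) (isLocalHom_quotPowMk (𝒪 := 𝒪) A n) (quotPowMk_surjective (𝒪 := 𝒪) A n)
  exact h𝒟.of_isEquiv hB (baseChangeAlong_ofMatrix _ (isLocalHom_quotPowMk (𝒪 := 𝒪) A n) r hcont) h1

/-- If all the reductions modulo `m_A ^ (n+1)` are of type `𝒟`, so is the representation. -/
theorem type_of_forall_quotPow (h𝒟 : IsDeformationCondition 𝒪 𝒟)
    (hloc : IsLocalHom (algebraMap 𝒪 A))
    (hsurj : Function.Surjective (IsLocalRing.residue A ∘ algebraMap 𝒪 A))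
    (r : GQ →* M2 A) (hcont : MatCont r)
    (h : ∀ n : ℕ, 𝒟 (ofMatrix
      (mapMat ((quotPowMk (𝒪 := 𝒪) A n : A →ₐ[𝒪] QuotPow A n) : A →+* QuotPow A n) r)
      (matCont_mapMat hcont _ (isLocalHom_quotPowMk (𝒪 := 𝒪) A n)))) :
    𝒟 (ofMatrix r hcont) := by
  rw [h𝒟.iff_forall_surjective hloc hsurj]
  intro B _ _ _ hB q hq hqs
  have := hB.isArtinian
  obtain ⟨n, q', hcomp, hq's, hq'loc⟩ := exists_factor_quotPow (𝒪 := 𝒪) A q hqs
  have hQ := isArtinianTestAlgebra_quotPow (𝒪 := 𝒪) A hloc hsurj n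
  -- type at level n pushed forward along q'
  have h1 : 𝒟 ((ofMatrix
      (mapMat ((quotPowMk (𝒪 := 𝒪) A n : A →ₐ[𝒪] QuotPow A n) : A →+* QuotPow A n) r)
      (matCont_mapMat hcont _ (isLocalHom_quotPowMk (𝒪 := 𝒪) A n))).baseChangeAlong
        (q' : QuotPow A n →+* B) hq'loc) :=
    h𝒟.baseChangeAlong hQ hB q' hq'loc (h n)
  have e1 := baseChangeAlong_ofMatrix (q' : QuotPow A n →+* B) hq'loc _
    (matCont_mapMat hcont _ (isLocalHom_quotPowMk (𝒪 := 𝒪) A n))
  have e2 := baseChangeAlong_ofMatrix (q : A →+* B) hq r hcont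
  have hmat : mapMat (q' : QuotPow A n →+* B)
      (mapMat ((quotPowMk (𝒪 := 𝒪) A n : A →ₐ[𝒪] QuotPow A n) : A →+* QuotPow A n) r) =
      mapMat (q : A →+* B) r := by
    rw [mapMat_mapMat]
    congr 1
    rw [← hcomp]
    rfl
  have e3 : (ofMatrix (mapMat (q' : QuotPow A n →+* B)
      (mapMat ((quotPowMk (𝒪 := 𝒪) A n : A →ₐ[𝒪] QuotPow A n) : A →+* QuotPow A n) r))
      (matCont_mapMat (matCont_mapMat hcont _ (isLocalHom_quotPowMk (𝒪 := 𝒪) A n)) _ hq'loc)).IsEquiv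
      (ofMatrix (mapMat (q : A →+* B) r) (matCont_mapMat hcont _ hq)) :=
    ofMatrix_isEquiv_of_eq _ _ hmat
  obtain ⟨f1⟩ := e1
  obtain ⟨f2⟩ := e2
  obtain ⟨f3⟩ := e3
  exact h𝒟.of_isEquiv hB ⟨(f1.trans f3).trans f2.symm⟩ h1

/-- A normalized continuous lift of type `𝒟` over a complete ring gives pairs at all levels. -/
theorem isPair_quotPow {ρbar : ResidualGaloisRep (ResidueField 𝒪)} (D : SliceData 𝒪 ρbar)
    (h𝒟 : IsDeformationCondition 𝒪 𝒟) (hloc : IsLocalHom (algebraMap 𝒪 A))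
    (hsurj : Function.Surjective (IsLocalRing.residue A ∘ algebraMap 𝒪 A))
    (r : GQ →* M2 A) (hcont : MatCont r) (hnorm : IsNormalized D r)
    (htype : 𝒟 (ofMatrix r hcont)) (n : ℕ) :
    IsPair D 𝒟 (QuotPow A n)
      (mapMat ((quotPowMk (𝒪 := 𝒪) A n : A →ₐ[𝒪] QuotPow A n) : A →+* QuotPow A n) r) where
  test := isArtinianTestAlgebra_quotPow (𝒪 := 𝒪) A hloc hsurj n
  cont := matCont_mapMat hcont _ (isLocalHom_quotPowMk (𝒪 := 𝒪) A n)
  norm := isNormalized_mapMat D (quotPowMk (𝒪 := 𝒪) A n) (isLocalHom_quotPowMk (𝒪 := 𝒪) A n) hnorm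
  type := type_mapMat_quotPow h𝒟 hloc hsurj r hcont htype n

end Complete

end Fermat.Agent.S53
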