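/-
T-S53 (helper18): final assembly of `DeformationRingData` from a universal normalized lift.
-/
import Mathlib
import Fermat.Agent.S53.Defs
import Fermat.Agent.S53.MatrixModel
import Fermat.Agent.S53.MatrixRes
import Fermat.Agent.S53.CompleteQuot
import Fermat.Agent.S53.TypeLevels

set_option autoImplicit false
set_option linter.style.haveILetI false
set_option linter.unusedSectionVars false

namespace Fermat.Agent.S53

open IsLocalRing GaloisRep MatrixModel

/-- Assembly: a complete Noetherian local `𝒪`-algebra `R` with a continuous normalized lift `ru`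
which is of type `𝒟` at all finite levels and satisfies the universal property gives
`DeformationRingData`. -/
theorem asm_deformationRingData
    {𝒪 : Type} [CommRing 𝒪] [IsDomain 𝒪] [IsDiscreteValuationRing 𝒪]
    [IsAdicComplete (maximalIdeal 𝒪) 𝒪]
    {ρbar : ResidualGaloisRep (ResidueField 𝒪)}
    {𝒟 : ∀ ⦃A : Type⦄ [CommRing A] [IsLocalRing A] [Algebra 𝒪 A], GaloisRepAdic A → Prop}
    (habs : ρbar.IsAbsolutelyIrreducible) (h𝒟 : IsDeformationCondition 𝒪 𝒟)
    (D : SliceData 𝒪 ρbar)
    {R : Type} [CommRing R] [IsLocalRing R] [IsNoetherianRing R]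
    [IsAdicComplete (maximalIdeal R) R] [Algebra 𝒪 R]
    (hloc : IsLocalHom (algebraMap 𝒪 R))
    (hsurj : Function.Surjective (residue R ∘ algebraMap 𝒪 R))
    (ru : GQ →* M2 R) (hcont : MatCont ru) (hnorm : IsNormalized D ru)
    (hlevel : ∀ n : ℕ, 𝒟 (ofMatrix
      (mapMat ((quotPowMk (𝒪 := 𝒪) R n : R →ₐ[𝒪] QuotPow R n) : R →+* QuotPow R n) ru)
      (matCont_mapMat hcont _ (isLocalHom_quotPowMk (𝒪 := 𝒪) R n))))
    (huniv : ∀ (A : Type) [CommRing A] [IsLocalRing A] [IsNoetherianRing A]
      [IsAdicComplete (IsLocalRing.maximalIdeal A) A] [Algebra 𝒪 A] [IsLocalHom (algebraMap 𝒪 A)],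
      Function.Surjective (IsLocalRing.residue A ∘ algebraMap 𝒪 A) →
      ∀ ρA : GaloisRepAdic A, 𝒟 ρA →
        ρA.residual.IsEquiv
          (ρbar.baseChangeAlong (IsLocalRing.ResidueField.map (algebraMap 𝒪 A))) →
        ∃! φ : R →ₐ[𝒪] A, ∃ hφ : IsLocalHom (φ : R →+* A),
          ((ofMatrix ru hcont).baseChangeAlong (φ : R →+* A) hφ).IsEquiv ρA) :
    Nonempty (DeformationRingData 𝒪 ρbar 𝒟) := by
  haveI := hloc
  exact ⟨{
    R := R
    instIsLocalHom := hloc
    residue_surjective := hsurj
    absIrr := habs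
    ρ := ofMatrix ru hcont
    isOfType := type_of_forall_quotPow h𝒟 hloc hsurj ru hcont hlevel
    residual_isEquiv := residual_isEquiv_of_strictLift D hcont hnorm.1
    universal := huniv }⟩

end Fermat.Agent.S53
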