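/-
T-S53 (helper18): coordinate data (output of the tangent-space bound (C3)), coordinates of a lift,
and rigidity of pairs: a pair is determined by its coordinates.
-/
import Mathlib
import Fermat.Agent.S53.Defs
import Fermat.Agent.S53.Pairs

set_option autoImplicit false
set_option linter.style.haveILetI false
set_option linter.unusedSectionVars false

namespace Fermat.Agent.S53

open IsLocalRing GaloisRep

variable {𝒪 : Type} [CommRing 𝒪] [IsLocalRing 𝒪]
  {ρbar : ResidualGaloisRep (ResidueField 𝒪)}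

/-- Finitely many matrix entries (shifted by constants of `𝒪`) which generate, for every pair,
the subalgebra generated by all entries.  Produced from `TangentFinite` in `Tangent.lean`. -/
structure CoordData (D : SliceData 𝒪 ρbar)
    (𝒟 : ∀ ⦃A : Type⦄ [CommRing A] [IsLocalRing A] [Algebra 𝒪 A], GaloisRepAdic A → Prop) where
  d : ℕ
  γ : Fin d → GQ
  a : Fin d → Fin 2
  b : Fin d → Fin 2
  ct : Fin d → 𝒪
  hct : ∀ s, residue 𝒪 (ct s) = D.rbar (γ s) (a s) (b s)
  gen : ∀ (A : Type) [CommRing A] [IsLocalRing A] [Algebra 𝒪 A] (r : GQ →* M2 A),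
    IsPair D 𝒟 A r → ∀ σ i j, r σ i j ∈
      Algebra.adjoin 𝒪 (Set.range fun s => r (γ s) (a s) (b s) - algebraMap 𝒪 A (ct s))

variable {D : SliceData 𝒪 ρbar}
  {𝒟 : ∀ ⦃A : Type⦄ [CommRing A] [IsLocalRing A] [Algebra 𝒪 A], GaloisRepAdic A → Prop}

section Coord

variable {A B : Type} [CommRing A] [Algebra 𝒪 A] [CommRing B] [Algebra 𝒪 B]

/-- The coordinates of a lift. -/
noncomputable def CoordData.u (C : CoordData D 𝒟) (r : GQ →* M2 A) (s : Fin C.d) : A :=
  r (C.γ s) (C.a s) (C.b s) - algebraMap 𝒪 A (C.ct s)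

theorem CoordData.u_mapMat (C : CoordData D 𝒟) (f : A →ₐ[𝒪] B) (r : GQ →* M2 A) (s : Fin C.d) :
    C.u (mapMat (f : A →+* B) r) s = f (C.u r s) := by
  simp [CoordData.u]

/-- The coordinates together with a uniformizer in position `0`. -/
noncomputable def CoordData.coord (C : CoordData D 𝒟) (ϖ : 𝒪) (r : GQ →* M2 A) : Fin (C.d + 1) → A :=
  Fin.cons (algebraMap 𝒪 A ϖ) (C.u r)

@[simp] theorem CoordData.coord_zero (C : CoordData D 𝒟) (ϖ : 𝒪) (r : GQ →* M2 A) :
    C.coord ϖ r 0 = algebraMap 𝒪 A ϖ := rfl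

@[simp] theorem CoordData.coord_succ (C : CoordData D 𝒟) (ϖ : 𝒪) (r : GQ →* M2 A) (s : Fin C.d) :
    C.coord ϖ r s.succ = C.u r s := rfl

theorem CoordData.coord_mapMat (C : CoordData D 𝒟) (ϖ : 𝒪) (f : A →ₐ[𝒪] B) (r : GQ →* M2 A) :
    C.coord ϖ (mapMat (f : A →+* B) r) = f ∘ C.coord ϖ r := by
  funext i
  refine Fin.cases ?_ (fun s => ?_) i
  · simp
  · simp [CoordData.u_mapMat]

end Coord

section Local

variable {A : Type} [CommRing A] [IsLocalRing A] [Algebra 𝒪 A]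

theorem CoordData.u_mem_maximalIdeal (C : CoordData D 𝒟) {r : GQ →* M2 A}
    (hr : IsStrictLift D.rbar r) (s : Fin C.d) : C.u r s ∈ maximalIdeal A :=
  hr _ _ _ _ (C.hct s)

theorem CoordData.coord_mem_maximalIdeal (C : CoordData D 𝒟) {ϖ : 𝒪}
    (hϖ : ϖ ∈ maximalIdeal 𝒪) [IsLocalHom (algebraMap 𝒪 A)] {r : GQ →* M2 A}
    (hr : IsStrictLift D.rbar r) (i : Fin (C.d + 1)) : C.coord ϖ r i ∈ maximalIdeal A := by
  refine Fin.cases ?_ (fun s => ?_) i
  · exact map_mem_maximalIdeal _ inferInstance hϖ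
  · exact C.u_mem_maximalIdeal hr s

/-- Every entry of a pair lies in the subalgebra generated by the coordinates. -/
theorem CoordData.entry_mem_adjoin_coord (C : CoordData D 𝒟) (ϖ : 𝒪) {r : GQ →* M2 A}
    (hp : IsPair D 𝒟 A r) (σ : GQ) (i j : Fin 2) :
    r σ i j ∈ Algebra.adjoin 𝒪 (Set.range (C.coord ϖ r)) := by
  refine Algebra.adjoin_mono ?_ (C.gen A r hp σ i j)
  rintro _ ⟨s, rfl⟩
  exact ⟨s.succ, rfl⟩

/-- Rigidity: a pair is determined by its coordinates. -/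
theorem CoordData.pair_ext [Finite (ResidueField 𝒪)] (C : CoordData D 𝒟)
    (h𝒟 : IsDeformationCondition 𝒪 𝒟) {r r' : GQ →* M2 A}
    (hp : IsPair D 𝒟 A r) (hp' : IsPair D 𝒟 A r') (h : C.u r = C.u r') : r = r' := by
  haveI := isLocalRing_fibre hp.test hp'.test
  have hj := IsPair.join h𝒟 hp hp'
  set rr := fibreMat (D := D) hp.norm.1 hp'.norm.1 with hrr
  let Δ : Subalgebra 𝒪 (fibre (𝒪 := 𝒪) A A) :=
    AlgHom.equalizer (fibreFst : fibre (𝒪 := 𝒪) A A →ₐ[𝒪] A) fibreSnd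
  have hsub : Algebra.adjoin 𝒪 (Set.range fun s => rr (C.γ s) (C.a s) (C.b s) -
      algebraMap 𝒪 (fibre (𝒪 := 𝒪) A A) (C.ct s)) ≤ Δ := by
    refine Algebra.adjoin_le ?_
    rintro _ ⟨s, rfl⟩
    show fibreFst _ = fibreSnd _
    have h1 := congrFun h s
    simp only [CoordData.u] at h1
    simpa [hrr, fibreMat] using h1
  ext σ i j
  have := hsub (C.gen _ rr hj σ i j)
  have h2 : fibreFst (rr σ i j) = fibreSnd (rr σ i j) := this
  simpa [hrr, fibreMat] using h2

end Local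

end Fermat.Agent.S53
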