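import Mathlib

/-!
# S53, part (B): the slice lemma (pure matrix algebra over local rings)

* `slice_scalar_of_normalized` : uniqueness (conjugating matrix between normalised pairs is scalar)
* `exists_root_quadratic`      : Hensel for `a0 + a1 y + a2 y^2`, `a0 ∈ m`, `a1` unit
* `exists_beta`                : solving the second normalisation condition
* `conjHom`                    : conjugation of a matrix valued monoid hom by a unit
* `exists_normalized_conj`     : existence of a normalising conjugation (complete local ring)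
* `normalized_unique`          : two conjugate normalised lifts are equal
-/

set_option autoImplicit false

namespace Fermat.Agent.S53.Slice

open Matrix IsLocalRing Polynomial

section Uniqueness

variable {A : Type*} [CommRing A] [IsLocalRing A]

/-- If `u` is a unit and `x` is in the maximal ideal then `u - x` is a unit. -/
theorem isUnit_sub_of_mem_maximalIdeal {u x : A} (hu : IsUnit u) (hx : x ∈ maximalIdeal A) :
    IsUnit (u - x) := by
  by_contra hcon
  have h1 : u - x ∈ maximalIdeal A := (mem_maximalIdeal _).mpr hcon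
  have h2 : u ∈ maximalIdeal A := by
    have := Ideal.add_mem _ h1 hx
    simpa using this
  exact (mem_maximalIdeal _).mp h2 hu

omit [IsLocalRing A] in
/-- Shape lemma: if `h * X' = X * h` with first columns of `X`, `X'` equal to `(0,1)`,
then `h = h₀₀ • 1 + h₁₀ • X`. -/
theorem conj_shape (X X' h : Matrix (Fin 2) (Fin 2) A)
    (hX : h * X' = X * h)
    (hX0 : X 0 0 = 0) (hX1 : X 1 0 = 1) (hX'0 : X' 0 0 = 0) (hX'1 : X' 1 0 = 1) :
    h = h 0 0 • (1 : Matrix (Fin 2) (Fin 2) A) + h 1 0 • X := by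
  have e0 := congrFun (congrFun hX 0) 0
  have e1 := congrFun (congrFun hX 1) 0
  simp only [Matrix.mul_apply, Fin.sum_univ_two, hX0, hX1, hX'0, hX'1] at e0 e1
  ext a b
  fin_cases a <;> fin_cases b
  · simp [Matrix.add_apply, Matrix.smul_apply, hX0]
  · simp [Matrix.add_apply, Matrix.smul_apply]
    linear_combination e0
  · simp [Matrix.add_apply, Matrix.smul_apply, hX1]
  · simp [Matrix.add_apply, Matrix.smul_apply]
    linear_combination e1

/-- Slice uniqueness, matrix form: two normalized pairs `(X,Y)`, `(X',Y')` conjugate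
by `h` with `h₀₀` a unit and `h₁₀` in the maximal ideal force `h` to be scalar. -/
theorem slice_scalar_of_normalized
    (X Y X' Y' h : Matrix (Fin 2) (Fin 2) A) (i j : Fin 2)
    (hX : h * X' = X * h) (hY : h * Y' = Y * h)
    (hX0 : X 0 0 = 0) (hX1 : X 1 0 = 1) (hX'0 : X' 0 0 = 0) (hX'1 : X' 1 0 = 1)
    (hYij : Y i j = Y' i j)
    (hh0 : IsUnit (h 0 0)) (hh1 : h 1 0 ∈ maximalIdeal A)
    (hunit : IsUnit ((Y * X - X * Y) i j)) :
    h = h 0 0 • (1 : Matrix (Fin 2) (Fin 2) A) := by
  have hshape := conj_shape X X' h hX hX0 hX1 hX'0 hX'1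
  set α := h 0 0 with hα
  set β := h 1 0 with hβ
  -- D = Y' - Y
  set D := Y' - Y with hD
  have key : α • D = β • ((Y * X - X * Y) - X * D) := by
    have h1 : (α • (1 : Matrix (Fin 2) (Fin 2) A) + β • X) * Y' =
        Y * (α • (1 : Matrix (Fin 2) (Fin 2) A) + β • X) := by
      rw [← hshape]; exact hY
    have h2 : α • Y' + β • (X * Y') = α • Y + β • (Y * X) := by
      simpa [add_mul, mul_add, Matrix.smul_mul, Matrix.mul_smul] using h1
    have h3 : α • D = β • (Y * X) - β • (X * Y') := by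
      rw [hD, smul_sub, sub_eq_sub_iff_add_eq_add, h2, add_comm]
    rw [h3, hD]
    simp only [smul_sub, Matrix.mul_sub]
    abel
  -- every entry of D is in the maximal ideal
  have hDmem : ∀ a b, D a b ∈ maximalIdeal A := by
    intro a b
    have e := congrFun (congrFun key a) b
    simp only [Matrix.smul_apply, smul_eq_mul] at e
    obtain ⟨u, hu⟩ := hh0
    have : D a b = ↑u⁻¹ * (β * ((Y * X - X * Y - X * D) a b)) := by
      rw [← e, ← hu, ← mul_assoc, Units.inv_mul, one_mul]
    rw [this]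
    exact Ideal.mul_mem_left _ _ (Ideal.mul_mem_right _ _ hh1)
  have hXD : (X * D) i j ∈ maximalIdeal A := by
    rw [Matrix.mul_apply]
    exact Ideal.sum_mem _ fun b _ => Ideal.mul_mem_left _ _ (hDmem b j)
  have hDij : D i j = 0 := by rw [hD, Matrix.sub_apply, hYij, sub_self]
  have e := congrFun (congrFun key i) j
  simp only [Matrix.smul_apply, smul_eq_mul, hDij, mul_zero, Matrix.sub_apply] at e
  have hu2 : IsUnit ((Y * X - X * Y) i j - (X * D) i j) :=
    isUnit_sub_of_mem_maximalIdeal hunit hXD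
  have hβ0 : β = 0 := by
    have := e.symm
    simp only [Matrix.sub_apply] at hu2
    exact (hu2.mul_left_eq_zero).mp this
  rw [hshape, hβ0, zero_smul, add_zero]

end Uniqueness

section Existence

variable {A : Type*} [CommRing A] [IsLocalRing A]

theorem isUnit_of_sub_mem_maximalIdeal' {u x : A} (hu : IsUnit u) (hx : x - u ∈ maximalIdeal A) :
    IsUnit x := by
  by_contra hcon
  have h1 : x ∈ maximalIdeal A := (mem_maximalIdeal _).mpr hcon
  have h2 : u ∈ maximalIdeal A := by
    have := Ideal.sub_mem _ h1 hx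
    simpa using this
  exact (mem_maximalIdeal _).mp h2 hu

/-- Root of a quadratic `a0 + a1 y + a2 y^2` with `a0 ∈ m`, `a1` a unit, in a complete local ring. -/
theorem exists_root_quadratic [IsAdicComplete (maximalIdeal A) A] (a0 a1 a2 : A)
    (h0 : a0 ∈ maximalIdeal A) (h1 : IsUnit a1) :
    ∃ y ∈ maximalIdeal A, a0 + a1 * y + a2 * y ^ 2 = 0 := by
  have hH : HenselianRing A (maximalIdeal A) := inferInstance
  let f : A[X] := X ^ 2 + C a1 * X + C (a0 * a2)
  have hf : f.Monic := by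
    have : f = X ^ 2 + (C a1 * X + C (a0 * a2)) := by simp [f, add_assoc]
    rw [this]
    apply Polynomial.monic_X_pow_add
    exact lt_of_le_of_lt degree_linear_le (by norm_num)
  have hev : f.eval (-a1) ∈ maximalIdeal A := by
    have : f.eval (-a1) = a0 * a2 := by simp [f]; ring
    rw [this]; exact Ideal.mul_mem_right _ _ h0
  have hder : IsUnit (Ideal.Quotient.mk (maximalIdeal A) (f.derivative.eval (-a1))) := by
    have : f.derivative.eval (-a1) = -a1 := by
      simp [f, derivative_pow]; ring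
    rw [this]
    exact (h1.neg).map _
  obtain ⟨t, ht, htm⟩ := hH.is_henselian f hf (-a1) hev hder
  have htu : IsUnit t := isUnit_of_sub_mem_maximalIdeal' h1.neg htm
  obtain ⟨u, rfl⟩ := htu
  refine ⟨a0 * ↑u⁻¹, Ideal.mul_mem_right _ _ h0, ?_⟩
  have hroot : (u : A) ^ 2 + a1 * u + a0 * a2 = 0 := by
    have := ht
    simpa [f, Polynomial.IsRoot] using this
  have hinv : (u : A) * ↑u⁻¹ = 1 := Units.mul_inv u
  linear_combination (a0 * (↑u⁻¹ : A) ^ 2) * hroot + (-(a0 * a1 * ↑u⁻¹) - a0 * (u : A) * ↑u⁻¹ - a0) * hinv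
  
omit [IsLocalRing A] in
theorem adjugate_one_add_smul_fin_two (β : A) (X : Matrix (Fin 2) (Fin 2) A) :
    adjugate (1 + β • X) = 1 + β • adjugate X := by
  ext a b
  fin_cases a <;> fin_cases b <;> simp [adjugate_fin_two, Matrix.add_apply]

omit [IsLocalRing A] in
theorem adjugate_eq_trace_sub_fin_two (X : Matrix (Fin 2) (Fin 2) A) :
    adjugate X = X.trace • (1 : Matrix (Fin 2) (Fin 2) A) - X := by
  ext a b
  fin_cases a <;> fin_cases b <;> simp [adjugate_fin_two, Matrix.trace_fin_two]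

omit [IsLocalRing A] in
theorem det_one_add_smul_fin_two (β : A) (X : Matrix (Fin 2) (Fin 2) A) :
    det (1 + β • X) = 1 + X.trace * β + X.det * β ^ 2 := by
  simp [Matrix.det_fin_two, Matrix.trace_fin_two]
  ring

/-- Step 2 of the normalisation: solve for `β`. -/
theorem exists_beta [IsAdicComplete (maximalIdeal A) A] (X Y : Matrix (Fin 2) (Fin 2) A)
    (i j : Fin 2) (c : A) (hc : Y i j - c ∈ maximalIdeal A)
    (hunit : IsUnit ((Y * X - X * Y) i j)) :
    ∃ β ∈ maximalIdeal A,
      (adjugate (1 + β • X) * Y * (1 + β • X) : Matrix (Fin 2) (Fin 2) A) i j =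
        c * det (1 + β • X) := by
  have hu1 : IsUnit (X.trace * (Y i j - c) + (Y * X - X * Y) i j) := by
    by_contra hcon
    have h1 : X.trace * (Y i j - c) + (Y * X - X * Y) i j ∈ maximalIdeal A :=
      (mem_maximalIdeal _).mpr hcon
    have h2 : (Y * X - X * Y) i j ∈ maximalIdeal A := by
      have := Ideal.sub_mem _ h1 (Ideal.mul_mem_left _ X.trace hc)
      simpa using this
    exact (mem_maximalIdeal _).mp h2 hunit
  obtain ⟨β, hβ, hroot⟩ := exists_root_quadratic (Y i j - c)
    (X.trace * (Y i j - c) + (Y * X - X * Y) i j)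
    ((adjugate X * Y * X : Matrix (Fin 2) (Fin 2) A) i j - c * X.det) hc hu1
  refine ⟨β, hβ, ?_⟩
  have hexp : adjugate (1 + β • X) * Y * (1 + β • X) =
      Y + β • (adjugate X * Y + Y * X) + (β ^ 2) • (adjugate X * Y * X) := by
    rw [adjugate_one_add_smul_fin_two]
    simp only [add_mul, mul_add, one_mul, mul_one, Matrix.smul_mul, Matrix.mul_smul, smul_add,
      smul_smul, pow_two]
    abel
  rw [hexp, det_one_add_smul_fin_two]
  have hadj : adjugate X * Y + Y * X = X.trace • Y + (Y * X - X * Y) := by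
    rw [adjugate_eq_trace_sub_fin_two]
    simp only [sub_mul, Matrix.smul_mul, one_mul]
    abel
  rw [hadj]
  simp only [Matrix.add_apply, Matrix.smul_apply, smul_eq_mul]
  linear_combination hroot

end Existence

section GroupLevel

variable {G : Type*} [Group G] {A : Type*} [CommRing A]

/-- Conjugate a matrix-valued monoid hom by a unit: `σ ↦ u⁻¹ * r σ * u`. -/
def conjHom (u : (Matrix (Fin 2) (Fin 2) A)ˣ) (r : G →* Matrix (Fin 2) (Fin 2) A) : G →* Matrix (Fin 2) (Fin 2) A where
  toFun σ := ((u⁻¹ : (Matrix (Fin 2) (Fin 2) A)ˣ) : Matrix (Fin 2) (Fin 2) A) * r σ * (u : Matrix (Fin 2) (Fin 2) A)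
  map_one' := by simp
  map_mul' a b := by
    simp only [map_mul]
    calc ((u⁻¹ : (Matrix (Fin 2) (Fin 2) A)ˣ) : Matrix (Fin 2) (Fin 2) A) * (r a * r b) * (u : Matrix (Fin 2) (Fin 2) A)
        = ((u⁻¹ : (Matrix (Fin 2) (Fin 2) A)ˣ) : Matrix (Fin 2) (Fin 2) A) * r a * ((u : Matrix (Fin 2) (Fin 2) A) * ((u⁻¹ : (Matrix (Fin 2) (Fin 2) A)ˣ) : Matrix (Fin 2) (Fin 2) A)) * r b *
            (u : Matrix (Fin 2) (Fin 2) A) := by
          rw [Units.mul_inv, mul_one]; simp only [mul_assoc]
      _ = ((u⁻¹ : (Matrix (Fin 2) (Fin 2) A)ˣ) : Matrix (Fin 2) (Fin 2) A) * r a * (u : Matrix (Fin 2) (Fin 2) A) *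
            (((u⁻¹ : (Matrix (Fin 2) (Fin 2) A)ˣ) : Matrix (Fin 2) (Fin 2) A) * r b * (u : Matrix (Fin 2) (Fin 2) A)) := by simp only [mul_assoc]

theorem conjHom_apply (u : (Matrix (Fin 2) (Fin 2) A)ˣ) (r : G →* Matrix (Fin 2) (Fin 2) A) (σ : G) :
    conjHom u r σ = ((u⁻¹ : (Matrix (Fin 2) (Fin 2) A)ˣ) : Matrix (Fin 2) (Fin 2) A) * r σ * (u : Matrix (Fin 2) (Fin 2) A) := rfl

theorem conjHom_mul (u v : (Matrix (Fin 2) (Fin 2) A)ˣ) (r : G →* Matrix (Fin 2) (Fin 2) A) :
    conjHom (u * v) r = conjHom v (conjHom u r) := by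
  ext σ : 1
  simp only [conjHom_apply, _root_.mul_inv_rev, Units.val_mul, mul_assoc]

theorem conjHom_conj (u : (Matrix (Fin 2) (Fin 2) A)ˣ) (r : G →* Matrix (Fin 2) (Fin 2) A) (σ : G) :
    (u : Matrix (Fin 2) (Fin 2) A) * conjHom u r σ = r σ * (u : Matrix (Fin 2) (Fin 2) A) := by
  rw [conjHom_apply, ← mul_assoc, ← mul_assoc, Units.mul_inv, one_mul]

variable [IsLocalRing A]

/-- Reduction of matrices to the residue field. -/
noncomputable abbrev redMat : Matrix (Fin 2) (Fin 2) A →+* Matrix (Fin 2) (Fin 2) (ResidueField A) :=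
  (residue A).mapMatrix

theorem redMat_apply (M : Matrix (Fin 2) (Fin 2) A) (a b : Fin 2) :
    redMat M a b = residue A (M a b) := rfl

theorem redMat_unit_inv (u : (Matrix (Fin 2) (Fin 2) A)ˣ) (hu : redMat (u : Matrix (Fin 2) (Fin 2) A) = 1) :
    redMat ((u⁻¹ : (Matrix (Fin 2) (Fin 2) A)ˣ) : Matrix (Fin 2) (Fin 2) A) = 1 := by
  have h := congrArg redMat (Units.inv_mul u)
  rw [map_mul, hu, mul_one, map_one] at h
  exact h

theorem redMat_conjHom (u : (Matrix (Fin 2) (Fin 2) A)ˣ) (hu : redMat (u : Matrix (Fin 2) (Fin 2) A) = 1) (r : G →* Matrix (Fin 2) (Fin 2) A) (σ : G) :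
    redMat (conjHom u r σ) = redMat (r σ) := by
  rw [conjHom_apply, map_mul, map_mul, hu, redMat_unit_inv u hu, one_mul, mul_one]

/-- Step 1: conjugate so that the first column of `X` is exactly `(0,1)`. -/
theorem exists_unit_step1 (X : Matrix (Fin 2) (Fin 2) A)
    (h00 : residue A (X 0 0) = 0) (h10 : residue A (X 1 0) = 1) :
    ∃ u : (Matrix (Fin 2) (Fin 2) A)ˣ, redMat (u : Matrix (Fin 2) (Fin 2) A) = 1 ∧
      (((u⁻¹ : (Matrix (Fin 2) (Fin 2) A)ˣ) : Matrix (Fin 2) (Fin 2) A) * X * (u : Matrix (Fin 2) (Fin 2) A)) 0 0 = 0 ∧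
      (((u⁻¹ : (Matrix (Fin 2) (Fin 2) A)ˣ) : Matrix (Fin 2) (Fin 2) A) * X * (u : Matrix (Fin 2) (Fin 2) A)) 1 0 = 1 := by
  let M : Matrix (Fin 2) (Fin 2) A := !![1, X 0 0; 0, X 1 0]
  have hdet : IsUnit M.det := by
    have : M.det = X 1 0 := by simp [M, Matrix.det_fin_two]
    rw [this]
    apply (residue_ne_zero_iff_isUnit _).mp
    rw [h10]; exact one_ne_zero
  let u : (Matrix (Fin 2) (Fin 2) A)ˣ := Matrix.nonsingInvUnit M hdet
  have hu : (u : Matrix (Fin 2) (Fin 2) A) = M := rfl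
  have huinv : ((u⁻¹ : (Matrix (Fin 2) (Fin 2) A)ˣ) : Matrix (Fin 2) (Fin 2) A) * M = 1 := by
    rw [← hu]; exact Units.inv_mul u
  have hXM : ∀ b, (X * M) b 0 = M b 1 := by
    intro b
    fin_cases b <;> simp [M, Matrix.mul_apply, Fin.sum_univ_two]
  have hcol : ∀ a, (((u⁻¹ : (Matrix (Fin 2) (Fin 2) A)ˣ) : Matrix (Fin 2) (Fin 2) A) * X * (u : Matrix (Fin 2) (Fin 2) A)) a 0 = (1 : Matrix (Fin 2) (Fin 2) A) a 1 := by
    intro a
    rw [hu, mul_assoc, Matrix.mul_apply]
    simp only [hXM]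
    rw [← Matrix.mul_apply, huinv]
  refine ⟨u, ?_, ?_, ?_⟩
  · ext a b
    rw [redMat_apply, hu]
    fin_cases a <;> fin_cases b <;> simp [M, h00, h10]
  · rw [hcol]; simp
  · rw [hcol]; simp

/-- Existence of the normalising conjugation over a complete local ring. -/
theorem exists_normalized_conj [IsAdicComplete (maximalIdeal A) A] (r : G →* Matrix (Fin 2) (Fin 2) A)
    (g1 g2 : G) (i j : Fin 2) (c : A)
    (h00 : residue A (r g1 0 0) = 0) (h10 : residue A (r g1 1 0) = 1)
    (hc : residue A (r g2 i j) = residue A c)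
    (hunit : residue A ((r g2 * r g1 - r g1 * r g2) i j) ≠ 0) :
    ∃ u : (Matrix (Fin 2) (Fin 2) A)ˣ, redMat (u : Matrix (Fin 2) (Fin 2) A) = 1 ∧
      conjHom u r g1 0 0 = 0 ∧ conjHom u r g1 1 0 = 1 ∧ conjHom u r g2 i j = c := by
  obtain ⟨u1, hu1, e0, e1⟩ := exists_unit_step1 (r g1) h00 h10
  set r1 := conjHom u1 r with hr1
  set X := r1 g1 with hX
  set Y := r1 g2 with hY
  have hredX : redMat X = redMat (r g1) := redMat_conjHom u1 hu1 r g1
  have hredY : redMat Y = redMat (r g2) := redMat_conjHom u1 hu1 r g2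
  have hc1 : Y i j - c ∈ maximalIdeal A := by
    rw [← residue_eq_zero_iff, map_sub, ← redMat_apply, hredY, redMat_apply, hc, sub_self]
  have hunit1 : IsUnit ((Y * X - X * Y) i j) := by
    have hred : redMat (Y * X - X * Y) = redMat (r g2 * r g1 - r g1 * r g2) := by
      simp only [map_sub, map_mul, hredX, hredY]
    rw [← residue_ne_zero_iff_isUnit, ← redMat_apply, hred, redMat_apply]
    exact hunit
  obtain ⟨β, hβ, hβeq⟩ := exists_beta X Y i j c hc1 hunit1
  set M : Matrix (Fin 2) (Fin 2) A := 1 + β • X with hM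
  have hdet : IsUnit M.det := by
    rw [← residue_ne_zero_iff_isUnit, hM, det_one_add_smul_fin_two]
    have hβ0 : residue A β = 0 := (residue_eq_zero_iff _).mpr hβ
    simp [hβ0]
  let u2 : (Matrix (Fin 2) (Fin 2) A)ˣ := Matrix.nonsingInvUnit M hdet
  have hu2 : (u2 : Matrix (Fin 2) (Fin 2) A) = M := rfl
  have hu2red : redMat (u2 : Matrix (Fin 2) (Fin 2) A) = 1 := by
    rw [hu2, hM, map_add, map_one]
    have hβ0 : residue A β = 0 := (residue_eq_zero_iff _).mpr hβ
    have : redMat (β • X) = 0 := by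
      ext a b
      rw [redMat_apply, Matrix.smul_apply, smul_eq_mul, map_mul, hβ0, zero_mul]
      rfl
    rw [this, add_zero]
  have hcommMX : M * X = X * M := by
    rw [hM]; simp [add_mul, mul_add]
  have hinvM : ((u2⁻¹ : (Matrix (Fin 2) (Fin 2) A)ˣ) : Matrix (Fin 2) (Fin 2) A) * M = 1 := by
    rw [← hu2]; exact Units.inv_mul u2
  refine ⟨u1 * u2, ?_, ?_, ?_, ?_⟩
  · rw [Units.val_mul, map_mul, hu1, hu2red, mul_one]
  · rw [conjHom_mul, conjHom_apply, hu2, ← hr1, ← hX, mul_assoc, ← hcommMX, ← mul_assoc, hinvM,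
      one_mul]
    exact e0
  · rw [conjHom_mul, conjHom_apply, hu2, ← hr1, ← hX, mul_assoc, ← hcommMX, ← mul_assoc, hinvM,
      one_mul]
    exact e1
  · rw [conjHom_mul, conjHom_apply, hu2, ← hr1, ← hY]
    set Z := ((u2⁻¹ : (Matrix (Fin 2) (Fin 2) A)ˣ) : Matrix (Fin 2) (Fin 2) A) * Y * M with hZ
    have hMZ : M * Z = Y * M := by
      rw [hZ, ← mul_assoc, ← mul_assoc, ← hu2, Units.mul_inv, one_mul]
    have h1 : adjugate M * Y * M = M.det • Z := by
      rw [mul_assoc, ← hMZ, ← mul_assoc, adjugate_mul, Matrix.smul_mul, one_mul]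
    have h2 : M.det * Z i j = c * M.det := by
      have := congrFun (congrFun h1 i) j
      rw [Matrix.smul_apply, smul_eq_mul] at this
      rw [← this]; exact hβeq
    have h3 : M.det * Z i j = M.det * c := by rw [h2, mul_comm]
    exact hdet.mul_left_cancel h3

/-- Uniqueness: two normalised lifts which are conjugate are equal, and the conjugating
matrix is a scalar. -/
theorem normalized_unique {k : Type*} [Field k] (ι : k →+* ResidueField A)
    (hι : Function.Surjective ι) (rbar : G →* Matrix (Fin 2) (Fin 2) k)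
    (schur : ∀ T : Matrix (Fin 2) (Fin 2) k, (∀ g, T * rbar g = rbar g * T) → ∃ c : k, T = c • (1 : Matrix (Fin 2) (Fin 2) k))
    (g1 g2 : G) (i j : Fin 2)
    (hcomm : (rbar g2 * rbar g1 - rbar g1 * rbar g2) i j ≠ 0)
    (r r' : G →* Matrix (Fin 2) (Fin 2) A)
    (hr : ∀ σ, redMat (r σ) = ι.mapMatrix (rbar σ))
    (hr' : ∀ σ, redMat (r' σ) = ι.mapMatrix (rbar σ))
    (h00 : r g1 0 0 = 0) (h10 : r g1 1 0 = 1) (h00' : r' g1 0 0 = 0) (h10' : r' g1 1 0 = 1)
    (hij : r g2 i j = r' g2 i j)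
    (h : Matrix (Fin 2) (Fin 2) A) (hh : IsUnit h) (hconj : ∀ σ, h * r' σ = r σ * h) :
    (∃ a : A, IsUnit a ∧ h = a • (1 : Matrix (Fin 2) (Fin 2) A)) ∧ r = r' := by
  have hιinj : Function.Injective ι := ι.injective
  have hbar_unit : IsUnit (redMat h) := hh.map redMat
  -- lift redMat h to k
  choose T0 hT0 using fun a b => hι (redMat h a b)
  let T : Matrix (Fin 2) (Fin 2) k := Matrix.of T0
  have hT : ι.mapMatrix T = redMat h := by
    ext a b
    simp [T, hT0]
  have hTcomm : ∀ g, T * rbar g = rbar g * T := by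
    intro g
    have hinj : Function.Injective (ι.mapMatrix : Matrix (Fin 2) (Fin 2) k →+* Matrix (Fin 2) (Fin 2) (ResidueField A)) := by
      intro M N hMN
      ext a b
      have := congrFun (congrFun hMN a) b
      simp only [RingHom.mapMatrix_apply, Matrix.map_apply] at this
      exact hιinj this
    apply hinj
    rw [map_mul, map_mul, hT, ← hr' g, ← map_mul, hconj g, map_mul, hr g, hr' g]
  obtain ⟨c, hc⟩ := schur T hTcomm
  have hbar : redMat h = ι c • (1 : Matrix (Fin 2) (Fin 2) (ResidueField A)) := by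
    rw [← hT, hc]
    ext a b
    simp [Matrix.one_apply]
    split_ifs <;> simp
  have hιc : ι c ≠ 0 := by
    intro h0
    rw [h0, zero_smul] at hbar
    rw [hbar] at hbar_unit
    exact not_isUnit_zero hbar_unit
  have hh0 : IsUnit (h 0 0) := by
    rw [← residue_ne_zero_iff_isUnit, ← redMat_apply, hbar]
    simpa using hιc
  have hh1 : h 1 0 ∈ maximalIdeal A := by
    rw [← residue_eq_zero_iff, ← redMat_apply, hbar]
    simp
  have hunit : IsUnit ((r g2 * r g1 - r g1 * r g2) i j) := by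
    have hred : redMat (r g2 * r g1 - r g1 * r g2) =
        ι.mapMatrix (rbar g2 * rbar g1 - rbar g1 * rbar g2) := by
      simp only [map_sub, map_mul, hr]
    rw [← residue_ne_zero_iff_isUnit, ← redMat_apply, hred]
    simp only [RingHom.mapMatrix_apply, Matrix.map_apply]
    exact fun h0 => hcomm (hιinj (by rw [h0, map_zero]))
  have hscal := slice_scalar_of_normalized (r g1) (r g2) (r' g1) (r' g2) h i j (hconj g1) (hconj g2)
    h00 h10 h00' h10' hij hh0 hh1 hunit
  refine ⟨⟨h 0 0, hh0, hscal⟩, ?_⟩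
  ext σ : 1
  have := hconj σ
  rw [hscal, Matrix.smul_mul, one_mul, Matrix.mul_smul, mul_one] at this
  obtain ⟨a, ha⟩ := hh0
  rw [← ha] at this
  have h2 : (a⁻¹ : Aˣ) • ((a : A) • r' σ) = (a⁻¹ : Aˣ) • ((a : A) • r σ) := by rw [this]
  simpa [Units.smul_def, smul_smul] using h2.symm

end GroupLevel

end Fermat.Agent.S53.Slice
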