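/-
T-S53 (B2) (helper21): the slice lemma in the language of `Defs.lean`.

* `Slice.conjHomGQ u r`               : `σ ↦ u⁻¹ * r σ * u`
* `IsNormalized.map`                  : normalised lifts are preserved by local `𝒪`-algebra homs
* `normalized_unique`                 : two conjugate normalised lifts are equal
* `exists_normalized`                 : over a complete local ring every strict lift is conjugate
                                        (by a unit reducing to `1`) to a normalised lift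
-/
import Fermat.Agent.S53.Defs
import Fermat.Agent.S53.SliceMatrix

set_option autoImplicit false

namespace Fermat.Agent.S53

open IsLocalRing Matrix

section

variable {𝒪 : Type} [CommRing 𝒪] [IsLocalRing 𝒪]
variable {ρbar : ResidualGaloisRep (ResidueField 𝒪)}

/-- Strict lifts in terms of residues. -/
theorem IsStrictLift.residue_eq {A : Type} [CommRing A] [IsLocalRing A] [Algebra 𝒪 A]
    [IsLocalHom (algebraMap 𝒪 A)] {rbar : GQ →* M2 (ResidueField 𝒪)} {r : GQ →* M2 A}
    (h : IsStrictLift rbar r) (σ : GQ) (i j : Fin 2) :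
    residue A (r σ i j) = ResidueField.map (algebraMap 𝒪 A) (rbar σ i j) := by
  obtain ⟨a, ha⟩ := residue_surjective (rbar σ i j)
  have h1 := h σ i j a ha
  rw [← residue_eq_zero_iff, map_sub, sub_eq_zero] at h1
  rw [h1, ← ha]
  rfl

theorem isStrictLift_of_residue_eq {A : Type} [CommRing A] [IsLocalRing A] [Algebra 𝒪 A]
    [IsLocalHom (algebraMap 𝒪 A)] {rbar : GQ →* M2 (ResidueField 𝒪)} {r : GQ →* M2 A}
    (h : ∀ (σ : GQ) (i j : Fin 2),
      residue A (r σ i j) = ResidueField.map (algebraMap 𝒪 A) (rbar σ i j)) :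
    IsStrictLift rbar r := by
  intro σ i j a ha
  rw [← residue_eq_zero_iff, map_sub, sub_eq_zero, h σ i j, ← ha]
  rfl

theorem IsStrictLift.redMat_eq {A : Type} [CommRing A] [IsLocalRing A] [Algebra 𝒪 A]
    [IsLocalHom (algebraMap 𝒪 A)] {rbar : GQ →* M2 (ResidueField 𝒪)} {r : GQ →* M2 A}
    (h : IsStrictLift rbar r) (σ : GQ) :
    Slice.redMat (r σ) = (ResidueField.map (algebraMap 𝒪 A)).mapMatrix (rbar σ) := by
  ext i j
  rw [Slice.redMat_apply, h.residue_eq σ i j]
  rfl

/-- Normalised lifts are preserved by local `𝒪`-algebra homomorphisms. -/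
theorem IsNormalized.map (D : SliceData 𝒪 ρbar) {A B : Type} [CommRing A] [IsLocalRing A]
    [Algebra 𝒪 A] [CommRing B] [IsLocalRing B] [Algebra 𝒪 B] (f : A →ₐ[𝒪] B)
    (hf : IsLocalHom (f : A →+* B)) {r : GQ →* M2 A} (h : IsNormalized D r) :
    IsNormalized D (mapMat (f : A →+* B) r) := by
  obtain ⟨hs, h0, h1, h2⟩ := h
  refine ⟨?_, ?_, ?_, ?_⟩
  · intro σ i j a ha
    have := hs σ i j a ha
    rw [mapMat_apply]
    have h3 : (f : A →+* B) (r σ i j) - algebraMap 𝒪 B a =
        (f : A →+* B) (r σ i j - algebraMap 𝒪 A a) := by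
      rw [map_sub]; simp
    rw [h3]
    by_contra hcon
    have hu : IsUnit ((f : A →+* B) (r σ i j - algebraMap 𝒪 A a)) := by
      by_contra hnu
      exact hcon ((mem_maximalIdeal _).mpr hnu)
    have := hf.map_nonunit _ hu
    exact (mem_maximalIdeal _).mp ‹r σ i j - algebraMap 𝒪 A a ∈ maximalIdeal A› this
  · rw [mapMat_apply, h0, map_zero]
  · rw [mapMat_apply, h1, map_one]
  · rw [mapMat_apply, h2]; simp

/-- Conjugation of a `GQ`-valued matrix representation by a unit: `σ ↦ u⁻¹ * r σ * u`. -/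
noncomputable def Slice.conjHomGQ {A : Type} [CommRing A] (u : (M2 A)ˣ) (r : GQ →* M2 A) :
    GQ →* M2 A :=
  Slice.conjHom u r

theorem Slice.conjHomGQ_apply {A : Type} [CommRing A] (u : (M2 A)ˣ) (r : GQ →* M2 A) (σ : GQ) :
    Slice.conjHomGQ u r σ = ((u⁻¹ : (M2 A)ˣ) : M2 A) * r σ * (u : M2 A) := rfl

theorem Slice.conjHomGQ_conj {A : Type} [CommRing A] (u : (M2 A)ˣ) (r : GQ →* M2 A) (σ : GQ) :
    (u : M2 A) * Slice.conjHomGQ u r σ = r σ * (u : M2 A) :=
  Slice.conjHom_conj u r σ

/-- Conjugation preserves adic continuity. -/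
theorem Slice.matCont_conjHomGQ {A : Type} [CommRing A] [IsLocalRing A] (u : (M2 A)ˣ)
    {r : GQ →* M2 A} (hr : MatCont r) : MatCont (Slice.conjHomGQ u r) := by
  intro n
  obtain ⟨L, hL, hσ⟩ := hr n
  refine ⟨L, hL, fun σ hσL i j => ?_⟩
  have h1 : Slice.conjHomGQ u r σ - 1 =
      ((u⁻¹ : (M2 A)ˣ) : M2 A) * (r σ - 1) * (u : M2 A) := by
    rw [Slice.conjHomGQ_apply, mul_sub, sub_mul, mul_one, Units.inv_mul]
  rw [h1, Matrix.mul_apply]
  refine Ideal.sum_mem _ fun a _ => Ideal.mul_mem_right _ _ ?_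
  rw [Matrix.mul_apply]
  exact Ideal.sum_mem _ fun b _ => Ideal.mul_mem_left _ _ (hσ σ hσL b a)

/-- **Slice uniqueness.** Two normalised lifts that are conjugate by an invertible matrix are
equal (and the conjugating matrix is a scalar). -/
theorem normalized_unique' (D : SliceData 𝒪 ρbar) {A : Type} [CommRing A] [IsLocalRing A]
    [Algebra 𝒪 A] [IsLocalHom (algebraMap 𝒪 A)]
    (hsurj : Function.Surjective (residue A ∘ algebraMap 𝒪 A))
    {r r' : GQ →* M2 A} (hr : IsNormalized D r) (hr' : IsNormalized D r')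
    (g : M2 A) (hg : IsUnit g) (hconj : ∀ σ, g * r σ = r' σ * g) :
    r = r' ∧ ∃ a : A, IsUnit a ∧ g = a • (1 : M2 A) := by
  have hι : Function.Surjective (ResidueField.map (algebraMap 𝒪 A)) := by
    intro x
    obtain ⟨y, rfl⟩ := residue_surjective x
    obtain ⟨a, ha⟩ := hsurj (residue A y)
    exact ⟨residue 𝒪 a, by rw [← ha]; rfl⟩
  obtain ⟨hs, h0, h1, h2⟩ := hr
  obtain ⟨hs', h0', h1', h2'⟩ := hr'
  have key := Slice.normalized_unique (A := A) (G := GQ) (ResidueField.map (algebraMap 𝒪 A)) hι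
    D.rbar D.schur D.g1 D.g2 D.i D.j D.comm_ne r' r
    (fun σ => hs'.redMat_eq σ) (fun σ => hs.redMat_eq σ) h0' h1' h0 h1 (by rw [h2, h2']) g hg hconj
  exact ⟨key.2.symm, key.1⟩

theorem normalized_unique (D : SliceData 𝒪 ρbar) {A : Type} [CommRing A] [IsLocalRing A]
    [Algebra 𝒪 A] [IsLocalHom (algebraMap 𝒪 A)]
    (hsurj : Function.Surjective (residue A ∘ algebraMap 𝒪 A))
    {r r' : GQ →* M2 A} (hr : IsNormalized D r) (hr' : IsNormalized D r')
    (g : (M2 A)ˣ) (hconj : ∀ σ, (g : M2 A) * r σ = r' σ * (g : M2 A)) : r = r' :=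
  (normalized_unique' D hsurj hr hr' (g : M2 A) g.isUnit hconj).1

/-- **Slice existence.** Over a complete local `𝒪`-algebra every strict lift of `D.rbar` is
conjugate, by a unit reducing to the identity, to a normalised lift. -/
theorem exists_normalized (D : SliceData 𝒪 ρbar) {A : Type} [CommRing A] [IsLocalRing A]
    [Algebra 𝒪 A] [IsLocalHom (algebraMap 𝒪 A)] [IsAdicComplete (maximalIdeal A) A]
    {r : GQ →* M2 A} (hr : IsStrictLift D.rbar r) :
    ∃ u : (M2 A)ˣ, Slice.redMat (u : M2 A) = 1 ∧ IsNormalized D (Slice.conjHomGQ u r) := by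
  have hres := hr.residue_eq
  obtain ⟨u, hu, e0, e1, e2⟩ := Slice.exists_normalized_conj (A := A) (G := GQ) r D.g1 D.g2 D.i D.j
    (algebraMap 𝒪 A D.c)
    (by rw [hres, D.g1_col.1, map_zero])
    (by rw [hres, D.g1_col.2, map_one])
    (by rw [hres, ← D.hc]; rfl)
    (by
      have hred : Slice.redMat (r D.g2 * r D.g1 - r D.g1 * r D.g2) =
          (ResidueField.map (algebraMap 𝒪 A)).mapMatrix
            (D.rbar D.g2 * D.rbar D.g1 - D.rbar D.g1 * D.rbar D.g2) := by
        simp only [map_sub, map_mul, hr.redMat_eq]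
      rw [← Slice.redMat_apply, hred]
      simp only [RingHom.mapMatrix_apply, Matrix.map_apply]
      intro h0
      exact D.comm_ne ((ResidueField.map (algebraMap 𝒪 A)).injective (by rw [h0, map_zero])))
  refine ⟨u, hu, ?_, e0, e1, e2⟩
  apply isStrictLift_of_residue_eq
  intro σ i j
  have := Slice.redMat_conjHom u hu r σ
  have h2 := congrFun (congrFun this i) j
  rw [Slice.redMat_apply, Slice.redMat_apply] at h2
  rw [← hres σ i j, ← h2]
  rfl

end

end Fermat.Agent.S53
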