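import Mathlib
import Fermat.Agent.S53.Defs
import Fermat.Agent.S53.MatrixModel
import Fermat.Agent.S53.Pairs
import Fermat.Agent.S53.Slice

/-!
# S53, part (C3): tangent bound and finite generation (helper23)

* `adjoin_eq_top_of_le_span_sup_sq`: nilpotent Nakayama for subalgebras.
* `exists_algHom_dualNumber_ne_zero`: separating homs from a "tangent type" test algebra to the
  dual numbers.

All names live in `Fermat.Agent.S53`.
-/

set_option autoImplicit false
set_option linter.unusedSectionVars false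
set_option linter.style.haveILetI false

open IsLocalRing

namespace Fermat.Agent.S53

section NilpotentAdjoin

variable {𝒪 A : Type} [CommRing 𝒪] [CommRing A] [IsLocalRing A] [Algebra 𝒪 A]

/-- If `m = span S + m^2` (and `A` is Noetherian) then `m = span S` (Nakayama). -/
theorem maximalIdeal_le_span_of_le_span_sup_sq [IsNoetherianRing A] (S : Set A)
    (hgen : maximalIdeal A ≤ Ideal.span S ⊔ maximalIdeal A ^ 2) :
    maximalIdeal A ≤ Ideal.span S := by
  refine Submodule.le_of_le_smul_of_le_jacobson_bot (I := maximalIdeal A)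
    (IsNoetherian.noetherian _) (IsLocalRing.jacobson_eq_maximalIdeal ⊥ bot_ne_top).ge ?_
  rw [smul_eq_mul, ← pow_two]
  exact hgen

/-- Nilpotent Nakayama for subalgebras: if the residue field of `A` is generated by `𝒪`, the
maximal ideal is nilpotent and `m_A = (S) + m_A^2` for a set `S` contained in a subalgebra `B`,
then `B = ⊤`. -/
theorem subalgebra_eq_top_of_le_span_sup_sq [IsNoetherianRing A]
    (hsurj : Function.Surjective (residue A ∘ algebraMap 𝒪 A))
    (hnil : ∃ n, maximalIdeal A ^ n = ⊥) (S : Set A) (hSm : S ⊆ maximalIdeal A)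
    (B : Subalgebra 𝒪 A) (hSB : S ⊆ B)
    (hgen : maximalIdeal A ≤ Ideal.span S ⊔ maximalIdeal A ^ 2) :
    B = ⊤ := by
  have hm : maximalIdeal A ≤ Ideal.span S :=
    maximalIdeal_le_span_of_le_span_sup_sq S hgen
  -- every element is in `B` modulo `m`
  have h1 : ∀ a : A, ∃ b ∈ B, a - b ∈ maximalIdeal A := by
    intro a
    obtain ⟨c, hc⟩ := hsurj (residue A a)
    refine ⟨algebraMap 𝒪 A c, B.algebraMap_mem c, ?_⟩
    rw [← Ideal.Quotient.eq_zero_iff_mem, map_sub, sub_eq_zero]
    exact hc.symm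
  -- `Q n`: elements of `m^n` are in `B` modulo `m^(n+1)`
  have hQ : ∀ n : ℕ, ∀ a ∈ maximalIdeal A ^ n, ∃ b ∈ B, a - b ∈ maximalIdeal A ^ (n + 1) := by
    intro n
    induction n with
    | zero =>
      intro a _
      obtain ⟨b, hb, hab⟩ := h1 a
      exact ⟨b, hb, by simpa using hab⟩
    | succ n ih =>
      intro a ha
      rw [pow_succ] at ha
      refine Submodule.mul_induction_on ha ?_ ?_
      · intro x hx y hy
        have hy' : y ∈ Ideal.span S := hm hy
        clear hy
        revert x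
        refine Submodule.span_induction (p := fun y _ => ∀ x ∈ maximalIdeal A ^ n, ∃ b' ∈ B,
          x * y - b' ∈ maximalIdeal A ^ (n + 1 + 1)) ?_ ?_ ?_ ?_ hy'
        · intro s hs x hx
          obtain ⟨b, hb, hxb⟩ := ih x hx
          refine ⟨b * s, B.mul_mem hb (hSB hs), ?_⟩
          have e : x * s - b * s = (x - b) * s := by ring
          have hsm : s ∈ maximalIdeal A := hSm hs
          rw [e, pow_succ (maximalIdeal A) (n + 1)]
          exact Ideal.mul_mem_mul hxb hsm
        · intro x _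
          exact ⟨0, B.zero_mem, by simp⟩
        · rintro y z _ _ hy hz x hx
          obtain ⟨b1, hb1, h1'⟩ := hy x hx
          obtain ⟨b2, hb2, h2'⟩ := hz x hx
          refine ⟨b1 + b2, B.add_mem hb1 hb2, ?_⟩
          have e : x * (y + z) - (b1 + b2) = (x * y - b1) + (x * z - b2) := by ring
          rw [e]
          exact Ideal.add_mem _ h1' h2'
        · rintro c y _ hy x hx
          obtain ⟨b1, hb1, h1'⟩ := hy (x * c) (Ideal.mul_mem_right _ _ hx)
          refine ⟨b1, hb1, ?_⟩
          have e : x * c • y - b1 = x * c * y - b1 := by rw [smul_eq_mul]; ring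
          rw [e]
          exact h1'
      · rintro x y ⟨b1, hb1, h1'⟩ ⟨b2, hb2, h2'⟩
        refine ⟨b1 + b2, B.add_mem hb1 hb2, ?_⟩
        have e : x + y - (b1 + b2) = (x - b1) + (y - b2) := by ring
        rw [e]
        exact Ideal.add_mem _ h1' h2'
  have hR : ∀ n : ℕ, ∀ a : A, ∃ b ∈ B, a - b ∈ maximalIdeal A ^ n := by
    intro n
    induction n with
    | zero => intro a; exact ⟨0, B.zero_mem, by simp⟩
    | succ n ih =>
      intro a
      obtain ⟨b, hb, hab⟩ := ih a
      obtain ⟨b', hb', hab'⟩ := hQ n (a - b) hab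
      refine ⟨b + b', B.add_mem hb hb', ?_⟩
      have e : a - (b + b') = a - b - b' := by ring
      rw [e]
      exact hab'
  obtain ⟨N, hN⟩ := hnil
  rw [eq_top_iff]
  intro a _
  obtain ⟨b, hb, hab⟩ := hR N a
  rw [hN, Ideal.mem_bot, sub_eq_zero] at hab
  rw [hab]
  exact hb

end NilpotentAdjoin

section TangentHom

variable {𝒪 : Type} [CommRing 𝒪] [IsLocalRing 𝒪]

/-- The `𝒪`-algebra structure on the dual numbers over the residue field, exactly as it is
introduced (by `letI`) in `GaloisRep.TangentFinite`. -/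
@[reducible] noncomputable def dualNumberAlgebra (𝒪 : Type) [CommRing 𝒪] [IsLocalRing 𝒪] :
    Algebra 𝒪 (DualNumber (ResidueField 𝒪)) :=
  ((algebraMap (ResidueField 𝒪) (DualNumber (ResidueField 𝒪))).comp
    (algebraMap 𝒪 (ResidueField 𝒪))).toAlgebra

attribute [local instance] dualNumberAlgebra

theorem algebraMap_dualNumber_apply (c : 𝒪) :
    algebraMap 𝒪 (DualNumber (ResidueField 𝒪)) c = TrivSqZeroExt.inl (residue 𝒪 c) := rfl

variable {A : Type} [CommRing A] [IsLocalRing A] [Algebra 𝒪 A]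

/-- Separating homs to the dual numbers: if `A` is a local `𝒪`-algebra with residue field
generated by `𝒪`, `m_A ^ 2 = 0` and `m_𝒪 A = 0`, then every nonzero `w ∈ m_A` is detected by an
`𝒪`-algebra hom `A → k[ε]`. -/
theorem exists_algHom_dualNumber_ne_zero
    (hloc : IsLocalHom (algebraMap 𝒪 A))
    (hsurj : Function.Surjective (residue A ∘ algebraMap 𝒪 A))
    (hsq : ∀ x ∈ maximalIdeal A, ∀ y ∈ maximalIdeal A, x * y = 0)
    (hm : ∀ c ∈ maximalIdeal 𝒪, algebraMap 𝒪 A c = 0)
    {w : A} (hw : w ∈ maximalIdeal A) (hw0 : w ≠ 0) :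
    ∃ f : A →ₐ[𝒪] DualNumber (ResidueField 𝒪), f w ≠ 0 := by
  have := hloc
  -- the identification of residue fields
  let ι : ResidueField 𝒪 →+* ResidueField A := ResidueField.map (algebraMap 𝒪 A)
  have hι : Function.Bijective ι := by
    refine ⟨ι.injective, fun x => ?_⟩
    obtain ⟨a, rfl⟩ := IsLocalRing.residue_surjective x
    obtain ⟨c, hc⟩ := hsurj (residue A a)
    exact ⟨residue 𝒪 c, by rw [ResidueField.map_residue]; exact hc⟩
  let e : ResidueField 𝒪 ≃+* ResidueField A := RingEquiv.ofBijective ι hι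
  let π : A →+* ResidueField 𝒪 := (e.symm : ResidueField A →+* ResidueField 𝒪).comp (residue A)
  let j : ResidueField 𝒪 →+* A := Ideal.Quotient.lift (maximalIdeal 𝒪) (algebraMap 𝒪 A) hm
  have hπ : ∀ c : 𝒪, π (algebraMap 𝒪 A c) = residue 𝒪 c := by
    intro c
    show e.symm (residue A (algebraMap 𝒪 A c)) = residue 𝒪 c
    rw [RingEquiv.symm_apply_eq]
    exact (ResidueField.map_residue (algebraMap 𝒪 A) c).symm
  have hj : ∀ c : 𝒪, j (residue 𝒪 c) = algebraMap 𝒪 A c := fun c =>
    Ideal.Quotient.lift_mk (maximalIdeal 𝒪) (algebraMap 𝒪 A) hm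
  have hπm : ∀ x ∈ maximalIdeal A, π x = 0 := by
    intro x hx
    show e.symm (residue A x) = 0
    rw [(residue_eq_zero_iff x).mpr hx, map_zero]
  have hjπ : ∀ a : A, a - j (π a) ∈ maximalIdeal A := by
    intro a
    obtain ⟨c, hc⟩ := hsurj (residue A a)
    have h1 : π a = residue 𝒪 c := by
      show e.symm (residue A a) = residue 𝒪 c
      rw [RingEquiv.symm_apply_eq]
      show residue A a = ι (residue 𝒪 c)
      rw [ResidueField.map_residue]
      exact hc.symm
    rw [h1, hj, ← residue_eq_zero_iff, map_sub, sub_eq_zero]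
    exact hc.symm
  -- the `k`-vector space `m_A`
  have hT : Module.IsTorsionBySet 𝒪 (maximalIdeal A) (maximalIdeal 𝒪 : Set 𝒪) := by
    rintro x ⟨c, hc⟩
    ext
    show (c • (x : A)) = 0
    rw [Algebra.smul_def, hm c hc, zero_mul]
  let _ : Module (ResidueField 𝒪) (maximalIdeal A) := hT.module
  have hsmul : ∀ (c : ResidueField 𝒪) (x : maximalIdeal A),
      ((c • x : maximalIdeal A) : A) = j c * (x : A) := by
    intro c x
    obtain ⟨c, rfl⟩ := IsLocalRing.residue_surjective c
    have : (residue 𝒪 c) • x = c • x := hT.mk_smul c x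
    rw [this, hj]
    show c • (x : A) = _
    rw [Algebra.smul_def]
  obtain ⟨φ, hφ⟩ : ∃ φ : maximalIdeal A →ₗ[ResidueField 𝒪] ResidueField 𝒪, φ ⟨w, hw⟩ ≠ 0 := by
    by_contra h
    push Not at h
    have := (Module.forall_dual_apply_eq_zero_iff (ResidueField 𝒪) (⟨w, hw⟩ : maximalIdeal A)).mp h
    exact hw0 (congrArg Subtype.val this)
  let W : A → maximalIdeal A := fun a => ⟨a - j (π a), hjπ a⟩
  have hW_add : ∀ a b, W (a + b) = W a + W b := by
    intro a b
    ext
    show a + b - j (π (a + b)) = (a - j (π a)) + (b - j (π b))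
    rw [map_add, map_add]; ring
  have hW_mul : ∀ a b, W (a * b) = π b • W a + π a • W b := by
    intro a b
    ext
    rw [Submodule.coe_add, hsmul, hsmul]
    show a * b - j (π (a * b)) = j (π b) * (a - j (π a)) + j (π a) * (b - j (π b))
    have h0 := hsq _ (hjπ a) _ (hjπ b)
    rw [map_mul, map_mul]
    linear_combination h0
  have hW_alg : ∀ c : 𝒪, W (algebraMap 𝒪 A c) = 0 := by
    intro c
    ext
    show algebraMap 𝒪 A c - j (π (algebraMap 𝒪 A c)) = 0
    rw [hπ, hj, sub_self]
  let f : A →ₐ[𝒪] DualNumber (ResidueField 𝒪) :=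
    { toFun := fun a => TrivSqZeroExt.inl (π a) + TrivSqZeroExt.inr (φ (W a))
      map_one' := by
        have : W 1 = 0 := by simpa using hW_alg 1
        rw [this, map_zero, map_one, TrivSqZeroExt.inr_zero, add_zero, TrivSqZeroExt.inl_one]
      map_mul' := fun a b => by
        rw [hW_mul, map_add, map_smul, map_smul, map_mul]
        ext
        · simp
        · simp [mul_comm, add_comm]
      map_zero' := by
        have : W 0 = 0 := by simpa using hW_alg 0
        rw [this, map_zero, map_zero, TrivSqZeroExt.inr_zero, add_zero, TrivSqZeroExt.inl_zero]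
      map_add' := fun a b => by
        rw [hW_add, map_add, map_add, TrivSqZeroExt.inl_add, TrivSqZeroExt.inr_add]
        abel
      commutes' := fun c => by
        rw [hW_alg, map_zero, TrivSqZeroExt.inr_zero, add_zero, hπ, algebraMap_dualNumber_apply] }
  refine ⟨f, ?_⟩
  show TrivSqZeroExt.inl (π w) + TrivSqZeroExt.inr (φ (W w)) ≠ 0
  have hWw : W w = ⟨w, hw⟩ := by
    ext
    show w - j (π w) = w
    rw [hπm w hw, map_zero, sub_zero]
  rw [hπm w hw, hWw, TrivSqZeroExt.inl_zero, zero_add]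
  intro h
  exact hφ (by simpa using congrArg TrivSqZeroExt.snd h)

/-- The dual numbers over the (finite) residue field form an Artinian test algebra. -/
theorem test_dualNumber [Finite (ResidueField 𝒪)] :
    GaloisRep.IsArtinianTestAlgebra 𝒪 (DualNumber (ResidueField 𝒪)) where
  isLocalHom := by
    refine ⟨fun c hc => ?_⟩
    rw [algebraMap_dualNumber_apply, TrivSqZeroExt.isUnit_iff_isUnit_fst,
      TrivSqZeroExt.fst_inl] at hc
    by_contra hnc
    have : residue 𝒪 c = 0 := (residue_eq_zero_iff c).mpr ((mem_maximalIdeal c).mpr hnc)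
    rw [this] at hc
    exact not_isUnit_zero hc
  residue_surjective := by
    intro x
    obtain ⟨t, rfl⟩ := IsLocalRing.residue_surjective x
    obtain ⟨c, hc⟩ := IsLocalRing.residue_surjective t.fst
    refine ⟨c, ?_⟩
    rw [Function.comp_apply, ← sub_eq_zero, ← map_sub, residue_eq_zero_iff, mem_maximalIdeal,
      mem_nonunits_iff, TrivSqZeroExt.isUnit_iff_isUnit_fst, algebraMap_dualNumber_apply,
      TrivSqZeroExt.fst_sub, TrivSqZeroExt.fst_inl, hc, sub_self]
    exact not_isUnit_zero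
  isArtinian := by
    have : Finite (DualNumber (ResidueField 𝒪)) :=
      inferInstanceAs (Finite (ResidueField 𝒪 × ResidueField 𝒪))
    infer_instance

end TangentHom

namespace Tangent

open GaloisRep

section PairClosure

variable {𝒪 : Type} [CommRing 𝒪] [IsLocalRing 𝒪]
  {ρbar : ResidualGaloisRep (ResidueField 𝒪)} {D : SliceData 𝒪 ρbar}
  {𝒟 : ∀ ⦃A : Type⦄ [CommRing A] [IsLocalRing A] [Algebra 𝒪 A], GaloisRepAdic A → Prop}

/-- Push-forward of a pair along an `𝒪`-algebra hom into a test algebra. -/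
theorem isPair_mapMat (h𝒟 : IsDeformationCondition 𝒪 𝒟)
    {A B : Type} [CommRing A] [IsLocalRing A] [Algebra 𝒪 A] [CommRing B] [IsLocalRing B]
    [Algebra 𝒪 B] {r : GQ →* M2 A} (hp : IsPair D 𝒟 A r) (hB : IsArtinianTestAlgebra 𝒪 B)
    (f : A →ₐ[𝒪] B) : IsPair D 𝒟 B (mapMat (f : A →+* B) r) := by
  have hf : IsLocalHom (f : A →+* B) := isLocalHom_of_test hp.test f
  refine ⟨hB, MatrixModel.matCont_mapMat hp.cont _ hf, IsNormalized.map D f hf hp.norm, ?_⟩
  have h1 := h𝒟.baseChangeAlong hp.test hB f hf hp.type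
  exact h𝒟.of_isEquiv hB (MatrixModel.baseChangeAlong_ofMatrix _ hf r hp.cont) h1

/-- Restriction of a matrix representation to a subalgebra containing all entries. -/
noncomputable def restrictMat {A : Type} [CommRing A] [Algebra 𝒪 A] (E : Subalgebra 𝒪 A)
    (r : GQ →* M2 A) (hE : ∀ σ i j, r σ i j ∈ E) : GQ →* M2 E where
  toFun σ := Matrix.of fun i j => ⟨r σ i j, hE σ i j⟩
  map_one' := by
    ext i j
    simp only [Matrix.of_apply, map_one, Matrix.one_apply]
    split_ifs <;> rfl
  map_mul' σ τ := by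
    ext i j
    simp only [Matrix.of_apply, map_mul, Matrix.mul_apply]
    rw [AddSubmonoidClass.coe_finsetSum]
    rfl

@[simp] theorem restrictMat_apply {A : Type} [CommRing A] [Algebra 𝒪 A] (E : Subalgebra 𝒪 A)
    (r : GQ →* M2 A) (hE : ∀ σ i j, r σ i j ∈ E) (σ : GQ) (i j : Fin 2) :
    ((restrictMat E r hE σ i j : E) : A) = r σ i j := rfl

theorem mapMat_restrictMat {A : Type} [CommRing A] [Algebra 𝒪 A] (E : Subalgebra 𝒪 A)
    (r : GQ →* M2 A) (hE : ∀ σ i j, r σ i j ∈ E) :
    mapMat (E.val : E →+* A) (restrictMat E r hE) = r := by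
  ext σ i j
  simp

/-- Restriction of a pair to a subalgebra containing all entries is a pair. -/
theorem isPair_restrictMat [Finite (ResidueField 𝒪)] (h𝒟 : IsDeformationCondition 𝒪 𝒟)
    {A : Type} [CommRing A] [IsLocalRing A] [Algebra 𝒪 A] {r : GQ →* M2 A}
    (hp : IsPair D 𝒟 A r) (E : Subalgebra 𝒪 A) (hE : ∀ σ i j, r σ i j ∈ E) :
    haveI := isLocalRing_subalgebra hp.test E
    IsPair D 𝒟 E (restrictMat E r hE) := by
  haveI := isLocalRing_subalgebra hp.test E
  have hEt : IsArtinianTestAlgebra 𝒪 E := test_subalgebra hp.test E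
  have hval : IsLocalHom ((E.val : E →ₐ[𝒪] A) : E →+* A) := isLocalHom_of_test hEt E.val
  -- continuity
  have hcont : MatCont (restrictMat E r hE) := by
    obtain ⟨N, hN⟩ := test_exists_pow_eq_bot hp.test
    obtain ⟨L, hL, hσ⟩ := hp.cont N
    intro n
    refine ⟨L, hL, fun σ hσL i j => ?_⟩
    have h0 : ∀ i j, (r σ - 1) i j = 0 := by
      intro i j
      have := hσ σ hσL i j
      rwa [hN, Ideal.mem_bot] at this
    have h1 : (restrictMat E r hE σ - 1) i j = 0 := by
      apply Subtype.ext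
      have h2 := h0 i j
      rw [Matrix.sub_apply] at h2 ⊢
      rw [Subalgebra.coe_sub, restrictMat_apply, Subalgebra.coe_zero]
      rw [← h2]
      congr 1
      rw [Matrix.one_apply, Matrix.one_apply]
      split_ifs <;> rfl
    rw [h1]
    exact Ideal.zero_mem _
  refine ⟨hEt, hcont, ⟨?_, ?_, ?_, ?_⟩, ?_⟩
  · intro σ i j a ha
    rw [mem_maximalIdeal_subalgebra_iff hp.test E]
    exact hp.norm.1 σ i j a ha
  · exact Subtype.ext hp.norm.2.1
  · exact Subtype.ext hp.norm.2.2.1
  · exact Subtype.ext hp.norm.2.2.2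
  · refine h𝒟.of_baseChangeAlong_injective hEt hp.test E.val hval Subtype.val_injective ?_
    have e1 : ((ofMatrix (restrictMat E r hE) hcont).baseChangeAlong (E.val : E →+* A) hval).IsEquiv
        (ofMatrix (mapMat (E.val : E →+* A) (restrictMat E r hE))
          (MatrixModel.matCont_mapMat hcont _ hval)) :=
      MatrixModel.baseChangeAlong_ofMatrix _ hval _ hcont
    have e2 : (ofMatrix r hp.cont).IsEquiv (ofMatrix (mapMat (E.val : E →+* A)
        (restrictMat E r hE)) (MatrixModel.matCont_mapMat hcont _ hval)) :=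
      MatrixModel.ofMatrix_isEquiv_of_eq _ _ (mapMat_restrictMat E r hE).symm
    obtain ⟨e1⟩ := e1
    have h3 := h𝒟.of_isEquiv hp.test e2 hp.type
    exact h𝒟.of_isEquiv hp.test ⟨e1.symm⟩ h3

end PairClosure

section Coordinates

variable {𝒪 : Type} [CommRing 𝒪] [IsLocalRing 𝒪] [Finite (ResidueField 𝒪)]
  {ρbar : ResidualGaloisRep (ResidueField 𝒪)} (D : SliceData 𝒪 ρbar)
  (𝒟 : ∀ ⦃A : Type⦄ [CommRing A] [IsLocalRing A] [Algebra 𝒪 A], GaloisRepAdic A → Prop)

attribute [local instance] dualNumberAlgebra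

/-- A general finiteness principle: a type mapping to a setoid quotient, injectively up to
the relation, is finite if the quotient is. -/
theorem finite_of_quotient {X Y : Sort*} (S : Setoid X) [Finite (Quotient S)] (F : Y → X)
    (hF : ∀ y y', S.r (F y) (F y') → y = y') : Finite Y :=
  Finite.of_injective (fun y => (Quotient.mk S (F y))) fun y y' h => hF y y' (Quotient.exact h)

/-- The hypothesis (A5b): strict lifts have the right residual representation. -/
def ResidualHyp (D : SliceData 𝒪 ρbar) : Prop :=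
  ∀ {A : Type} [CommRing A] [IsLocalRing A] [Algebra 𝒪 A] [IsLocalHom (algebraMap 𝒪 A)]
    (r : GQ →* M2 A) (h : MatCont r), IsStrictLift D.rbar r →
      (ofMatrix r h).residual.IsEquiv
        (ρbar.baseChangeAlong (ResidueField.map (algebraMap 𝒪 A)))

/-- There are only finitely many pairs over the dual numbers. -/
theorem finite_pairs_dualNumber (hres : ResidualHyp D) (hfin : TangentFinite 𝒪 ρbar 𝒟) :
    Finite {r : GQ →* M2 (DualNumber (ResidueField 𝒪)) //
      IsPair D 𝒟 (DualNumber (ResidueField 𝒪)) r} := by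
  unfold GaloisRep.TangentFinite at hfin
  have hT := test_dualNumber (𝒪 := 𝒪)
  haveI := hT.isLocalHom
  have key : ResidueField.map (algebraMap 𝒪 (DualNumber (ResidueField 𝒪))) =
      (residue (DualNumber (ResidueField 𝒪))).comp
        (algebraMap (ResidueField 𝒪) (DualNumber (ResidueField 𝒪))) := by
    ext x
    obtain ⟨c, rfl⟩ := IsLocalRing.residue_surjective x
    rw [ResidueField.map_residue]
    rfl
  refine @finite_of_quotient _ _ _ hfin
    (fun r => ⟨ofMatrix r.1 r.2.cont, r.2.type, ?_⟩) ?_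
  · have h := hres r.1 r.2.cont r.2.norm.1
    rw [key] at h
    exact h
  · rintro ⟨r, hr⟩ ⟨r', hr'⟩ h
    have h' : (ofMatrix r hr.cont).IsEquiv (ofMatrix r' hr'.cont) := h
    obtain ⟨g, hg, hconj⟩ := (MatrixModel.ofMatrix_isEquiv_iff hr.cont hr'.cont).mp h'
    have := (normalized_unique' D hT.residue_surjective hr.norm hr'.norm g hg hconj).1
    exact Subtype.ext this

/-- Chosen lifts to `𝒪` of the entries of `rbar`. -/
noncomputable def cst (x : GQ × Fin 2 × Fin 2) : 𝒪 :=
  Classical.choose (IsLocalRing.residue_surjective (D.rbar x.1 x.2.1 x.2.2))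

theorem residue_cst (x : GQ × Fin 2 × Fin 2) : residue 𝒪 (cst D x) = D.rbar x.1 x.2.1 x.2.2 :=
  Classical.choose_spec (IsLocalRing.residue_surjective (D.rbar x.1 x.2.1 x.2.2))

/-- Entry minus its chosen constant. -/
noncomputable def wEntry {A : Type} [CommRing A] [Algebra 𝒪 A] (r : GQ →* M2 A)
    (x : GQ × Fin 2 × Fin 2) : A :=
  r x.1 x.2.1 x.2.2 - algebraMap 𝒪 A (cst D x)

theorem wEntry_mem {A : Type} [CommRing A] [IsLocalRing A] [Algebra 𝒪 A] {r : GQ →* M2 A}
    (h : IsStrictLift D.rbar r) (x : GQ × Fin 2 × Fin 2) : wEntry D r x ∈ maximalIdeal A :=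
  h x.1 x.2.1 x.2.2 (cst D x) (residue_cst D x)

theorem wEntry_mapMat {A B : Type} [CommRing A] [Algebra 𝒪 A] [CommRing B] [Algebra 𝒪 B]
    (f : A →ₐ[𝒪] B) (r : GQ →* M2 A) (x : GQ × Fin 2 × Fin 2) :
    wEntry D (mapMat (f : A →+* B) r) x = f (wEntry D r x) := by
  unfold wEntry
  rw [map_sub, mapMat_apply, AlgHom.commutes]
  rfl

/-- The signature of a coordinate: its values on all pairs over the dual numbers. -/
noncomputable def sig (x : GQ × Fin 2 × Fin 2) :
    {r : GQ →* M2 (DualNumber (ResidueField 𝒪)) //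
      IsPair D 𝒟 (DualNumber (ResidueField 𝒪)) r} → DualNumber (ResidueField 𝒪) :=
  fun r => wEntry D r.1 x

/-- On a pair of tangent type, coordinates with the same signature have the same value. -/
theorem wEntry_eq_of_sig_eq (h𝒟 : IsDeformationCondition 𝒪 𝒟)
    {A : Type} [CommRing A] [IsLocalRing A] [Algebra 𝒪 A] {r : GQ →* M2 A}
    (hp : IsPair D 𝒟 A r)
    (hsq : ∀ x ∈ maximalIdeal A, ∀ y ∈ maximalIdeal A, x * y = 0)
    (hm : ∀ c ∈ maximalIdeal 𝒪, algebraMap 𝒪 A c = 0)
    {x y : GQ × Fin 2 × Fin 2} (hxy : sig D 𝒟 x = sig D 𝒟 y) :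
    wEntry D r x = wEntry D r y := by
  by_contra hne
  have hw : wEntry D r x - wEntry D r y ∈ maximalIdeal A :=
    Ideal.sub_mem _ (wEntry_mem D hp.norm.1 x) (wEntry_mem D hp.norm.1 y)
  have hw0 : wEntry D r x - wEntry D r y ≠ 0 := sub_ne_zero.mpr hne
  obtain ⟨f, hf⟩ := exists_algHom_dualNumber_ne_zero hp.test.isLocalHom
    hp.test.residue_surjective hsq hm hw hw0
  have hp' : IsPair D 𝒟 (DualNumber (ResidueField 𝒪)) (mapMat (f : A →+* _) r) :=
    isPair_mapMat h𝒟 hp test_dualNumber f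
  have h1 := congrFun hxy ⟨_, hp'⟩
  simp only [sig] at h1
  rw [wEntry_mapMat, wEntry_mapMat] at h1
  apply hf
  rw [map_sub, h1, sub_self]

/-- **Tangent coordinates.** Finitely many coordinates `xs s` such that on every pair of tangent
type each coordinate agrees with one of the `xs s`. -/
theorem exists_tangent_coordinates (h𝒟 : IsDeformationCondition 𝒪 𝒟) (hres : ResidualHyp D)
    (hfin : TangentFinite 𝒪 ρbar 𝒟) :
    ∃ (d : ℕ) (xs : Fin d → GQ × Fin 2 × Fin 2), ∀ x : GQ × Fin 2 × Fin 2, ∃ s : Fin d,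
      ∀ {A : Type} [CommRing A] [IsLocalRing A] [Algebra 𝒪 A] {r : GQ →* M2 A},
        IsPair D 𝒟 A r →
        (∀ x ∈ maximalIdeal A, ∀ y ∈ maximalIdeal A, x * y = 0) →
        (∀ c ∈ maximalIdeal 𝒪, algebraMap 𝒪 A c = 0) →
        wEntry D r x = wEntry D r (xs s) := by
  haveI := finite_pairs_dualNumber D 𝒟 hres hfin
  haveI : Finite (DualNumber (ResidueField 𝒪)) :=
    inferInstanceAs (Finite (ResidueField 𝒪 × ResidueField 𝒪))
  haveI : Finite (Set.range (sig D 𝒟)) := (Set.toFinite _).to_subtype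
  let e := Finite.equivFin (Set.range (sig D 𝒟))
  refine ⟨Nat.card (Set.range (sig D 𝒟)), fun s => Classical.choose (e.symm s).2, fun x => ?_⟩
  refine ⟨e ⟨sig D 𝒟 x, Set.mem_range_self x⟩, ?_⟩
  intro A _ _ _ r hp hsq hm
  refine wEntry_eq_of_sig_eq D 𝒟 h𝒟 hp hsq hm ?_
  have := Classical.choose_spec (e.symm (e ⟨sig D 𝒟 x, Set.mem_range_self x⟩)).2
  rw [this, Equiv.symm_apply_apply]

/-- Key step: on an entries-generated pair, coordinates `xs` as in
`exists_tangent_coordinates` generate. -/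
theorem adjoin_wEntry_eq_top (h𝒟 : IsDeformationCondition 𝒪 𝒟) {d : ℕ}
    (xs : Fin d → GQ × Fin 2 × Fin 2)
    (hxs : ∀ x : GQ × Fin 2 × Fin 2, ∃ s : Fin d,
      ∀ {A : Type} [CommRing A] [IsLocalRing A] [Algebra 𝒪 A] {r : GQ →* M2 A},
        IsPair D 𝒟 A r →
        (∀ x ∈ maximalIdeal A, ∀ y ∈ maximalIdeal A, x * y = 0) →
        (∀ c ∈ maximalIdeal 𝒪, algebraMap 𝒪 A c = 0) →
        wEntry D r x = wEntry D r (xs s))
    {A : Type} [CommRing A] [IsLocalRing A] [Algebra 𝒪 A] {r : GQ →* M2 A}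
    (hp : IsPair D 𝒟 A r)
    (hgen : Algebra.adjoin 𝒪 (Set.range fun x : GQ × Fin 2 × Fin 2 => r x.1 x.2.1 x.2.2) = ⊤) :
    Algebra.adjoin 𝒪 (Set.range fun s => wEntry D r (xs s)) = ⊤ := by
  haveI := hp.test.isArtinian
  set S : Set A := (Set.range fun s => wEntry D r (xs s)) ∪
    (algebraMap 𝒪 A '' (maximalIdeal 𝒪 : Set 𝒪)) with hS
  have hSm : S ⊆ maximalIdeal A := by
    rintro a (⟨s, rfl⟩ | ⟨c, hc, rfl⟩)
    · exact wEntry_mem D hp.norm.1 _
    · exact (algebraMap_mem_maximalIdeal_iff hp.test c).mpr hc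
  have hspanS : Ideal.span S ≤ maximalIdeal A := Ideal.span_le.mpr hSm
  refine subalgebra_eq_top_of_le_span_sup_sq hp.test.residue_surjective
    (test_exists_pow_eq_bot hp.test) S hSm _ ?_ ?_
  · rintro a (⟨s, rfl⟩ | ⟨c, hc, rfl⟩)
    · exact Algebra.subset_adjoin ⟨s, rfl⟩
    · exact Subalgebra.algebraMap_mem _ c
  -- the main point: `m ≤ span S ⊔ m^2`
  set J : Ideal A := Ideal.span S ⊔ maximalIdeal A ^ 2 with hJ
  have hJm : J ≤ maximalIdeal A := sup_le hspanS (Ideal.pow_le_self two_ne_zero)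
  set I : Ideal A := maximalIdeal A ^ 2 ⊔ (maximalIdeal 𝒪).map (algebraMap 𝒪 A) with hI
  have hmapS : (maximalIdeal 𝒪).map (algebraMap 𝒪 A) ≤ Ideal.span S := by
    rw [Ideal.map]
    exact Ideal.span_mono Set.subset_union_right
  have hIJ : I ≤ J := sup_le le_sup_right (hmapS.trans le_sup_left)
  have hItop : I ≠ ⊤ := fun h => by
    have : (⊤ : Ideal A) ≤ maximalIdeal A := h ▸ hIJ.trans hJm
    exact (maximalIdeal.isMaximal A).ne_top (top_le_iff.mp this)
  haveI := isLocalRing_quotient I hItop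
  have hqt : IsArtinianTestAlgebra 𝒪 (A ⧸ I) := test_quotient hp.test I hItop
  have hpq : IsPair D 𝒟 (A ⧸ I) (mapMat ((Ideal.Quotient.mkₐ 𝒪 I : A →ₐ[𝒪] A ⧸ I) : A →+* A ⧸ I) r) :=
    isPair_mapMat h𝒟 hp hqt (Ideal.Quotient.mkₐ 𝒪 I)
  have hloc : IsLocalHom ((Ideal.Quotient.mkₐ 𝒪 I : A →ₐ[𝒪] A ⧸ I) : A →+* A ⧸ I) :=
    isLocalHom_of_test hp.test _
  have hmem : ∀ a : A, Ideal.Quotient.mk I a ∈ maximalIdeal (A ⧸ I) → a ∈ maximalIdeal A := by
    intro a ha
    by_contra hna
    have hu : IsUnit a := by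
      by_contra hu
      exact hna ((mem_maximalIdeal a).mpr hu)
    exact ((mem_maximalIdeal _).mp ha) (hu.map (Ideal.Quotient.mk I))
  have hsq : ∀ x ∈ maximalIdeal (A ⧸ I), ∀ y ∈ maximalIdeal (A ⧸ I), x * y = 0 := by
    intro x hx y hy
    obtain ⟨a, rfl⟩ := Ideal.Quotient.mk_surjective x
    obtain ⟨b, rfl⟩ := Ideal.Quotient.mk_surjective y
    rw [← map_mul, Ideal.Quotient.eq_zero_iff_mem]
    refine le_sup_left (a := maximalIdeal A ^ 2) ?_
    rw [pow_two]
    exact Ideal.mul_mem_mul (hmem a hx) (hmem b hy)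
  have hm : ∀ c ∈ maximalIdeal 𝒪, algebraMap 𝒪 (A ⧸ I) c = 0 := by
    intro c hc
    show Ideal.Quotient.mk I (algebraMap 𝒪 A c) = 0
    rw [Ideal.Quotient.eq_zero_iff_mem]
    exact le_sup_right (a := maximalIdeal A ^ 2) (Ideal.mem_map_of_mem _ hc)
  -- every entry is a constant modulo `J`
  have hentry : ∀ x : GQ × Fin 2 × Fin 2, wEntry D r x ∈ J := by
    intro x
    obtain ⟨s, hs⟩ := hxs x
    have h1 := hs hpq hsq hm
    rw [wEntry_mapMat, wEntry_mapMat] at h1
    have h2 : wEntry D r x - wEntry D r (xs s) ∈ I := by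
      rw [← Ideal.Quotient.eq_zero_iff_mem, map_sub, sub_eq_zero]
      exact h1
    have h3 : wEntry D r (xs s) ∈ J :=
      le_sup_left (a := Ideal.span S) (Ideal.subset_span (Or.inl ⟨s, rfl⟩))
    have := Ideal.add_mem _ (hIJ h2) h3
    rwa [sub_add_cancel] at this
  -- the subalgebra of elements that are constants modulo `J`
  let C : Subalgebra 𝒪 A :=
    { carrier := {a | ∃ c : 𝒪, a - algebraMap 𝒪 A c ∈ J}
      mul_mem' := by
        rintro a b ⟨c, hc⟩ ⟨c', hc'⟩
        refine ⟨c * c', ?_⟩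
        have e : a * b - algebraMap 𝒪 A (c * c') =
            (a - algebraMap 𝒪 A c) * b + algebraMap 𝒪 A c * (b - algebraMap 𝒪 A c') := by
          rw [map_mul]; ring
        rw [e]
        exact Ideal.add_mem _ (Ideal.mul_mem_right _ _ hc) (Ideal.mul_mem_left _ _ hc')
      add_mem' := by
        rintro a b ⟨c, hc⟩ ⟨c', hc'⟩
        refine ⟨c + c', ?_⟩
        have e : a + b - algebraMap 𝒪 A (c + c') =
            (a - algebraMap 𝒪 A c) + (b - algebraMap 𝒪 A c') := by
          rw [map_add]; ring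
        rw [e]
        exact Ideal.add_mem _ hc hc'
      algebraMap_mem' := fun c => ⟨c, by rw [sub_self]; exact Ideal.zero_mem _⟩ }
  have hC : C = ⊤ := by
    rw [eq_top_iff, ← hgen]
    refine Algebra.adjoin_le ?_
    rintro _ ⟨x, rfl⟩
    exact ⟨cst D x, hentry x⟩
  intro a ha
  have haC : a ∈ C := hC ▸ Algebra.mem_top
  obtain ⟨c, hc⟩ := haC
  have h1 : algebraMap 𝒪 A c ∈ maximalIdeal A := by
    have := Ideal.sub_mem _ ha (hJm hc)
    rwa [sub_sub_cancel] at this
  have h2 : c ∈ maximalIdeal 𝒪 := (algebraMap_mem_maximalIdeal_iff hp.test c).mp h1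
  have h3 : algebraMap 𝒪 A c ∈ J :=
    le_sup_left (a := Ideal.span S) (Ideal.subset_span (Or.inr ⟨c, h2, rfl⟩))
  have := Ideal.add_mem _ hc h3
  rwa [sub_add_cancel] at this

/-- **(C3) Finite generation.** There are finitely many coordinates `xs s = (γ_s, a_s, b_s)`
such that for every pair `(A, r)` the `𝒪`-subalgebra generated by all entries of `r` is generated
by the elements `u_s = r γ_s a_s b_s - algebraMap (cst D (xs s)) ∈ m_A`. -/
theorem exists_generating_coordinates (h𝒟 : IsDeformationCondition 𝒪 𝒟) (hres : ResidualHyp D)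
    (hfin : TangentFinite 𝒪 ρbar 𝒟) :
    ∃ (d : ℕ) (xs : Fin d → GQ × Fin 2 × Fin 2),
      ∀ {A : Type} [CommRing A] [IsLocalRing A] [Algebra 𝒪 A] {r : GQ →* M2 A},
        IsPair D 𝒟 A r →
        Algebra.adjoin 𝒪 (Set.range fun s => wEntry D r (xs s)) =
          Algebra.adjoin 𝒪 (Set.range fun x : GQ × Fin 2 × Fin 2 => r x.1 x.2.1 x.2.2) := by
  obtain ⟨d, xs, hxs⟩ := exists_tangent_coordinates D 𝒟 h𝒟 hres hfin
  refine ⟨d, xs, ?_⟩
  intro A _ _ _ r hp
  set E : Subalgebra 𝒪 A :=
    Algebra.adjoin 𝒪 (Set.range fun x : GQ × Fin 2 × Fin 2 => r x.1 x.2.1 x.2.2) with hE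
  have hentries : ∀ σ i j, r σ i j ∈ E := fun σ i j =>
    Algebra.subset_adjoin ⟨(σ, i, j), rfl⟩
  refine le_antisymm ?_ ?_
  · refine Algebra.adjoin_le ?_
    rintro _ ⟨s, rfl⟩
    exact E.sub_mem (hentries _ _ _) (E.algebraMap_mem _)
  · haveI := isLocalRing_subalgebra hp.test E
    have hpE : IsPair D 𝒟 E (restrictMat E r hentries) := isPair_restrictMat h𝒟 hp E hentries
    -- the restricted pair is entries-generated
    have hgenE : Algebra.adjoin 𝒪 (Set.range fun x : GQ × Fin 2 × Fin 2 =>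
        restrictMat E r hentries x.1 x.2.1 x.2.2) = ⊤ := by
      apply Subalgebra.map_injective (f := E.val) Subtype.val_injective
      rw [AlgHom.map_adjoin, Algebra.map_top, Subalgebra.range_val, ← Set.range_comp]
      rfl
    have htop := adjoin_wEntry_eq_top D 𝒟 h𝒟 xs hxs hpE hgenE
    -- transport along `E.val`
    have hmap : (Algebra.adjoin 𝒪 (Set.range fun s => wEntry D (restrictMat E r hentries) (xs s))).map
        E.val = Algebra.adjoin 𝒪 (Set.range fun s => wEntry D r (xs s)) := by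
      rw [AlgHom.map_adjoin, ← Set.range_comp]
      rfl
    rw [← hmap, htop, Algebra.map_top, Subalgebra.range_val]

end Coordinates

end Tangent

end Fermat.Agent.S53
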