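/-
T-S53 (helper18): `CoordData` from the tangent bound (`Tangent.lean`, helper23) and the residual
comparison (`MatrixRes.lean`, helper9).
-/
import Mathlib
import Fermat.Agent.S53.Defs
import Fermat.Agent.S53.Pairs
import Fermat.Agent.S53.Coord
import Fermat.Agent.S53.MatrixRes
import Fermat.Agent.S53.Tangent

set_option autoImplicit false
set_option linter.style.haveILetI false
set_option linter.unusedSectionVars false

namespace Fermat.Agent.S53

open IsLocalRing GaloisRep

variable {𝒪 : Type} [CommRing 𝒪] [IsLocalRing 𝒪] [Finite (ResidueField 𝒪)]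
  {ρbar : ResidualGaloisRep (ResidueField 𝒪)}
  {𝒟 : ∀ ⦃A : Type⦄ [CommRing A] [IsLocalRing A] [Algebra 𝒪 A], GaloisRepAdic A → Prop}

theorem cv_residualHyp (D : SliceData 𝒪 ρbar) : Tangent.ResidualHyp D := by
  intro A _ _ _ _ r h hlift
  exact residual_isEquiv_of_strictLift D h hlift

/-- **(C3)** in the form used by the assembly: coordinate data exist. -/
theorem exists_coordData (h𝒟 : IsDeformationCondition 𝒪 𝒟) (hfin : TangentFinite 𝒪 ρbar 𝒟)
    (D : SliceData 𝒪 ρbar) : Nonempty (CoordData D 𝒟) := by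
  obtain ⟨d, xs, hxs⟩ :=
    Tangent.exists_generating_coordinates D 𝒟 h𝒟 (cv_residualHyp D) hfin
  refine ⟨{
    d := d
    γ := fun s => (xs s).1
    a := fun s => (xs s).2.1
    b := fun s => (xs s).2.2
    ct := fun s => Tangent.cst D (xs s)
    hct := fun s => Tangent.residue_cst D (xs s)
    gen := ?_ }⟩
  intro A _ _ _ r hp σ i j
  have h := hxs hp
  have hmem : r σ i j ∈ Algebra.adjoin 𝒪
      (Set.range fun x : GQ × Fin 2 × Fin 2 => r x.1 x.2.1 x.2.2) :=
    Algebra.subset_adjoin ⟨(σ, i, j), rfl⟩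
  rw [← h] at hmem
  exact hmem

end Fermat.Agent.S53
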