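import Mathlib

/-!
# S53, part (D2): the limit lemma

`P` a commutative ring, `I` an ideal with `P` `I`-adically precomplete, `c : ℕ → Ideal P`
a decreasing chain of ideals with `I ^ n ≤ c n` and `c n ≤ c (n + 1) ⊔ I ^ n`.
Then every compatible family modulo the `c n` comes from an element of `P`, and
`c n = (⨅ m, c m) ⊔ I ^ n`.
-/

set_option autoImplicit false

namespace Fermat.Agent.S53

variable {P : Type*} [CommRing P]

/-- The key recursive construction: starting from `z₀` with `y - z₀ ∈ c n₀`, we build a Cauchy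
sequence. -/
theorem exists_limit_of_chain (I : Ideal P) [IsPrecomplete I P] (c : ℕ → Ideal P)
    (hpow : ∀ n, I ^ n ≤ c n) (hstep : ∀ n, c n ≤ c (n + 1) ⊔ I ^ n)
    (a : ℕ → P) (ha : ∀ n, a (n + 1) - a n ∈ c n) :
    ∃ x : P, ∀ n, x - a n ∈ c n := by
  classical
  -- recursive construction of `f n` with `f n - a n ∈ c n` and `f (n+1) - f n ∈ I ^ n`
  have key : ∀ n (f : P), f - a n ∈ c n → ∃ f' : P, f' - a (n + 1) ∈ c (n + 1) ∧ f' - f ∈ I ^ n := by
    intro n f hf
    have h1 : a (n + 1) - f ∈ c n := by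
      have : a (n + 1) - f = (a (n + 1) - a n) - (f - a n) := by ring
      rw [this]
      exact (c n).sub_mem (ha n) hf
    obtain ⟨j, hj, i, hi, hji⟩ := Submodule.mem_sup.mp (hstep n h1)
    refine ⟨f + i, ?_, by simpa using hi⟩
    have : f + i - a (n + 1) = -j := by
      have : i = a (n + 1) - f - j := by rw [← hji]; ring
      rw [this]; ring
    rw [this]
    exact (c (n + 1)).neg_mem hj
  -- the sequence as a dependent recursion
  let F : ∀ n : ℕ, {f : P // f - a n ∈ c n} := fun n =>
    Nat.rec (motive := fun n => {f : P // f - a n ∈ c n})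
      ⟨a 0, by simp⟩
      (fun n f => ⟨(key n f.1 f.2).choose, (key n f.1 f.2).choose_spec.1⟩) n
  have hF : ∀ n, (F (n + 1)).1 - (F n).1 ∈ I ^ n := fun n => (key n (F n).1 (F n).2).choose_spec.2
  have hcauchy : ∀ {m n : ℕ}, m ≤ n → (F m).1 ≡ (F n).1 [SMOD (I ^ m • ⊤ : Submodule P P)] := by
    intro m n hmn
    induction n, hmn using Nat.le_induction with
    | base => rfl
    | succ n hmn ih =>
      refine ih.trans ?_
      rw [SModEq.sub_mem, smul_eq_mul, Ideal.mul_top]
      have := hF n
      have h2 : (F n).1 - (F (n + 1)).1 = -((F (n + 1)).1 - (F n).1) := by ring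
      rw [h2]
      exact (I ^ m).neg_mem (Ideal.pow_le_pow_right hmn this)
  obtain ⟨x, hx⟩ := IsPrecomplete.prec ‹_› hcauchy
  refine ⟨x, fun n => ?_⟩
  have h1 : (F n).1 - x ∈ I ^ n := by
    have := hx n
    rwa [SModEq.sub_mem, smul_eq_mul, Ideal.mul_top] at this
  have : x - a n = ((F n).1 - a n) - ((F n).1 - x) := by ring
  rw [this]
  exact (c n).sub_mem (F n).2 (hpow n h1)

/-- `c n = (⨅ m, c m) ⊔ I ^ n`. -/
theorem chain_eq_iInf_sup_pow (I : Ideal P) [IsPrecomplete I P] (c : ℕ → Ideal P)
    (hanti : Antitone c)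
    (hpow : ∀ n, I ^ n ≤ c n) (hstep : ∀ n, c n ≤ c (n + 1) ⊔ I ^ n) (n : ℕ) :
    c n = (⨅ m, c m) ⊔ I ^ n := by
  apply le_antisymm
  · intro y hy
    -- shifted chain `c' m = c (n + m)` with ideal powers `I ^ (n + m)`; we use the family
    -- `a m = y` for all `m`, but relative to the chain `d m := c (n + m) ⊓ ...`.
    -- Simpler: apply `exists_limit_of_chain` to the chain `d m = c (max n m)` and `a m = y`?
    -- We instead run the construction with the chain `d m := c (n + m)` and ideal `I`,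
    -- using `I ^ m ≥ I ^ (n + m)`-type bounds is the wrong direction, so we do it by hand.
    classical
    have key : ∀ m (z : P), z ∈ I ^ n → y - z ∈ c (n + m) →
        ∃ z' : P, z' ∈ I ^ n ∧ y - z' ∈ c (n + m + 1) ∧ z' - z ∈ I ^ (n + m) := by
      intro m z hz hyz
      obtain ⟨j, hj, i, hi, hji⟩ := Submodule.mem_sup.mp (hstep (n + m) hyz)
      refine ⟨z + i, (I ^ n).add_mem hz (Ideal.pow_le_pow_right (Nat.le_add_right n m) hi), ?_,
        by simpa using hi⟩
      have : y - (z + i) = j := by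
        have : i = y - z - j := by rw [← hji]; ring
        rw [this]; ring
      rw [this]; exact hj
    let F : ∀ m : ℕ, {z : P // z ∈ I ^ n ∧ y - z ∈ c (n + m)} := fun m =>
      Nat.rec (motive := fun m => {z : P // z ∈ I ^ n ∧ y - z ∈ c (n + m)})
        ⟨0, (I ^ n).zero_mem, by simpa using hy⟩
        (fun m z => ⟨(key m z.1 z.2.1 z.2.2).choose, (key m z.1 z.2.1 z.2.2).choose_spec.1,
          (key m z.1 z.2.1 z.2.2).choose_spec.2.1⟩) m
    have hF : ∀ m, (F (m + 1)).1 - (F m).1 ∈ I ^ (n + m) :=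
      fun m => (key m (F m).1 (F m).2.1 (F m).2.2).choose_spec.2.2
    have hcauchy : ∀ {m m' : ℕ}, m ≤ m' →
        (F m).1 ≡ (F m').1 [SMOD (I ^ m • ⊤ : Submodule P P)] := by
      intro m m' hmm'
      induction m', hmm' using Nat.le_induction with
      | base => rfl
      | succ m' hmm' ih =>
        refine ih.trans ?_
        rw [SModEq.sub_mem, smul_eq_mul, Ideal.mul_top]
        have := hF m'
        have h2 : (F m').1 - (F (m' + 1)).1 = -((F (m' + 1)).1 - (F m').1) := by ring
        rw [h2]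
        exact (I ^ m).neg_mem (Ideal.pow_le_pow_right (by omega) this)
    obtain ⟨z, hz⟩ := IsPrecomplete.prec ‹_› hcauchy
    have hz' : ∀ m, (F m).1 - z ∈ I ^ m := by
      intro m
      have := hz m
      rwa [SModEq.sub_mem, smul_eq_mul, Ideal.mul_top] at this
    -- `z ∈ I ^ n`
    have hzn : z ∈ I ^ n := by
      have h1 := hz' n
      have h2 := (F n).2.1
      have : z = (F n).1 - ((F n).1 - z) := by ring
      rw [this]
      exact (I ^ n).sub_mem h2 h1
    -- `y - z ∈ c m` for all `m`
    have hyz : ∀ m, y - z ∈ c m := by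
      intro m
      -- use index `n + m ≥ m`
      have h1 : y - (F (n + m)).1 ∈ c (n + (n + m)) := (F (n + m)).2.2
      have h2 : (F (n + m)).1 - z ∈ I ^ (n + m) := hz' (n + m)
      have h3 : y - z = (y - (F (n + m)).1) + ((F (n + m)).1 - z) := by ring
      rw [h3]
      refine (c m).add_mem (hanti (by omega) h1) (hanti (Nat.le_add_left m n) (hpow _ h2))
    rw [Submodule.mem_sup]
    exact ⟨y - z, (Ideal.mem_iInf).mpr hyz, z, hzn, by ring⟩
  · exact sup_le (iInf_le _ _) (hpow n)

end Fermat.Agent.S53
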