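import Mathlib
import Fermat.Prelude.Thm_IsAdicComplete_of_module_finite
import Fermat.Agent.S53.EvalNilp
import Fermat.Agent.S53.LimitLemma

/-!
# S53, part (D3): the quotient `R = P ⧸ ⨅ n, c n` of a power series ring by the intersection of a
chain of ideals

`P = MvPowerSeries σ 𝒪` with `σ` finite, `𝒪` a Noetherian local ring, `V = span (range X)` the ideal
of variables.  For a chain of ideals `c : ℕ → Ideal P` satisfying `IsChain c` we show that
`R = P ⧸ ⨅ n, c n` is a complete Noetherian local `𝒪`-algebra with the same residue field,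
`ker (R → P ⧸ c n) = m_R ^ n`, and every compatible family in `∏ P ⧸ c n` comes from a unique
element of `R`.
-/

set_option autoImplicit false
set_option linter.unusedSectionVars false
set_option linter.style.haveILetI false

noncomputable section

namespace Fermat.Agent.S53

open MvPowerSeries IsLocalRing

variable {𝒪 : Type*} [CommRing 𝒪] {σ : Type*}

/-- The ideal of variables of the power series ring. -/
abbrev varIdeal (𝒪 : Type*) [CommRing 𝒪] (σ : Type*) : Ideal (MvPowerSeries σ 𝒪) :=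
  Ideal.span (Set.range (X : σ → MvPowerSeries σ 𝒪))

theorem constantCoeff_eq_zero_of_mem_varIdeal {p : MvPowerSeries σ 𝒪} (hp : p ∈ varIdeal 𝒪 σ) :
    constantCoeff p = 0 := by
  have h : varIdeal 𝒪 σ ≤ RingHom.ker (constantCoeff (σ := σ) (R := 𝒪)) := by
    rw [varIdeal, Ideal.span_le]
    rintro _ ⟨i, rfl⟩
    simp
  exact h hp

section Local

variable [IsLocalRing 𝒪]

theorem mem_maximalIdeal_iff_constantCoeff {p : MvPowerSeries σ 𝒪} :
    p ∈ maximalIdeal (MvPowerSeries σ 𝒪) ↔ constantCoeff p ∈ maximalIdeal 𝒪 := by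
  rw [mem_maximalIdeal, mem_maximalIdeal, mem_nonunits_iff, mem_nonunits_iff,
    MvPowerSeries.isUnit_iff_constantCoeff]

theorem varIdeal_le_maximalIdeal : varIdeal 𝒪 σ ≤ maximalIdeal (MvPowerSeries σ 𝒪) := by
  intro p hp
  rw [mem_maximalIdeal_iff_constantCoeff, constantCoeff_eq_zero_of_mem_varIdeal hp]
  exact Ideal.zero_mem _

instance isLocalHom_algebraMap_mvPowerSeries :
    IsLocalHom (algebraMap 𝒪 (MvPowerSeries σ 𝒪)) where
  map_nonunit a ha := by
    rw [MvPowerSeries.isUnit_iff_constantCoeff] at ha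
    simpa [MvPowerSeries.algebraMap_apply] using ha

theorem sub_C_constantCoeff_mem_maximalIdeal (p : MvPowerSeries σ 𝒪) :
    p - C (constantCoeff p) ∈ maximalIdeal (MvPowerSeries σ 𝒪) := by
  rw [mem_maximalIdeal_iff_constantCoeff]
  simp

end Local

/-- The hypotheses on the chain of ideals. -/
structure IsIdealChain [IsLocalRing 𝒪] (c : ℕ → Ideal (MvPowerSeries σ 𝒪)) : Prop where
  anti : Antitone c
  pow_le : ∀ n, varIdeal 𝒪 σ ^ n ≤ c n
  step : ∀ n, c n ≤ c (n + 1) ⊔ varIdeal 𝒪 σ ^ n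
  le_max : c 1 ≤ maximalIdeal (MvPowerSeries σ 𝒪)
  max_le : maximalIdeal (MvPowerSeries σ 𝒪) ≤ varIdeal 𝒪 σ ⊔ ⨅ n, c n

namespace IsIdealChain

variable [IsLocalRing 𝒪] {c : ℕ → Ideal (MvPowerSeries σ 𝒪)}

/-- The limit ideal. -/
abbrev cInf (c : ℕ → Ideal (MvPowerSeries σ 𝒪)) : Ideal (MvPowerSeries σ 𝒪) := ⨅ n, c n

theorem cInf_le (n : ℕ) : cInf c ≤ c n := iInf_le _ _

theorem cInf_ne_top (h : IsIdealChain c) : cInf c ≠ ⊤ := by
  intro htop
  have h1 : (⊤ : Ideal (MvPowerSeries σ 𝒪)) ≤ maximalIdeal _ := htop ▸ (cInf_le 1).trans h.le_max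
  exact (maximalIdeal.isMaximal (MvPowerSeries σ 𝒪)).ne_top (top_le_iff.mp h1)

theorem nontrivial_quotient (h : IsIdealChain c) : Nontrivial (MvPowerSeries σ 𝒪 ⧸ cInf c) :=
  Ideal.Quotient.nontrivial_iff.mpr h.cInf_ne_top

theorem isLocalRing_quotient (h : IsIdealChain c) : IsLocalRing (MvPowerSeries σ 𝒪 ⧸ cInf c) :=
  haveI := h.nontrivial_quotient
  IsLocalRing.of_surjective' (Ideal.Quotient.mk (cInf c)) Ideal.Quotient.mk_surjective

theorem cInf_le_maximalIdeal (h : IsIdealChain c) :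
    cInf c ≤ maximalIdeal (MvPowerSeries σ 𝒪) := (cInf_le 1).trans h.le_max

/-- The maximal ideal of the quotient is the image of the maximal ideal. -/
theorem maximalIdeal_quotient (h : IsIdealChain c) :
    haveI := h.isLocalRing_quotient
    maximalIdeal (MvPowerSeries σ 𝒪 ⧸ cInf c) =
      Ideal.map (Ideal.Quotient.mk (cInf c)) (maximalIdeal (MvPowerSeries σ 𝒪)) := by
  haveI := h.isLocalRing_quotient
  have hmax : (Ideal.map (Ideal.Quotient.mk (cInf c))
      (maximalIdeal (MvPowerSeries σ 𝒪))).IsMaximal := by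
    refine Ideal.IsMaximal.map_of_surjective_of_ker_le Ideal.Quotient.mk_surjective ?_
    rw [Ideal.mk_ker]
    exact h.cInf_le_maximalIdeal
  exact (IsLocalRing.eq_maximalIdeal hmax).symm

/-- The maximal ideal of the quotient is generated by the images of the variables. -/
theorem maximalIdeal_quotient_eq_map_varIdeal (h : IsIdealChain c) :
    haveI := h.isLocalRing_quotient
    maximalIdeal (MvPowerSeries σ 𝒪 ⧸ cInf c) =
      Ideal.map (Ideal.Quotient.mk (cInf c)) (varIdeal 𝒪 σ) := by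
  haveI := h.isLocalRing_quotient
  rw [h.maximalIdeal_quotient]
  apply le_antisymm
  · calc Ideal.map (Ideal.Quotient.mk (cInf c)) (maximalIdeal (MvPowerSeries σ 𝒪))
        ≤ Ideal.map (Ideal.Quotient.mk (cInf c)) (varIdeal 𝒪 σ ⊔ cInf c) := Ideal.map_mono h.max_le
      _ = Ideal.map (Ideal.Quotient.mk (cInf c)) (varIdeal 𝒪 σ) := by
        rw [Ideal.map_sup, Ideal.map_quotient_self, sup_bot_eq]
  · exact Ideal.map_mono varIdeal_le_maximalIdeal

theorem isLocalHom_algebraMap_quotient (h : IsIdealChain c) :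
    haveI := h.isLocalRing_quotient
    IsLocalHom (algebraMap 𝒪 (MvPowerSeries σ 𝒪 ⧸ cInf c)) := by
  haveI := h.isLocalRing_quotient
  refine ⟨fun a ha => ?_⟩
  by_contra hna
  have h1 : (algebraMap 𝒪 (MvPowerSeries σ 𝒪) a) ∈ maximalIdeal (MvPowerSeries σ 𝒪) := by
    rw [mem_maximalIdeal_iff_constantCoeff]
    simpa [MvPowerSeries.algebraMap_apply] using hna
  have h2 : algebraMap 𝒪 (MvPowerSeries σ 𝒪 ⧸ cInf c) a ∈
      maximalIdeal (MvPowerSeries σ 𝒪 ⧸ cInf c) := by
    rw [h.maximalIdeal_quotient]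
    exact Ideal.mem_map_of_mem _ h1
  exact (mem_maximalIdeal _).mp h2 ha

theorem residue_surjective_quotient (h : IsIdealChain c) :
    haveI := h.isLocalRing_quotient
    Function.Surjective (IsLocalRing.residue (MvPowerSeries σ 𝒪 ⧸ cInf c) ∘
      algebraMap 𝒪 (MvPowerSeries σ 𝒪 ⧸ cInf c)) := by
  haveI := h.isLocalRing_quotient
  intro x
  obtain ⟨y, rfl⟩ := IsLocalRing.residue_surjective x
  obtain ⟨p, rfl⟩ := Ideal.Quotient.mk_surjective y
  refine ⟨constantCoeff p, ?_⟩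
  rw [Function.comp_apply, eq_comm, ← sub_eq_zero, ← map_sub, IsLocalRing.residue_eq_zero_iff,
    h.maximalIdeal_quotient]
  have : Ideal.Quotient.mk (cInf c) p - algebraMap 𝒪 (MvPowerSeries σ 𝒪 ⧸ cInf c) (constantCoeff p)
      = Ideal.Quotient.mk (cInf c) (p - C (constantCoeff p)) := by
    rw [map_sub]; rfl
  rw [this]
  exact Ideal.mem_map_of_mem _ (sub_C_constantCoeff_mem_maximalIdeal p)

variable [Finite σ] [IsNoetherianRing 𝒪]

/-- The quotient is complete for its maximal ideal. -/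
theorem isAdicComplete_quotient (h : IsIdealChain c) :
    haveI := h.isLocalRing_quotient
    IsAdicComplete (maximalIdeal (MvPowerSeries σ 𝒪 ⧸ cInf c)) (MvPowerSeries σ 𝒪 ⧸ cInf c) := by
  haveI := h.isLocalRing_quotient
  rw [h.maximalIdeal_quotient_eq_map_varIdeal]
  have h1 : IsAdicComplete (varIdeal 𝒪 σ) (MvPowerSeries σ 𝒪 ⧸ cInf c) :=
    IsAdicComplete.of_module_finite (varIdeal 𝒪 σ) (MvPowerSeries σ 𝒪 ⧸ cInf c)
  exact (IsAdicComplete.map_algebraMap_iff (varIdeal 𝒪 σ) (MvPowerSeries σ 𝒪 ⧸ cInf c)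
    (S := MvPowerSeries σ 𝒪 ⧸ cInf c)).mpr h1

/-- `c n = cInf c ⊔ V ^ n`. -/
theorem eq_cInf_sup_pow (h : IsIdealChain c) (n : ℕ) : c n = cInf c ⊔ varIdeal 𝒪 σ ^ n :=
  chain_eq_iInf_sup_pow (varIdeal 𝒪 σ) c h.anti h.pow_le h.step n

/-- The image of `c n` in the quotient is the `n`-th power of the maximal ideal. -/
theorem map_mk_eq_maximalIdeal_pow (h : IsIdealChain c) (n : ℕ) :
    haveI := h.isLocalRing_quotient
    Ideal.map (Ideal.Quotient.mk (cInf c)) (c n) =
      maximalIdeal (MvPowerSeries σ 𝒪 ⧸ cInf c) ^ n := by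
  haveI := h.isLocalRing_quotient
  rw [h.maximalIdeal_quotient_eq_map_varIdeal, ← Ideal.map_pow, h.eq_cInf_sup_pow n, Ideal.map_sup,
    Ideal.map_quotient_self, bot_sup_eq]

/-- The kernel of `R → P ⧸ c n` is `m_R ^ n`. -/
theorem ker_factor (h : IsIdealChain c) (n : ℕ) :
    haveI := h.isLocalRing_quotient
    RingHom.ker (Ideal.Quotient.factor (cInf_le (c := c) n)) =
      maximalIdeal (MvPowerSeries σ 𝒪 ⧸ cInf c) ^ n := by
  haveI := h.isLocalRing_quotient
  rw [Ideal.Quotient.factor_ker, h.map_mk_eq_maximalIdeal_pow]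

/-- Compatible families come from a unique element of the quotient `R = P ⧸ cInf c`. -/
theorem existsUnique_of_compatible (h : IsIdealChain c)
    (x : ∀ n, MvPowerSeries σ 𝒪 ⧸ c n)
    (hx : ∀ n, Ideal.Quotient.factor (h.anti (Nat.le_succ n)) (x (n + 1)) = x n) :
    ∃! y : MvPowerSeries σ 𝒪 ⧸ cInf c, ∀ n, Ideal.Quotient.factor (cInf_le (c := c) n) y = x n := by
  choose a ha using fun n => Ideal.Quotient.mk_surjective (x n)
  have hcomp : ∀ n, a (n + 1) - a n ∈ c n := by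
    intro n
    rw [← Ideal.Quotient.eq, ha n, ← hx n, ← ha (n + 1), Ideal.Quotient.factor_mk]
  obtain ⟨y, hy⟩ := exists_limit_of_chain (varIdeal 𝒪 σ) c h.pow_le h.step a hcomp
  refine ⟨Ideal.Quotient.mk _ y, fun n => ?_, ?_⟩
  · rw [Ideal.Quotient.factor_mk, ← ha n, Ideal.Quotient.eq]
    exact hy n
  · intro z hz
    obtain ⟨z, rfl⟩ := Ideal.Quotient.mk_surjective z
    rw [Ideal.Quotient.eq, Ideal.mem_iInf]
    intro n
    have h1 := hz n
    rw [Ideal.Quotient.factor_mk, ← ha n, Ideal.Quotient.eq] at h1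
    have : z - y = (z - a n) - (y - a n) := by ring
    rw [this]
    exact (c n).sub_mem h1 (hy n)

end IsIdealChain

/-! ### Finiteness of `P ⧸ m_P ^ n` and of the set of ideals containing `m_P ^ n` -/

/-- A finite nonempty inf-closed set in a complete lattice contains its infimum. -/
theorem sInf_mem_of_infClosed_of_finite {α : Type*} [CompleteLattice α] (S : Set α) (hne : S.Nonempty)
    (hfin : S.Finite) (hinf : InfClosed S) : sInf S ∈ S := by
  classical
  have h1 : sInf S = hfin.toFinset.inf' ((Set.Finite.toFinset_nonempty hfin).mpr hne) id := by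
    rw [Finset.inf'_id_eq_csInf]
    simp
  rw [h1]
  exact hinf.finsetInf'_mem _ (fun i hi => (Set.Finite.mem_toFinset hfin).mp hi)

section
variable [IsLocalRing 𝒪] [IsNoetherianRing 𝒪] [Finite σ] [Finite (ResidueField 𝒪)]

theorem finite_quotient_maximalIdeal : Finite (MvPowerSeries σ 𝒪 ⧸ maximalIdeal (MvPowerSeries σ 𝒪)) := by
  -- the map 𝒪 → P ⧸ m_P is surjective and kills m_𝒪
  let f : 𝒪 →+* (MvPowerSeries σ 𝒪 ⧸ maximalIdeal (MvPowerSeries σ 𝒪)) :=
    (Ideal.Quotient.mk _).comp (C : 𝒪 →+* MvPowerSeries σ 𝒪)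
  have hf : Function.Surjective f := by
    intro x
    obtain ⟨p, rfl⟩ := Ideal.Quotient.mk_surjective x
    refine ⟨constantCoeff p, ?_⟩
    show Ideal.Quotient.mk _ (C (constantCoeff p)) = Ideal.Quotient.mk _ p
    rw [Ideal.Quotient.eq, mem_maximalIdeal, mem_nonunits_iff, MvPowerSeries.isUnit_iff_constantCoeff]
    simp
  have hker : maximalIdeal 𝒪 ≤ RingHom.ker f := by
    intro a ha
    rw [RingHom.mem_ker]
    show Ideal.Quotient.mk _ (C a) = 0
    rw [Ideal.Quotient.eq_zero_iff_mem, mem_maximalIdeal, mem_nonunits_iff,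
      MvPowerSeries.isUnit_iff_constantCoeff]
    simpa using ha
  let g : ResidueField 𝒪 →+* (MvPowerSeries σ 𝒪 ⧸ maximalIdeal (MvPowerSeries σ 𝒪)) :=
    Ideal.Quotient.lift (maximalIdeal 𝒪) f (fun a ha => hker ha)
  have hg : Function.Surjective g := by
    intro x
    obtain ⟨a, rfl⟩ := hf x
    exact ⟨Ideal.Quotient.mk _ a, Ideal.Quotient.lift_mk _ _ _⟩
  exact Finite.of_surjective g hg

theorem finite_quotient_maximalIdeal_pow (n : ℕ) :
    Finite (MvPowerSeries σ 𝒪 ⧸ maximalIdeal (MvPowerSeries σ 𝒪) ^ n) := by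
  haveI := finite_quotient_maximalIdeal (𝒪 := 𝒪) (σ := σ)
  exact Ideal.finite_quotient_pow (IsNoetherian.noetherian _) n

theorem finite_setOf_maximalIdeal_pow_le (n : ℕ) :
    {J : Ideal (MvPowerSeries σ 𝒪) | maximalIdeal (MvPowerSeries σ 𝒪) ^ n ≤ J}.Finite := by
  haveI := finite_quotient_maximalIdeal_pow (𝒪 := 𝒪) (σ := σ) n
  haveI : Finite (Ideal (MvPowerSeries σ 𝒪 ⧸ maximalIdeal (MvPowerSeries σ 𝒪) ^ n)) :=
    Finite.of_injective (fun J : Ideal (MvPowerSeries σ 𝒪 ⧸ maximalIdeal (MvPowerSeries σ 𝒪) ^ n) =>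
      (J : Set (MvPowerSeries σ 𝒪 ⧸ maximalIdeal (MvPowerSeries σ 𝒪) ^ n))) SetLike.coe_injective
  refine Set.Finite.of_finite_image (f := Ideal.map (Ideal.Quotient.mk (maximalIdeal (MvPowerSeries σ 𝒪) ^ n)))
    (Set.toFinite _) ?_
  intro J hJ J' hJ' hJJ'
  have h1 := congrArg (Ideal.comap (Ideal.Quotient.mk (maximalIdeal (MvPowerSeries σ 𝒪) ^ n))) hJJ'
  rwa [Ideal.comap_map_of_surjective _ Ideal.Quotient.mk_surjective,
    Ideal.comap_map_of_surjective _ Ideal.Quotient.mk_surjective, ← RingHom.ker_eq_comap_bot,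
    Ideal.mk_ker, sup_of_le_left hJ, sup_of_le_left hJ'] at h1
end


end Fermat.Agent.S53
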