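/-
T-S53 part (L) (helper20): the level ideals `c n`, the universal level-`n` pairs and the universal
normalized matrix representation over `R = P ⧸ ⨅ n, c n`, where `P = 𝒪[[X_0, …, X_d]]`.

Everything is proved from an abstract package of hypotheses `LevelHyp` on pairs
(residual pair, joins, restriction along injections, push-forward along surjections, generation by
coordinates), to be instantiated from `Pairs.lean` / `Tangent.lean`.
-/
import Mathlib
import Fermat.Agent.S53.Defs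
import Fermat.Agent.S53.EvalNilp
import Fermat.Agent.S53.PowerSeries
import Fermat.Agent.S53.Pairs

set_option autoImplicit false
set_option linter.style.haveILetI false

noncomputable section

namespace Fermat.Agent.S53.Lv

open MvPowerSeries IsLocalRing GaloisRep

/-! ### Generalities -/

section General

/-- In an Artinian local ring some power of the maximal ideal vanishes. -/
theorem exists_maximalIdeal_pow_eq_bot (A : Type*) [CommRing A] [IsLocalRing A] [IsArtinianRing A] :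
    ∃ n : ℕ, maximalIdeal A ^ n = ⊥ := by
  have h := IsArtinianRing.isNilpotent_jacobson_bot (R := A)
  rw [IsLocalRing.jacobson_eq_maximalIdeal ⊥ bot_ne_top] at h
  obtain ⟨n, hn⟩ := h
  exact ⟨n, by simpa using hn⟩

/-- A ring homomorphism from a local ring with nilpotent maximal ideal to a nontrivial ring is
local. -/
theorem isLocalHom_of_maximalIdeal_pow_eq_bot {A B : Type*} [CommRing A] [IsLocalRing A]
    [CommRing B] [Nontrivial B] (f : A →+* B) (n : ℕ) (hn : maximalIdeal A ^ n = ⊥) :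
    IsLocalHom f := by
  refine ⟨fun a ha => ?_⟩
  by_contra hna
  have h1 : a ∈ maximalIdeal A := (mem_maximalIdeal a).mpr hna
  have h2 : a ^ n ∈ maximalIdeal A ^ n := Ideal.pow_mem_pow h1 n
  rw [hn, Ideal.mem_bot] at h2
  have h3 : IsUnit ((f a) ^ n) := ha.pow n
  rw [← map_pow, h2, map_zero] at h3
  exact not_isUnit_zero h3

/-- Descend a matrix representation along an injective ring homomorphism whose image contains
all entries. -/
theorem exists_mapMat_eq_of_injective {A' A : Type} [CommRing A'] [CommRing A] (ι : A' →+* A)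
    (hι : Function.Injective ι) (r : GQ →* M2 A) (h : ∀ σ i j, ∃ x : A', ι x = r σ i j) :
    ∃ r' : GQ →* M2 A', mapMat ι r' = r := by
  choose f hf using h
  have hinj : Function.Injective (ι.mapMatrix (m := Fin 2)) := by
    intro M N hMN
    ext i j
    apply hι
    have := congrFun (congrFun hMN i) j
    simpa using this
  have hf' : ∀ σ, ι.mapMatrix (Matrix.of (f σ)) = r σ := by
    intro σ
    ext i j
    simp [hf]
  refine ⟨{ toFun := fun σ => Matrix.of (f σ), map_one' := ?_, map_mul' := ?_ }, ?_⟩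
  · apply hinj
    rw [hf', map_one, map_one]
  · intro σ τ
    apply hinj
    rw [hf', map_mul, map_mul, hf', hf']
  · ext σ i j
    simp [hf]

end General

/-! ### Power series lemmas -/

section PSLemmas
variable {𝒪 : Type*} [CommRing 𝒪] {σ : Type*} [Finite σ]

theorem truncTotal_one_eq_C (p : MvPowerSeries σ 𝒪) :
    truncTotal 1 p = MvPolynomial.C (constantCoeff p) := by
  classical
  ext m
  rw [coeff_truncTotal_eq_ite, MvPolynomial.coeff_C]
  by_cases hm : m = 0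
  · subst hm
    simp
  · have : ¬ (m.degree < 1) := by
      rw [Nat.lt_one_iff, Finsupp.degree_eq_zero_iff]
      exact hm
    rw [if_neg this, if_neg (Ne.symm hm)]

theorem sub_C_constantCoeff_mem_varIdeal (p : MvPowerSeries σ 𝒪) :
    p - C (constantCoeff p) ∈ varIdeal 𝒪 σ := by
  have h := sub_truncTotal_mem_pow_span_X 1 p
  rwa [pow_one, truncTotal_one_eq_C, MvPolynomial.coe_C] at h

variable {A : Type*} [CommRing A] [Algebra 𝒪 A]

omit [Finite σ] in
theorem map_varIdeal_le (φ : MvPowerSeries σ 𝒪 →ₐ[𝒪] A) (I : Ideal A) (hφ : ∀ i, φ (X i) ∈ I) :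
    Ideal.map φ (varIdeal 𝒪 σ) ≤ I := by
  rw [varIdeal, Ideal.map_span, Ideal.span_le]
  rintro _ ⟨_, ⟨i, rfl⟩, rfl⟩
  exact hφ i

variable [IsLocalRing 𝒪] [IsLocalRing A] [IsLocalHom (algebraMap 𝒪 A)]

/-- An algebra homomorphism from the power series ring mapping the variables into the maximal
ideal maps the maximal ideal into the maximal ideal. -/
theorem map_mem_maximalIdeal_of_X (φ : MvPowerSeries σ 𝒪 →ₐ[𝒪] A)
    (hφ : ∀ i, φ (X i) ∈ maximalIdeal A) {p : MvPowerSeries σ 𝒪}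
    (hp : p ∈ maximalIdeal (MvPowerSeries σ 𝒪)) : φ p ∈ maximalIdeal A := by
  have h1 : φ (p - C (constantCoeff p)) ∈ maximalIdeal A :=
    map_varIdeal_le φ _ hφ (Ideal.mem_map_of_mem _ (sub_C_constantCoeff_mem_varIdeal p))
  have h2 : φ (C (constantCoeff p)) ∈ maximalIdeal A := by
    have : φ (C (constantCoeff p)) = algebraMap 𝒪 A (constantCoeff p) := by
      have h3 : (C (constantCoeff p) : MvPowerSeries σ 𝒪) =
          algebraMap 𝒪 (MvPowerSeries σ 𝒪) (constantCoeff p) := by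
        rw [MvPowerSeries.algebraMap_apply, Algebra.algebraMap_self, RingHom.id_apply]
      rw [h3, AlgHom.commutes]
    rw [this, mem_maximalIdeal, mem_nonunits_iff]
    intro h
    exact (mem_maximalIdeal _).mp (mem_maximalIdeal_iff_constantCoeff.mp hp)
      (isUnit_of_map_unit (algebraMap 𝒪 A) _ h)
  have : φ p = φ (p - C (constantCoeff p)) + φ (C (constantCoeff p)) := by
    rw [← map_add, sub_add_cancel]
  rw [this]
  exact Ideal.add_mem _ h1 h2

theorem maximalIdeal_pow_le_ker_of_X (φ : MvPowerSeries σ 𝒪 →ₐ[𝒪] A)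
    (hφ : ∀ i, φ (X i) ∈ maximalIdeal A) (n : ℕ) (hn : maximalIdeal A ^ n = ⊥) :
    maximalIdeal (MvPowerSeries σ 𝒪) ^ n ≤ RingHom.ker φ := by
  have h1 : Ideal.map φ (maximalIdeal (MvPowerSeries σ 𝒪)) ≤ maximalIdeal A := by
    rw [Ideal.map_le_iff_le_comap]
    intro p hp
    exact map_mem_maximalIdeal_of_X φ hφ hp
  intro p hp
  have h2 : φ p ∈ Ideal.map φ (maximalIdeal (MvPowerSeries σ 𝒪) ^ n) := Ideal.mem_map_of_mem _ hp
  rw [Ideal.map_pow] at h2
  have h3 := Ideal.pow_right_mono h1 n h2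
  rw [hn, Ideal.mem_bot] at h3
  exact h3

omit [IsLocalRing 𝒪] [IsLocalHom (algebraMap 𝒪 A)] in
/-- Two algebra homomorphisms from the power series ring to a local ring with nilpotent maximal
ideal which agree on the variables, sent into the maximal ideal, are equal. -/
theorem algHom_ext_of_X (φ φ' : MvPowerSeries σ 𝒪 →ₐ[𝒪] A) (n : ℕ)
    (hn : maximalIdeal A ^ n = ⊥) (hφ : ∀ i, φ (X i) ∈ maximalIdeal A)
    (h : ∀ i, φ (X i) = φ' (X i)) : φ = φ' := by
  have hu : Ideal.span (Set.range fun i => φ (X i)) ^ n = ⊥ := by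
    rw [eq_bot_iff, ← hn]
    refine Ideal.pow_right_mono ?_ n
    rw [Ideal.span_le]
    rintro _ ⟨i, rfl⟩
    exact hφ i
  rw [eq_evalNilp φ (fun i => φ (X i)) n hu (fun _ => rfl),
    eq_evalNilp φ' (fun i => φ (X i)) n hu (fun i => (h i).symm)]

end PSLemmas

/-! ### Powers of maximal ideals along local homomorphisms -/

section MaxPow

variable {E A B : Type*} [CommRing E] [IsLocalRing E] [CommRing A] [IsLocalRing A]
  [CommRing B] [IsLocalRing B]

theorem map_maximalIdeal_pow_le (f : E →+* A) (hf : IsLocalHom f) (n : ℕ) :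
    Ideal.map f (maximalIdeal E ^ n) ≤ maximalIdeal A ^ n := by
  rw [Ideal.map_pow]
  refine Ideal.pow_right_mono ?_ n
  rw [Ideal.map_le_iff_le_comap]
  intro y hy
  rw [Ideal.mem_comap, mem_maximalIdeal, mem_nonunits_iff]
  exact fun h => (mem_maximalIdeal y).mp hy (hf.map_nonunit y h)

theorem maximalIdeal_pow_eq_bot_of_jointly_injective (f : E →+* A) (g : E →+* B)
    (hf : IsLocalHom f) (hg : IsLocalHom g) (hinj : ∀ x, f x = 0 → g x = 0 → x = 0) (n : ℕ)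
    (hA : maximalIdeal A ^ n = ⊥) (hB : maximalIdeal B ^ n = ⊥) : maximalIdeal E ^ n = ⊥ := by
  rw [eq_bot_iff]
  intro x hx
  have h1 := map_maximalIdeal_pow_le f hf n (Ideal.mem_map_of_mem f hx)
  have h2 := map_maximalIdeal_pow_le g hg n (Ideal.mem_map_of_mem g hx)
  rw [hA, Ideal.mem_bot] at h1
  rw [hB, Ideal.mem_bot] at h2
  exact hinj x h1 h2

end MaxPow

/-! ### Coordinates -/

section Coordinates

variable {𝒪 : Type} [CommRing 𝒪] [IsLocalRing 𝒪] {ρbar : ResidualGaloisRep (ResidueField 𝒪)}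

/-- A finite list of matrix coordinates (group element, row, column) together with lifts to `𝒪`
of the corresponding residual matrix entries. -/
structure Coords (D : SliceData 𝒪 ρbar) where
  /-- number of coordinates -/
  d : ℕ
  /-- the group elements -/
  γ : Fin d → GQ
  /-- the rows -/
  a : Fin d → Fin 2
  /-- the columns -/
  b : Fin d → Fin 2
  /-- lifts of the residual entries -/
  ct : Fin d → 𝒪
  hct : ∀ s, residue 𝒪 (ct s) = D.rbar (γ s) (a s) (b s)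

variable {D : SliceData 𝒪 ρbar}

/-- The coordinate tuple of a matrix representation: the image of `ϖ`, followed by the chosen
matrix entries recentered by the fixed lifts. -/
def Coords.u (C : Coords D) (ϖ : 𝒪) {A : Type} [CommRing A] [Algebra 𝒪 A] (r : GQ →* M2 A) :
    Fin (C.d + 1) → A :=
  Fin.cons (algebraMap 𝒪 A ϖ) (fun s => r (C.γ s) (C.a s) (C.b s) - algebraMap 𝒪 A (C.ct s))

@[simp] theorem Coords.u_zero (C : Coords D) (ϖ : 𝒪) {A : Type} [CommRing A] [Algebra 𝒪 A]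
    (r : GQ →* M2 A) : C.u ϖ r 0 = algebraMap 𝒪 A ϖ := rfl

@[simp] theorem Coords.u_succ (C : Coords D) (ϖ : 𝒪) {A : Type} [CommRing A] [Algebra 𝒪 A]
    (r : GQ →* M2 A) (s : Fin C.d) :
    C.u ϖ r s.succ = r (C.γ s) (C.a s) (C.b s) - algebraMap 𝒪 A (C.ct s) := by
  simp [Coords.u]

theorem Coords.u_mapMat (C : Coords D) (ϖ : 𝒪) {A B : Type} [CommRing A] [Algebra 𝒪 A]
    [CommRing B] [Algebra 𝒪 B] (f : A →ₐ[𝒪] B) (r : GQ →* M2 A) (i : Fin (C.d + 1)) :
    C.u ϖ (mapMat (f : A →+* B) r) i = f (C.u ϖ r i) := by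
  refine Fin.cases ?_ (fun s => ?_) i
  · simp
  · simp

/-- The coordinates of a strict lift over a local `𝒪`-algebra with local structure map lie in the
maximal ideal. -/
theorem Coords.u_mem_maximalIdeal (C : Coords D) (ϖ : 𝒪) (hϖ : ϖ ∈ maximalIdeal 𝒪) {A : Type}
    [CommRing A] [IsLocalRing A] [Algebra 𝒪 A] [IsLocalHom (algebraMap 𝒪 A)] (r : GQ →* M2 A)
    (hr : IsStrictLift D.rbar r) (i : Fin (C.d + 1)) : C.u ϖ r i ∈ maximalIdeal A := by
  refine Fin.cases ?_ (fun s => ?_) i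
  · rw [Coords.u_zero, mem_maximalIdeal, mem_nonunits_iff]
    intro h
    exact (mem_maximalIdeal _).mp hϖ (isUnit_of_map_unit (algebraMap 𝒪 A) ϖ h)
  · rw [Coords.u_succ]
    exact hr _ _ _ _ (C.hct s)

theorem Coords.span_u_pow_eq_bot (C : Coords D) (ϖ : 𝒪) (hϖ : ϖ ∈ maximalIdeal 𝒪) {A : Type}
    [CommRing A] [IsLocalRing A] [Algebra 𝒪 A] [IsLocalHom (algebraMap 𝒪 A)] (r : GQ →* M2 A)
    (hr : IsStrictLift D.rbar r) (n : ℕ) (hn : maximalIdeal A ^ n = ⊥) :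
    Ideal.span (Set.range (C.u ϖ r)) ^ n = ⊥ := by
  rw [eq_bot_iff, ← hn]
  refine Ideal.pow_right_mono ?_ n
  rw [Ideal.span_le]
  rintro _ ⟨i, rfl⟩
  exact C.u_mem_maximalIdeal ϖ hϖ r hr i

end Coordinates

/-! ### The maximal ideal of the power series ring -/

section PS2
variable {𝒪 : Type*} [CommRing 𝒪] [IsLocalRing 𝒪] {σ : Type*} [Finite σ]

/-- If `ϖ` generates the maximal ideal of `𝒪`, the maximal ideal of the power series ring is
generated by the variables and `ϖ - X i₀`. -/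
theorem maximalIdeal_le_varIdeal_sup_span {ϖ : 𝒪} (hϖ : maximalIdeal 𝒪 = Ideal.span {ϖ}) (i₀ : σ) :
    maximalIdeal (MvPowerSeries σ 𝒪) ≤
      varIdeal 𝒪 σ ⊔ Ideal.span {(C ϖ - X i₀ : MvPowerSeries σ 𝒪)} := by
  intro p hp
  have h0 : constantCoeff p ∈ Ideal.span {ϖ} := hϖ ▸ mem_maximalIdeal_iff_constantCoeff.mp hp
  obtain ⟨t, ht⟩ := Ideal.mem_span_singleton'.mp h0
  have h1 : p = (p - C (constantCoeff p) + C t * X i₀) + C t * (C ϖ - X i₀) := by
    rw [← ht, map_mul]; ring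
  rw [h1]
  refine Ideal.add_mem _ (Ideal.mem_sup_left (Ideal.add_mem _ (sub_C_constantCoeff_mem_varIdeal p)
    (Ideal.mul_mem_left _ _ (Ideal.subset_span ⟨i₀, rfl⟩)))) (Ideal.mem_sup_right
    (Ideal.mul_mem_left _ _ (Ideal.subset_span rfl)))

end PS2

/-! ### Level sets, level ideals, universal pairs of finite level -/

section Levels

variable {𝒪 : Type} [CommRing 𝒪] [IsLocalRing 𝒪] {ρbar : ResidualGaloisRep (ResidueField 𝒪)}
  {D : SliceData 𝒪 ρbar}

/-- The power series ring attached to a system of coordinates. -/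
abbrev Coords.PS (C : Coords D) : Type := MvPowerSeries (Fin (C.d + 1)) 𝒪

/-- The chosen matrix entries generate, for every pair, the subalgebra generated by all
matrix entries. -/
def Coords.Generates (C : Coords D)
    (𝒟 : ∀ ⦃A : Type⦄ [CommRing A] [IsLocalRing A] [Algebra 𝒪 A], GaloisRepAdic A → Prop) : Prop :=
  ∀ ⦃A : Type⦄ [CommRing A] [IsLocalRing A] [Algebra 𝒪 A] (r : GQ →* M2 A), IsPair D 𝒟 A r →
    ∀ σ i j, r σ i j ∈ Algebra.adjoin 𝒪 (Set.range fun s => r (C.γ s) (C.a s) (C.b s))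

variable {𝒟 : ∀ ⦃A : Type⦄ [CommRing A] [IsLocalRing A] [Algebra 𝒪 A], GaloisRepAdic A → Prop}
  {C : Coords D}

theorem Coords.Generates.mem_adjoin_u (hgen : C.Generates 𝒟) (ϖ : 𝒪) {A : Type} [CommRing A]
    [IsLocalRing A] [Algebra 𝒪 A] (r : GQ →* M2 A) (hr : IsPair D 𝒟 A r) (σ : GQ) (i j : Fin 2) :
    r σ i j ∈ Algebra.adjoin 𝒪 (Set.range (C.u ϖ r)) := by
  have h1 : Algebra.adjoin 𝒪 (Set.range fun s => r (C.γ s) (C.a s) (C.b s)) ≤
      Algebra.adjoin 𝒪 (Set.range (C.u ϖ r)) := by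
    rw [Algebra.adjoin_le_iff]
    rintro _ ⟨s, rfl⟩
    have h2 : r (C.γ s) (C.a s) (C.b s) = C.u ϖ r s.succ + algebraMap 𝒪 A (C.ct s) := by
      rw [Coords.u_succ, sub_add_cancel]
    show r (C.γ s) (C.a s) (C.b s) ∈ Algebra.adjoin 𝒪 (Set.range (C.u ϖ r))
    rw [h2]
    exact Subalgebra.add_mem _ (Algebra.subset_adjoin ⟨s.succ, rfl⟩) (Subalgebra.algebraMap_mem _ _)
  exact h1 (hgen r hr σ i j)

variable (D 𝒟 C)

/-- The standing hypotheses of the level construction. -/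
structure LevelHyp (ϖ : 𝒪) : Prop where
  cond : IsDeformationCondition 𝒪 𝒟
  hbar : 𝒟 (GaloisRepAdic.ofResidualGaloisRep ρbar)
  hϖ : maximalIdeal 𝒪 = Ideal.span {ϖ}
  gen : C.Generates 𝒟

/-- The set of kernels of the coordinate homomorphisms of the pairs of level `n`. -/
def levelSet (ϖ : 𝒪) (n : ℕ) : Set (Ideal C.PS) :=
  {J | ∃ (A : Type) (_ : CommRing A) (_ : IsLocalRing A) (_ : Algebra 𝒪 A) (r : GQ →* M2 A)
      (φ : C.PS →ₐ[𝒪] A), IsPair D 𝒟 A r ∧ maximalIdeal A ^ n = ⊥ ∧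
      (∀ i, φ (X i) = C.u ϖ r i) ∧ RingHom.ker (φ : C.PS →+* A) = J}

/-- The `n`-th level ideal. -/
def levelIdeal (ϖ : 𝒪) (n : ℕ) : Ideal C.PS := sInf (levelSet D 𝒟 C ϖ n)

variable {D 𝒟 C} {ϖ : 𝒪}

theorem LevelHyp.mem (H : LevelHyp D 𝒟 C ϖ) : ϖ ∈ maximalIdeal 𝒪 := by
  rw [H.hϖ]; exact Ideal.mem_span_singleton_self ϖ

theorem _root_.Fermat.Agent.S53.IsPair.lv_u_mem (H : LevelHyp D 𝒟 C ϖ) {A : Type} [CommRing A] [IsLocalRing A] [Algebra 𝒪 A]
    {r : GQ →* M2 A} (hr : IsPair D 𝒟 A r) (i : Fin (C.d + 1)) : C.u ϖ r i ∈ maximalIdeal A :=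
  haveI := hr.test.isLocalHom
  C.u_mem_maximalIdeal ϖ H.mem r hr.norm.1 i

/-- The coordinate homomorphism of a pair. -/
theorem _root_.Fermat.Agent.S53.IsPair.lv_exists_theta (H : LevelHyp D 𝒟 C ϖ) {A : Type} [CommRing A] [IsLocalRing A]
    [Algebra 𝒪 A] {r : GQ →* M2 A} (hr : IsPair D 𝒟 A r) :
    ∃ φ : C.PS →ₐ[𝒪] A, ∀ i, φ (X i) = C.u ϖ r i := by
  haveI := hr.test.isLocalHom
  obtain ⟨n, hn⟩ := test_exists_pow_eq_bot hr.test
  have hu := C.span_u_pow_eq_bot ϖ H.mem r hr.norm.1 n hn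
  exact ⟨evalNilp _ n hu, evalNilp_X _ n hu⟩

theorem maximalIdeal_pow_le_of_mem_levelSet (H : LevelHyp D 𝒟 C ϖ) {n : ℕ} {J : Ideal C.PS}
    (hJ : J ∈ levelSet D 𝒟 C ϖ n) : maximalIdeal C.PS ^ n ≤ J := by
  obtain ⟨A, _, _, _, r, φ, hr, hn, hφ, rfl⟩ := hJ
  haveI := hr.test.isLocalHom
  exact maximalIdeal_pow_le_ker_of_X φ (fun i => by rw [hφ i]; exact hr.lv_u_mem H i) n hn

theorem ne_top_of_mem_levelSet {n : ℕ} {J : Ideal C.PS}
    (hJ : J ∈ levelSet D 𝒟 C ϖ n) : J ≠ ⊤ := by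
  obtain ⟨A, _, _, _, r, φ, hr, hn, hφ, rfl⟩ := hJ
  exact RingHom.ker_ne_top _

theorem levelSet_mono {n m : ℕ} (h : n ≤ m) : levelSet D 𝒟 C ϖ n ⊆ levelSet D 𝒟 C ϖ m := by
  rintro J ⟨A, _, _, _, r, φ, hr, hn, hφ, rfl⟩
  refine ⟨A, _, _, _, r, φ, hr, ?_, hφ, rfl⟩
  rw [eq_bot_iff, ← hn]
  exact Ideal.pow_le_pow_right h

theorem levelIdeal_anti : Antitone (levelIdeal D 𝒟 C ϖ) := fun _ _ h =>
  sInf_le_sInf (levelSet_mono h)

theorem levelSet_finite [IsNoetherianRing 𝒪] [Finite (ResidueField 𝒪)] (H : LevelHyp D 𝒟 C ϖ)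
    (n : ℕ) : (levelSet D 𝒟 C ϖ n).Finite :=
  (finite_setOf_maximalIdeal_pow_le (𝒪 := 𝒪) (σ := Fin (C.d + 1)) n).subset
    fun _ hJ => maximalIdeal_pow_le_of_mem_levelSet H hJ

/-- The residual pair has level one. -/
theorem levelSet_one_nonempty (H : LevelHyp D 𝒟 C ϖ) : (levelSet D 𝒟 C ϖ 1).Nonempty := by
  have hp : IsPair D 𝒟 (ResidueField 𝒪) D.rbar := isPair_residue D H.cond H.hbar
  obtain ⟨φ, hφ⟩ := hp.lv_exists_theta H
  refine ⟨_, ResidueField 𝒪, _, _, _, D.rbar, φ, hp, ?_, hφ, rfl⟩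
  rw [pow_one]
  exact IsLocalRing.maximalIdeal_eq_bot

theorem levelSet_nonempty (H : LevelHyp D 𝒟 C ϖ) {n : ℕ} (hn : 1 ≤ n) :
    (levelSet D 𝒟 C ϖ n).Nonempty :=
  (levelSet_one_nonempty H).mono (levelSet_mono hn)

/-- The entries of a pair lie in the range of its coordinate homomorphism. -/
theorem _root_.Fermat.Agent.S53.IsPair.lv_exists_eq_entry (H : LevelHyp D 𝒟 C ϖ) {A : Type} [CommRing A] [IsLocalRing A]
    [Algebra 𝒪 A] {r : GQ →* M2 A} (hr : IsPair D 𝒟 A r) (φ : C.PS →ₐ[𝒪] A)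
    (hφ : ∀ i, φ (X i) = C.u ϖ r i) (σ : GQ) (i j : Fin 2) : ∃ p : C.PS, φ p = r σ i j := by
  haveI := hr.test.isLocalHom
  obtain ⟨n, hn⟩ := test_exists_pow_eq_bot hr.test
  have hu := C.span_u_pow_eq_bot ϖ H.mem r hr.norm.1 n hn
  have hφe : φ = evalNilp (C.u ϖ r) n hu := eq_evalNilp φ _ n hu hφ
  have h1 : r σ i j ∈ φ.range := by
    rw [hφe, evalNilp_range]
    exact H.gen.mem_adjoin_u ϖ r hr σ i j
  exact h1

/-- The join of two pairs, together with its coordinate homomorphism. -/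
theorem _root_.Fermat.Agent.S53.IsPair.lv_exists_join [Finite (ResidueField 𝒪)] (H : LevelHyp D 𝒟 C ϖ) {A B : Type}
    [CommRing A] [IsLocalRing A] [Algebra 𝒪 A] [CommRing B] [IsLocalRing B] [Algebra 𝒪 B]
    {r : GQ →* M2 A} {r' : GQ →* M2 B} (hr : IsPair D 𝒟 A r) (hr' : IsPair D 𝒟 B r')
    (φ : C.PS →ₐ[𝒪] A) (hφ : ∀ i, φ (X i) = C.u ϖ r i)
    (φ' : C.PS →ₐ[𝒪] B) (hφ' : ∀ i, φ' (X i) = C.u ϖ r' i) :
    ∃ (E : Type) (_ : CommRing E) (_ : IsLocalRing E) (_ : Algebra 𝒪 E) (rr : GQ →* M2 E)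
      (pA : E →ₐ[𝒪] A) (pB : E →ₐ[𝒪] B) (θ : C.PS →ₐ[𝒪] E), IsPair D 𝒟 E rr ∧
      mapMat (pA : E →+* A) rr = r ∧ mapMat (pB : E →+* B) rr = r' ∧
      (∀ x, pA x = 0 → pB x = 0 → x = 0) ∧ (∀ i, θ (X i) = C.u ϖ rr i) ∧
      pA.comp θ = φ ∧ pB.comp θ = φ' ∧
      ∀ n, maximalIdeal A ^ n = ⊥ → maximalIdeal B ^ n = ⊥ → maximalIdeal E ^ n = ⊥ := by
  haveI := isLocalRing_fibre hr.test hr'.test
  have hE : IsPair D 𝒟 (fibre (𝒪 := 𝒪) A B) (fibreMat hr.norm.1 hr'.norm.1) :=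
    IsPair.join H.cond hr hr'
  obtain ⟨θ, hθ⟩ := hE.lv_exists_theta H
  have hpA := isLocalHom_of_test hE.test (fibreFst : fibre (𝒪 := 𝒪) A B →ₐ[𝒪] A)
  have hpB := isLocalHom_of_test hE.test (fibreSnd : fibre (𝒪 := 𝒪) A B →ₐ[𝒪] B)
  have hinj : ∀ x : fibre (𝒪 := 𝒪) A B, fibreFst x = 0 → fibreSnd x = 0 → x = 0 := by
    intro x h1 h2
    apply Subtype.ext
    exact Prod.ext h1 h2
  obtain ⟨n, hn⟩ := test_exists_pow_eq_bot hr.test
  obtain ⟨n', hn'⟩ := test_exists_pow_eq_bot hr'.test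
  have hA : (fibreFst : fibre (𝒪 := 𝒪) A B →ₐ[𝒪] A).comp θ = φ := by
    refine algHom_ext_of_X _ _ n hn (fun i => ?_) (fun i => ?_)
    · rw [AlgHom.comp_apply, hθ, ← Coords.u_mapMat, mapMat_fibreFst_fibreMat]
      exact hr.lv_u_mem H i
    · rw [AlgHom.comp_apply, hθ, ← Coords.u_mapMat, mapMat_fibreFst_fibreMat, hφ]
  have hB : (fibreSnd : fibre (𝒪 := 𝒪) A B →ₐ[𝒪] B).comp θ = φ' := by
    refine algHom_ext_of_X _ _ n' hn' (fun i => ?_) (fun i => ?_)
    · rw [AlgHom.comp_apply, hθ, ← Coords.u_mapMat, mapMat_fibreSnd_fibreMat]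
      exact hr'.lv_u_mem H i
    · rw [AlgHom.comp_apply, hθ, ← Coords.u_mapMat, mapMat_fibreSnd_fibreMat, hφ']
  exact ⟨fibre (𝒪 := 𝒪) A B, _, _, _, _, fibreFst, fibreSnd, θ, hE, mapMat_fibreFst_fibreMat _ _,
    mapMat_fibreSnd_fibreMat _ _, hinj, hθ, hA, hB, fun m hm hm' =>
      maximalIdeal_pow_eq_bot_of_jointly_injective _ _ hpA hpB hinj m hm hm'⟩

/-- The level sets are closed under intersection (join of pairs). -/
theorem levelSet_infClosed [Finite (ResidueField 𝒪)] (H : LevelHyp D 𝒟 C ϖ) (n : ℕ) :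
    InfClosed (levelSet D 𝒟 C ϖ n) := by
  rintro J ⟨A, _, _, _, r, φ, hr, hn, hφ, rfl⟩ J' ⟨B, _, _, _, r', φ', hr', hn', hφ', rfl⟩
  obtain ⟨E, _, _, _, rr, pA, pB, θ, hE, -, -, hinj, hθ, hA, hB, hlev⟩ :=
    hr.lv_exists_join H hr' φ hφ φ' hφ'
  refine ⟨E, _, _, _, rr, θ, hE, hlev n hn hn', hθ, ?_⟩
  ext p
  rw [Ideal.mem_inf, RingHom.mem_ker, RingHom.mem_ker, RingHom.mem_ker]
  constructor
  · intro h
    refine ⟨?_, ?_⟩
    · rw [← hA]; show pA (θ p) = 0; rw [show θ p = 0 from h, map_zero]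
    · rw [← hB]; show pB (θ p) = 0; rw [show θ p = 0 from h, map_zero]
  · rintro ⟨h1, h2⟩
    apply hinj
    · rw [← hA] at h1; exact h1
    · rw [← hB] at h2; exact h2

theorem levelIdeal_mem_levelSet [IsNoetherianRing 𝒪] [Finite (ResidueField 𝒪)]
    (H : LevelHyp D 𝒟 C ϖ) {n : ℕ} (hn : 1 ≤ n) : levelIdeal D 𝒟 C ϖ n ∈ levelSet D 𝒟 C ϖ n :=
  sInf_mem_of_infClosed_of_finite _ (levelSet_nonempty H hn) (levelSet_finite H n)
    (levelSet_infClosed H n)

variable (D 𝒟 C ϖ) in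
/-- `(A, r)` is a universal pair of level `n`, presented as a quotient `π` of the power series
ring. -/
structure IsUnivLevel (n : ℕ) (A : Type) [CommRing A] [IsLocalRing A] [Algebra 𝒪 A]
    (r : GQ →* M2 A) (π : C.PS →ₐ[𝒪] A) : Prop where
  pair : IsPair D 𝒟 A r
  level : maximalIdeal A ^ n = ⊥
  surj : Function.Surjective π
  ker : RingHom.ker (π : C.PS →+* A) = levelIdeal D 𝒟 C ϖ n
  coord : ∀ i, π (X i) = C.u ϖ r i

/-- Existence of universal pairs of each positive level. -/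
theorem exists_isUnivLevel [IsNoetherianRing 𝒪] [Finite (ResidueField 𝒪)]
    (H : LevelHyp D 𝒟 C ϖ) {n : ℕ} (hn : 1 ≤ n) :
    ∃ (A : Type) (_ : CommRing A) (_ : IsLocalRing A) (_ : Algebra 𝒪 A) (r : GQ →* M2 A)
      (π : C.PS →ₐ[𝒪] A), IsUnivLevel D 𝒟 C ϖ n A r π := by
  obtain ⟨A, _, _, _, r, φ, hr, hlev, hφ, hker⟩ := levelIdeal_mem_levelSet H hn
  haveI := hr.test.isLocalHom
  -- the entries of `r` lie in the range of `φ`
  have hu := C.span_u_pow_eq_bot ϖ H.mem r hr.norm.1 n hlev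
  have hφe : φ = evalNilp (C.u ϖ r) n hu := eq_evalNilp φ _ n hu hφ
  have hrange : ∀ σ i j, r σ i j ∈ φ.range := by
    intro σ i j
    rw [hφe, evalNilp_range]
    exact H.gen.mem_adjoin_u ϖ r hr σ i j
  haveI := isLocalRing_subalgebra hr.test φ.range
  have hE : IsPair D 𝒟 φ.range (restrictMat φ.range r hrange) :=
    IsPair.restrict H.cond hr φ.range hrange
  refine ⟨φ.range, _, _, _, restrictMat φ.range r hrange, φ.rangeRestrict, hE, ?_,
    φ.rangeRestrict_surjective, ?_, fun i => ?_⟩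
  · exact maximalIdeal_pow_eq_bot_of_jointly_injective (φ.range.val : φ.range →+* A)
      (φ.range.val : φ.range →+* A) (isLocalHom_of_test hE.test φ.range.val)
      (isLocalHom_of_test hE.test φ.range.val)
      (fun x h _ => Subtype.ext h) n hlev hlev
  · rw [← hker]
    ext p
    rw [RingHom.mem_ker, RingHom.mem_ker]
    constructor
    · intro h
      have := congrArg (φ.range.val) h
      simpa using this
    · intro h
      apply Subtype.ext
      simpa using h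
  · apply Subtype.val_injective
    have h1 := C.u_mapMat ϖ φ.range.val (restrictMat φ.range r hrange) i
    rw [mapMat_val_restrictMat] at h1
    show φ (X i) = _
    rw [hφ i, h1]
    rfl

/-- The universal property of a universal pair of level `n`. -/
theorem IsUnivLevel.exists_hom [Finite (ResidueField 𝒪)] (H : LevelHyp D 𝒟 C ϖ) {n : ℕ}
    {A : Type} [CommRing A] [IsLocalRing A] [Algebra 𝒪 A] {r : GQ →* M2 A} {π : C.PS →ₐ[𝒪] A}
    (hU : IsUnivLevel D 𝒟 C ϖ n A r π) {B : Type} [CommRing B] [IsLocalRing B] [Algebra 𝒪 B]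
    {s : GQ →* M2 B} (hs : IsPair D 𝒟 B s) (hB : maximalIdeal B ^ n = ⊥) :
    ∃ f : A →ₐ[𝒪] B, mapMat (f : A →+* B) r = s ∧
      ∀ θ : C.PS →ₐ[𝒪] B, (∀ i, θ (X i) = C.u ϖ s i) → f.comp π = θ := by
  obtain ⟨θB, hθB⟩ := hs.lv_exists_theta H
  have hker : RingHom.ker π.toRingHom ≤ RingHom.ker θB.toRingHom := by
    have h1 : RingHom.ker π.toRingHom = levelIdeal D 𝒟 C ϖ n := hU.ker
    rw [h1]
    exact sInf_le ⟨B, _, _, _, s, θB, hs, hB, hθB, rfl⟩
  refine ⟨AlgHom.liftOfSurjective π hU.surj θB hker, ?_, fun θ hθ => ?_⟩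
  · obtain ⟨E, _, _, _, rr, pA, pB, θ, hE, hrA, hrB, -, hθ, hA, hB', -⟩ :=
      hU.pair.lv_exists_join H hs π hU.coord θB hθB
    ext σ i j
    obtain ⟨p, hp⟩ := hE.lv_exists_eq_entry H θ hθ σ i j
    have h1 : r σ i j = π p := by
      rw [← hrA, mapMat_apply, ← hp, ← hA]; rfl
    have h2 : s σ i j = θB p := by
      rw [← hrB, mapMat_apply, ← hp, ← hB']; rfl
    rw [mapMat_apply, h1, h2]
    exact AlgHom.liftOfSurjective_apply π hU.surj θB hker p
  · rw [AlgHom.liftOfSurjective_comp]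
    exact algHom_ext_of_X _ _ n hB (fun i => by rw [hθB]; exact hs.lv_u_mem H i)
      (fun i => by rw [hθB, hθ])

/-! ### The level ideals form an ideal chain -/

theorem C_sub_X_zero_mem_of_mem_levelSet {n : ℕ} {J : Ideal C.PS}
    (hJ : J ∈ levelSet D 𝒟 C ϖ n) : (MvPowerSeries.C ϖ - X 0 : C.PS) ∈ J := by
  obtain ⟨A, _, _, _, r, φ, hr, hn, hφ, rfl⟩ := hJ
  rw [RingHom.mem_ker]
  show φ (MvPowerSeries.C ϖ - X 0) = 0
  have h3 : (MvPowerSeries.C ϖ : C.PS) = algebraMap 𝒪 C.PS ϖ := by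
    rw [MvPowerSeries.algebraMap_apply, Algebra.algebraMap_self, RingHom.id_apply]
  rw [map_sub, hφ 0, Coords.u_zero, h3, AlgHom.commutes, sub_self]

theorem C_sub_X_zero_mem_levelIdeal (n : ℕ) :
    (MvPowerSeries.C ϖ - X 0 : C.PS) ∈ levelIdeal D 𝒟 C ϖ n := by
  rw [levelIdeal, Submodule.mem_sInf]
  exact fun J hJ => C_sub_X_zero_mem_of_mem_levelSet hJ

theorem maximalIdeal_le_varIdeal_sup_levelIdeal (H : LevelHyp D 𝒟 C ϖ) (n : ℕ) :
    maximalIdeal C.PS ≤ varIdeal 𝒪 (Fin (C.d + 1)) ⊔ levelIdeal D 𝒟 C ϖ n := by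
  refine (maximalIdeal_le_varIdeal_sup_span H.hϖ 0).trans (sup_le_sup_left ?_ _)
  rw [Ideal.span_le, Set.singleton_subset_iff]
  exact C_sub_X_zero_mem_levelIdeal n

theorem levelIdeal_step_aux [IsNoetherianRing 𝒪] [Finite (ResidueField 𝒪)]
    (H : LevelHyp D 𝒟 C ϖ) {n : ℕ} (hn : 1 ≤ n) :
    levelIdeal D 𝒟 C ϖ (n + 1) ⊔ varIdeal 𝒪 (Fin (C.d + 1)) ^ n ∈ levelSet D 𝒟 C ϖ n := by
  obtain ⟨A, _, _, _, r, π, hU⟩ := exists_isUnivLevel H (Nat.le_add_left 1 n)
  haveI := hU.pair.test.isLocalHom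
  have hπloc : ∀ p ∈ maximalIdeal C.PS, π p ∈ maximalIdeal A := fun p hp =>
    map_mem_maximalIdeal_of_X π (fun i => by rw [hU.coord]; exact hU.pair.lv_u_mem H i) hp
  set I : Ideal A := Ideal.map (π : C.PS →+* A) (varIdeal 𝒪 (Fin (C.d + 1)) ^ n) with hI
  have hIle : I ≤ maximalIdeal A := by
    rw [hI, Ideal.map_le_iff_le_comap]
    intro p hp
    exact hπloc p ((Ideal.pow_le_self (Nat.one_le_iff_ne_zero.mp hn)).trans
      varIdeal_le_maximalIdeal hp)
  have hItop : I ≠ ⊤ := fun h => (maximalIdeal.isMaximal A).ne_top (top_le_iff.mp (h ▸ hIle))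
  haveI := isLocalRing_quotient I hItop
  have hB : IsArtinianTestAlgebra 𝒪 (A ⧸ I) := test_quotient hU.pair.test I hItop
  have hp : IsPair D 𝒟 (A ⧸ I) (mapMat ((Ideal.Quotient.mkₐ 𝒪 I : A →ₐ[𝒪] A ⧸ I) : A →+* A ⧸ I) r) :=
    IsPair.map H.cond hU.pair hB _
  refine ⟨A ⧸ I, _, _, _, _, (Ideal.Quotient.mkₐ 𝒪 I).comp π, hp, ?_, fun i => ?_, ?_⟩
  · -- level
    have h1 : maximalIdeal A ≤ Ideal.map π (varIdeal 𝒪 (Fin (C.d + 1))) := by
      rw [← IsLocalRing.map_maximalIdeal_of_surjective (π : C.PS →+* A) hU.surj]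
      refine (Ideal.map_mono (maximalIdeal_le_varIdeal_sup_levelIdeal H (n + 1))).trans ?_
      rw [Ideal.map_sup, ← hU.ker]
      have : Ideal.map (π : C.PS →+* A) (RingHom.ker (π : C.PS →+* A)) = ⊥ := by
        rw [Ideal.map_eq_bot_iff_le_ker]
      rw [this, sup_bot_eq]
      exact le_rfl
    have h2 : maximalIdeal A ^ n ≤ I := by
      rw [hI, Ideal.map_pow]
      exact Ideal.pow_right_mono h1 n
    rw [← IsLocalRing.map_maximalIdeal_of_surjective (Ideal.Quotient.mk I)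
      Ideal.Quotient.mk_surjective, ← Ideal.map_pow, Ideal.map_eq_bot_iff_le_ker, Ideal.mk_ker]
    exact h2
  · rw [AlgHom.comp_apply, hU.coord, Coords.u_mapMat]
  · -- kernel
    have h1 : RingHom.ker (((Ideal.Quotient.mkₐ 𝒪 I).comp π : C.PS →ₐ[𝒪] A ⧸ I) : C.PS →+* A ⧸ I) =
        Ideal.comap (π : C.PS →+* A) I := by
      ext p
      rw [RingHom.mem_ker, Ideal.mem_comap]
      show Ideal.Quotient.mk I (π p) = 0 ↔ _
      rw [Ideal.Quotient.eq_zero_iff_mem]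
      rfl
    rw [h1, hI, Ideal.comap_map_of_surjective (π : C.PS →+* A) hU.surj,
      ← RingHom.ker_eq_comap_bot, hU.ker, sup_comm]

theorem isIdealChain_levelIdeal [IsNoetherianRing 𝒪] [Finite (ResidueField 𝒪)]
    (H : LevelHyp D 𝒟 C ϖ) : IsIdealChain (levelIdeal D 𝒟 C ϖ) where
  anti := levelIdeal_anti
  pow_le n := by
    refine le_sInf fun J hJ => ?_
    exact (Ideal.pow_right_mono varIdeal_le_maximalIdeal n).trans
      (maximalIdeal_pow_le_of_mem_levelSet H hJ)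
  step n := by
    rcases Nat.eq_zero_or_pos n with rfl | hn
    · rw [pow_zero, Ideal.one_eq_top, sup_top_eq]
      exact le_top
    · exact sInf_le (levelIdeal_step_aux H hn)
  le_max := IsLocalRing.le_maximalIdeal
    (ne_top_of_mem_levelSet (levelIdeal_mem_levelSet H le_rfl))
  max_le := by
    intro p hp
    have h1 := maximalIdeal_le_varIdeal_sup_span H.hϖ (0 : Fin (C.d + 1)) hp
    have h2 : Ideal.span {(MvPowerSeries.C ϖ - X 0 : C.PS)} ≤ ⨅ n, levelIdeal D 𝒟 C ϖ n := by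
      rw [Ideal.span_le, Set.singleton_subset_iff, SetLike.mem_coe, Ideal.mem_iInf]
      exact C_sub_X_zero_mem_levelIdeal
    exact sup_le_sup_left h2 _ h1

end Levels

/-! ### The limit ring and the projections to the universal pairs -/

section Limit

variable {𝒪 : Type} [CommRing 𝒪] [IsLocalRing 𝒪] {ρbar : ResidualGaloisRep (ResidueField 𝒪)}
  {D : SliceData 𝒪 ρbar}
  {𝒟 : ∀ ⦃A : Type⦄ [CommRing A] [IsLocalRing A] [Algebra 𝒪 A], GaloisRepAdic A → Prop}
  {C : Coords D} {ϖ : 𝒪}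

variable (D 𝒟 C ϖ) in
/-- The limit ring `R = P ⧸ ⨅ n, c n`. -/
abbrev LimRing : Type := C.PS ⧸ IsIdealChain.cInf (levelIdeal D 𝒟 C ϖ)

variable {n : ℕ} {A : Type} [CommRing A] [IsLocalRing A] [Algebra 𝒪 A] {r : GQ →* M2 A}
  {π : C.PS →ₐ[𝒪] A}

/-- The projection from the limit ring onto a universal pair of finite level. -/
def IsUnivLevel.proj (hU : IsUnivLevel D 𝒟 C ϖ n A r π) : LimRing D 𝒟 C ϖ →ₐ[𝒪] A :=
  Ideal.Quotient.liftₐ _ π (fun p hp => by
    have h1 : p ∈ levelIdeal D 𝒟 C ϖ n := IsIdealChain.cInf_le n hp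
    rw [← hU.ker] at h1
    exact h1)

@[simp] theorem IsUnivLevel.proj_mk (hU : IsUnivLevel D 𝒟 C ϖ n A r π) (p : C.PS) :
    hU.proj (Ideal.Quotient.mk _ p) = π p := rfl

theorem IsUnivLevel.proj_surjective (hU : IsUnivLevel D 𝒟 C ϖ n A r π) :
    Function.Surjective hU.proj := by
  intro a
  obtain ⟨p, rfl⟩ := hU.surj a
  exact ⟨Ideal.Quotient.mk _ p, rfl⟩

theorem IsUnivLevel.proj_eq_zero_iff (hU : IsUnivLevel D 𝒟 C ϖ n A r π) (p : C.PS) :
    hU.proj (Ideal.Quotient.mk _ p) = 0 ↔ p ∈ levelIdeal D 𝒟 C ϖ n := by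
  rw [hU.proj_mk, ← hU.ker, RingHom.mem_ker]
  rfl

theorem IsUnivLevel.ker_proj (hU : IsUnivLevel D 𝒟 C ϖ n A r π) :
    RingHom.ker (hU.proj : LimRing D 𝒟 C ϖ →+* A) =
      Ideal.map (Ideal.Quotient.mk _) (levelIdeal D 𝒟 C ϖ n) := by
  ext x
  obtain ⟨p, rfl⟩ := Ideal.Quotient.mk_surjective x
  rw [RingHom.mem_ker]
  show hU.proj (Ideal.Quotient.mk _ p) = 0 ↔ _
  rw [hU.proj_eq_zero_iff, Ideal.mem_map_iff_of_surjective _ Ideal.Quotient.mk_surjective]
  constructor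
  · intro h; exact ⟨p, h, rfl⟩
  · rintro ⟨q, hq, hqp⟩
    have h1 : q - p ∈ IsIdealChain.cInf (levelIdeal D 𝒟 C ϖ) := Ideal.Quotient.eq.mp hqp
    have h2 : p = q - (q - p) := by ring
    rw [h2]
    exact Ideal.sub_mem _ hq (IsIdealChain.cInf_le n h1)

/-- A universal pair of level `n` dominates every universal pair of level `m ≤ n`. -/
theorem IsUnivLevel.exists_hom_univ [Finite (ResidueField 𝒪)] (H : LevelHyp D 𝒟 C ϖ)
    (hU : IsUnivLevel D 𝒟 C ϖ n A r π) {m : ℕ} (hmn : m ≤ n) {B : Type} [CommRing B]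
    [IsLocalRing B] [Algebra 𝒪 B] {s : GQ →* M2 B} {π' : C.PS →ₐ[𝒪] B}
    (hU' : IsUnivLevel D 𝒟 C ϖ m B s π') :
    ∃ f : A →ₐ[𝒪] B, mapMat (f : A →+* B) r = s ∧ f.comp π = π' := by
  have hB : maximalIdeal B ^ n = ⊥ := by
    rw [eq_bot_iff, ← hU'.level]
    exact Ideal.pow_le_pow_right hmn
  obtain ⟨f, hf1, hf2⟩ := hU.exists_hom H hU'.pair hB
  exact ⟨f, hf1, hf2 π' hU'.coord⟩

theorem IsUnivLevel.proj_comp [Finite (ResidueField 𝒪)]
    (hU : IsUnivLevel D 𝒟 C ϖ n A r π) {m : ℕ} {B : Type} [CommRing B]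
    [IsLocalRing B] [Algebra 𝒪 B] {s : GQ →* M2 B} {π' : C.PS →ₐ[𝒪] B}
    (hU' : IsUnivLevel D 𝒟 C ϖ m B s π') (f : A →ₐ[𝒪] B) (hf : f.comp π = π') :
    f.comp hU.proj = hU'.proj := by
  apply AlgHom.coe_ringHom_injective
  apply Ideal.Quotient.ringHom_ext
  ext p
  show f (π p) = π' p
  rw [← hf]; rfl

theorem pos_of_isUnivLevel (hU : IsUnivLevel D 𝒟 C ϖ n A r π) : 1 ≤ n := by
  rcases Nat.eq_zero_or_pos n with rfl | h
  · exfalso
    have h1 := hU.level
    rw [pow_zero, Ideal.one_eq_top] at h1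
    exact top_ne_bot h1
  · exact h

/-- An element of the limit ring vanishing in all universal pairs vanishes. -/
theorem eq_zero_of_forall_proj [IsNoetherianRing 𝒪] [Finite (ResidueField 𝒪)]
    (H : LevelHyp D 𝒟 C ϖ) (z : LimRing D 𝒟 C ϖ)
    (hz : ∀ (n : ℕ) (A : Type) [CommRing A] [IsLocalRing A] [Algebra 𝒪 A] (r : GQ →* M2 A)
      (π : C.PS →ₐ[𝒪] A) (hU : IsUnivLevel D 𝒟 C ϖ n A r π), hU.proj z = 0) : z = 0 := by
  obtain ⟨p, rfl⟩ := Ideal.Quotient.mk_surjective z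
  rw [Ideal.Quotient.eq_zero_iff_mem, Ideal.mem_iInf]
  intro n
  have h1 : p ∈ levelIdeal D 𝒟 C ϖ (n + 1) := by
    obtain ⟨A, _, _, _, r, π, hU⟩ := exists_isUnivLevel H (Nat.le_add_left 1 n)
    exact (hU.proj_eq_zero_iff p).mp (hz _ A r π hU)
  exact levelIdeal_anti (Nat.le_succ n) h1

end Limit

/-! ### The universal matrix representation over the limit ring -/

section Ru

variable {𝒪 : Type} [CommRing 𝒪] [IsLocalRing 𝒪] {ρbar : ResidualGaloisRep (ResidueField 𝒪)}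
  {D : SliceData 𝒪 ρbar}
  {𝒟 : ∀ ⦃A : Type⦄ [CommRing A] [IsLocalRing A] [Algebra 𝒪 A], GaloisRepAdic A → Prop}
  {C : Coords D} {ϖ : 𝒪}

theorem levelIdeal_zero : levelIdeal D 𝒟 C ϖ 0 = ⊤ := by
  have h : levelSet D 𝒟 C ϖ 0 = ∅ := by
    rw [Set.eq_empty_iff_forall_notMem]
    rintro J ⟨A, _, _, _, r, φ, hr, hn, -, -⟩
    rw [pow_zero, Ideal.one_eq_top] at hn
    exact top_ne_bot hn
  rw [levelIdeal, h, sInf_empty]

/-- Matrices over the limit ring are determined by their images in all universal pairs. -/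
theorem matrix_ext_of_forall_proj [IsNoetherianRing 𝒪] [Finite (ResidueField 𝒪)]
    (H : LevelHyp D 𝒟 C ϖ) (M N : M2 (LimRing D 𝒟 C ϖ))
    (h : ∀ (n : ℕ) (A : Type) [CommRing A] [IsLocalRing A] [Algebra 𝒪 A] (r : GQ →* M2 A)
      (π : C.PS →ₐ[𝒪] A) (hU : IsUnivLevel D 𝒟 C ϖ n A r π),
      (hU.proj : LimRing D 𝒟 C ϖ →+* A).mapMatrix M = (hU.proj : LimRing D 𝒟 C ϖ →+* A).mapMatrix N) :
    M = N := by
  ext i j
  rw [← sub_eq_zero]
  refine eq_zero_of_forall_proj H _ fun n A _ _ _ r π hU => ?_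
  have h1 := congrFun (congrFun (h n A r π hU) i) j
  simp only [RingHom.mapMatrix_apply, Matrix.map_apply] at h1
  rw [map_sub, sub_eq_zero]
  exact h1

/-- Existence of the universal matrix representation over the limit ring. -/
theorem exists_ru [IsNoetherianRing 𝒪] [Finite (ResidueField 𝒪)] (H : LevelHyp D 𝒟 C ϖ) :
    ∃ ru : GQ →* M2 (LimRing D 𝒟 C ϖ), ∀ (n : ℕ) (A : Type) [CommRing A] [IsLocalRing A]
      [Algebra 𝒪 A] (r : GQ →* M2 A) (π : C.PS →ₐ[𝒪] A) (hU : IsUnivLevel D 𝒟 C ϖ n A r π),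
      mapMat (hU.proj : LimRing D 𝒟 C ϖ →+* A) ru = r := by
  have hc := isIdealChain_levelIdeal H
  -- a universal pair of each level `k + 1`
  choose A instCR instLR instAlg r π hU using
    fun k : ℕ => exists_isUnivLevel H (Nat.le_add_left 1 k)
  -- lifts of the entries to the power series ring
  choose p hp using fun (k : ℕ) (σ : GQ) (i j : Fin 2) => (hU k).surj (r k σ i j)
  -- transition
  have htrans : ∀ (k : ℕ) (σ : GQ) (i j : Fin 2), π k (p (k + 1) σ i j) = r k σ i j := by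
    intro k σ i j
    obtain ⟨f, hf1, hf2⟩ := (hU (k + 1)).exists_hom_univ H (Nat.le_succ (k + 1)) (hU k)
    rw [← hf2, AlgHom.comp_apply, hp, ← hf1, mapMat_apply]
    rfl
  -- the compatible families
  let q : GQ → Fin 2 → Fin 2 → ℕ → C.PS := fun σ i j n => Nat.casesOn n 0 (fun k => p k σ i j)
  have hq : ∀ σ i j n, q σ i j (n + 1) - q σ i j n ∈ levelIdeal D 𝒟 C ϖ n := by
    intro σ i j n
    cases n with
    | zero => rw [levelIdeal_zero]; exact Submodule.mem_top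
    | succ k =>
      show p (k + 1) σ i j - p k σ i j ∈ _
      rw [← (hU k).ker, RingHom.mem_ker]
      show π k (p (k + 1) σ i j - p k σ i j) = 0
      rw [map_sub, htrans, hp, sub_self]
  have hcompat : ∀ σ i j n, Ideal.Quotient.factor (hc.anti (Nat.le_succ n))
      (Ideal.Quotient.mk (levelIdeal D 𝒟 C ϖ (n + 1)) (q σ i j (n + 1))) =
      Ideal.Quotient.mk (levelIdeal D 𝒟 C ϖ n) (q σ i j n) := by
    intro σ i j n
    rw [Ideal.Quotient.factor_mk, Ideal.Quotient.eq]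
    exact hq σ i j n
  choose y hy using fun σ i j => (hc.existsUnique_of_compatible
    (fun n => Ideal.Quotient.mk (levelIdeal D 𝒟 C ϖ n) (q σ i j n)) (hcompat σ i j)).exists
  -- images in the chosen universal pairs
  have hyk : ∀ (k : ℕ) (σ : GQ) (i j : Fin 2), (hU k).proj (y σ i j) = r k σ i j := by
    intro k σ i j
    obtain ⟨p', hp'⟩ := Ideal.Quotient.mk_surjective (y σ i j)
    have h1 := hy σ i j (k + 1)
    rw [← hp', Ideal.Quotient.factor_mk, Ideal.Quotient.eq, ← (hU k).ker, RingHom.mem_ker] at h1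
    have h2 : π k (p' - p k σ i j) = 0 := h1
    rw [map_sub, hp, sub_eq_zero] at h2
    rw [← hp', IsUnivLevel.proj_mk, h2]
  -- images in arbitrary universal pairs
  have hyU : ∀ (n : ℕ) (B : Type) [CommRing B] [IsLocalRing B] [Algebra 𝒪 B] (s : GQ →* M2 B)
      (π' : C.PS →ₐ[𝒪] B) (hU' : IsUnivLevel D 𝒟 C ϖ n B s π') (σ : GQ),
      (hU'.proj : LimRing D 𝒟 C ϖ →+* B).mapMatrix (Matrix.of (y σ)) = s σ := by
    intro n B _ _ _ s π' hU' σ
    obtain ⟨k, rfl⟩ : ∃ k, n = k + 1 := ⟨n - 1, (Nat.sub_add_cancel (pos_of_isUnivLevel hU')).symm⟩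
    obtain ⟨f, hf1, hf2⟩ := (hU k).exists_hom_univ H le_rfl hU'
    have hf3 := (hU k).proj_comp hU' f hf2
    ext i j
    rw [RingHom.mapMatrix_apply, Matrix.map_apply, Matrix.of_apply]
    show hU'.proj (y σ i j) = _
    rw [← hf3, AlgHom.comp_apply, hyk, ← hf1, mapMat_apply]
    rfl
  refine ⟨{ toFun := fun σ => Matrix.of (y σ), map_one' := ?_, map_mul' := ?_ }, ?_⟩
  · refine matrix_ext_of_forall_proj H _ _ fun n B _ _ _ s π' hU' => ?_
    rw [hyU n B s π' hU', map_one, map_one]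
  · intro σ τ
    refine matrix_ext_of_forall_proj H _ _ fun n B _ _ _ s π' hU' => ?_
    rw [hyU n B s π' hU', map_mul, map_mul, hyU n B s π' hU', hyU n B s π' hU']
  · intro n B _ _ _ s π' hU'
    ext σ i j
    have := congrFun (congrFun (hyU n B s π' hU' σ) i) j
    rw [mapMat_apply]
    simpa using this

variable [IsNoetherianRing 𝒪] [Finite (ResidueField 𝒪)]

/-- The universal matrix representation over the limit ring. -/
def ru (H : LevelHyp D 𝒟 C ϖ) : GQ →* M2 (LimRing D 𝒟 C ϖ) := (exists_ru H).choose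

theorem mapMat_proj_ru (H : LevelHyp D 𝒟 C ϖ) {n : ℕ} {A : Type} [CommRing A] [IsLocalRing A]
    [Algebra 𝒪 A] {r : GQ →* M2 A} {π : C.PS →ₐ[𝒪] A} (hU : IsUnivLevel D 𝒟 C ϖ n A r π) :
    mapMat (hU.proj : LimRing D 𝒟 C ϖ →+* A) (ru H) = r :=
  (exists_ru H).choose_spec n A r π hU

theorem proj_ru_apply (H : LevelHyp D 𝒟 C ϖ) {n : ℕ} {A : Type} [CommRing A] [IsLocalRing A]
    [Algebra 𝒪 A] {r : GQ →* M2 A} {π : C.PS →ₐ[𝒪] A} (hU : IsUnivLevel D 𝒟 C ϖ n A r π)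
    (σ : GQ) (i j : Fin 2) : hU.proj (ru H σ i j) = r σ i j := by
  have h := congrFun (congrFun (congrArg (fun t : GQ →* M2 A => t σ) (mapMat_proj_ru H hU)) i) j
  rw [← h]
  show _ = mapMat (hU.proj : LimRing D 𝒟 C ϖ →+* A) (ru H) σ i j
  rw [mapMat_apply]
  rfl

/-- The limit ring is local. -/
theorem isLocalRing_limRing (H : LevelHyp D 𝒟 C ϖ) : IsLocalRing (LimRing D 𝒟 C ϖ) :=
  (isIdealChain_levelIdeal H).isLocalRing_quotient

theorem ker_proj_eq_maximalIdeal_pow (H : LevelHyp D 𝒟 C ϖ) {n : ℕ} {A : Type} [CommRing A]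
    [IsLocalRing A] [Algebra 𝒪 A] {r : GQ →* M2 A} {π : C.PS →ₐ[𝒪] A}
    (hU : IsUnivLevel D 𝒟 C ϖ n A r π) :
    haveI := isLocalRing_limRing H
    RingHom.ker (hU.proj : LimRing D 𝒟 C ϖ →+* A) = maximalIdeal (LimRing D 𝒟 C ϖ) ^ n := by
  rw [hU.ker_proj]
  exact (isIdealChain_levelIdeal H).map_mk_eq_maximalIdeal_pow n

/-- Continuity of the universal matrix representation. -/
theorem matCont_ru (H : LevelHyp D 𝒟 C ϖ) :
    haveI := isLocalRing_limRing H
    MatCont (ru H) := by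
  haveI := isLocalRing_limRing H
  intro n
  obtain ⟨A, _, _, _, r, π, hU⟩ := exists_isUnivLevel H (Nat.le_add_left 1 n)
  obtain ⟨L, hL, h⟩ := hU.pair.cont (n + 1)
  refine ⟨L, hL, fun σ hσ i j => ?_⟩
  have h1 := h σ hσ i j
  rw [hU.level, Ideal.mem_bot] at h1
  have h2 : (ru H σ - 1) i j ∈ RingHom.ker (hU.proj : LimRing D 𝒟 C ϖ →+* A) := by
    rw [RingHom.mem_ker]
    show hU.proj ((ru H σ - 1) i j) = 0
    rw [Matrix.sub_apply, map_sub, proj_ru_apply]
    rw [Matrix.sub_apply] at h1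
    rw [← h1]
    congr 1
    rw [Matrix.one_apply, Matrix.one_apply]
    split_ifs <;> simp
  rw [ker_proj_eq_maximalIdeal_pow H hU] at h2
  exact Ideal.pow_le_pow_right (Nat.le_succ n) h2

/-- The universal matrix representation is normalized. -/
theorem isNormalized_ru (H : LevelHyp D 𝒟 C ϖ) :
    haveI := isLocalRing_limRing H
    IsNormalized D (ru H) := by
  haveI := isLocalRing_limRing H
  refine ⟨fun σ i j a ha => ?_, ?_, ?_, ?_⟩
  · obtain ⟨A, _, _, _, r, π, hU⟩ := exists_isUnivLevel H (le_refl 1)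
    have h1 := hU.pair.norm.1 σ i j a ha
    apply mem_maximalIdeal_of_map_mem (hU.proj : LimRing D 𝒟 C ϖ →+* A)
    show hU.proj (ru H σ i j - algebraMap 𝒪 _ a) ∈ _
    rw [map_sub, proj_ru_apply, AlgHom.commutes]
    exact h1
  · refine eq_zero_of_forall_proj H _ fun n A _ _ _ r π hU => ?_
    rw [proj_ru_apply]
    exact hU.pair.norm.2.1
  · rw [← sub_eq_zero]
    refine eq_zero_of_forall_proj H _ fun n A _ _ _ r π hU => ?_
    rw [map_sub, proj_ru_apply, map_one, sub_eq_zero]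
    exact hU.pair.norm.2.2.1
  · rw [← sub_eq_zero]
    refine eq_zero_of_forall_proj H _ fun n A _ _ _ r π hU => ?_
    rw [map_sub, proj_ru_apply, AlgHom.commutes, sub_eq_zero]
    exact hU.pair.norm.2.2.2

/-- The coordinates of the universal matrix representation are the images of the variables. -/
theorem u_ru (H : LevelHyp D 𝒟 C ϖ) (i : Fin (C.d + 1)) :
    C.u ϖ (ru H) i = Ideal.Quotient.mk _ (X i) := by
  rw [← sub_eq_zero]
  refine eq_zero_of_forall_proj H _ fun n A _ _ _ r π hU => ?_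
  rw [map_sub, sub_eq_zero, ← Coords.u_mapMat, mapMat_proj_ru H hU, IsUnivLevel.proj_mk, hU.coord]

/-- Every pair is the push-forward of the universal matrix representation along a unique
algebra homomorphism. -/
theorem existsUnique_algHom_of_isPair (H : LevelHyp D 𝒟 C ϖ) (B : Type) [CommRing B]
    [IsLocalRing B] [Algebra 𝒪 B] (s : GQ →* M2 B) (hs : IsPair D 𝒟 B s) :
    ∃! f : LimRing D 𝒟 C ϖ →ₐ[𝒪] B, mapMat (f : LimRing D 𝒟 C ϖ →+* B) (ru H) = s := by
  obtain ⟨n, hn⟩ := test_exists_pow_eq_bot hs.test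
  have hn1 : maximalIdeal B ^ (n + 1) = ⊥ := by
    rw [eq_bot_iff, ← hn]
    exact Ideal.pow_le_pow_right (Nat.le_succ n)
  obtain ⟨A, _, _, _, r, π, hU⟩ := exists_isUnivLevel H (Nat.le_add_left 1 n)
  obtain ⟨f, hf, -⟩ := hU.exists_hom H hs hn1
  refine ⟨f.comp hU.proj, ?_, fun F' hF' => ?_⟩
  · show mapMat ((f : A →+* B).comp (hU.proj : LimRing D 𝒟 C ϖ →+* A)) (ru H) = s
    rw [← mapMat_mapMat, mapMat_proj_ru H hU, hf]
  · have key : ∀ F : LimRing D 𝒟 C ϖ →ₐ[𝒪] B, mapMat (F : LimRing D 𝒟 C ϖ →+* B) (ru H) = s →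
        ∀ i, (F.comp (Ideal.Quotient.mkₐ 𝒪 _)) (X i) = C.u ϖ s i := by
      intro F hF i
      show F (Ideal.Quotient.mk _ (X i)) = _
      rw [← u_ru H i, ← Coords.u_mapMat, hF]
    have h1 : F'.comp (Ideal.Quotient.mkₐ 𝒪 _) = (f.comp hU.proj).comp (Ideal.Quotient.mkₐ 𝒪 _) := by
      refine algHom_ext_of_X _ _ (n + 1) hn1 (fun i => ?_) (fun i => ?_)
      · rw [key F' hF' i]; exact hs.lv_u_mem H i
      · rw [key F' hF' i, key (f.comp hU.proj) (by
          show mapMat ((f : A →+* B).comp (hU.proj : LimRing D 𝒟 C ϖ →+* A)) (ru H) = s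
          rw [← mapMat_mapMat, mapMat_proj_ru H hU, hf]) i]
    ext x
    obtain ⟨p, rfl⟩ := Ideal.Quotient.mk_surjective x
    exact congrArg (fun g : C.PS →ₐ[𝒪] B => g p) h1

end Ru

end Fermat.Agent.S53.Lv
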