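/-
T-S53 (helper21): transfer of the deformation condition from a "level pair" to the reduction of
the universal lift modulo `m_R ^ (n+1)` (the hypothesis `hlevel` of `Assembly.lean`).
All names carry the prefix `lvt_`.
-/
import Mathlib
import Fermat.Agent.S53.Defs
import Fermat.Agent.S53.MatrixModel
import Fermat.Agent.S53.Pairs
import Fermat.Agent.S53.CompleteQuot

set_option autoImplicit false
set_option linter.unusedSectionVars false

namespace Fermat.Agent.S53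

open IsLocalRing GaloisRep MatrixModel

variable {𝒪 : Type} [CommRing 𝒪] [IsLocalRing 𝒪]
  {ρbar : ResidualGaloisRep (ResidueField 𝒪)} {D : SliceData 𝒪 ρbar}
  {𝒟 : ∀ ⦃A : Type⦄ [CommRing A] [IsLocalRing A] [Algebra 𝒪 A], GaloisRepAdic A → Prop}

/-- The deformation condition only depends on the matrix representation. -/
theorem lvt_type_of_eq {A : Type} [CommRing A] [IsLocalRing A] [Algebra 𝒪 A]
    {r r' : GQ →* M2 A} (h : MatCont r) (h' : MatCont r') (e : r = r')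
    (ht : 𝒟 (ofMatrix r h)) : 𝒟 (ofMatrix r' h') := by
  subst e
  exact ht

/-- A surjection `q : R → B` whose kernel lies in `m_R ^ (n+1)` induces `B → R ⧸ m_R ^ (n+1)`. -/
theorem lvt_exists_factor {R : Type} [CommRing R] [IsLocalRing R] [Algebra 𝒪 R]
    {B : Type} [CommRing B] [Algebra 𝒪 B] (n : ℕ) (q : R →ₐ[𝒪] B)
    (hq : Function.Surjective q)
    (hker : ∀ x : R, q x = 0 → x ∈ maximalIdeal R ^ (n + 1)) :
    ∃ g : B →ₐ[𝒪] QuotPow R n, g.comp q = quotPowMk (𝒪 := 𝒪) R n := by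
  have hker' : RingHom.ker q ≤ maximalIdeal R ^ (n + 1) := fun x hx =>
    hker x ((RingHom.mem_ker).mp hx)
  let e : (R ⧸ RingHom.ker q) ≃ₐ[𝒪] B := Ideal.quotientKerAlgEquivOfSurjective hq
  let g0 : (R ⧸ RingHom.ker q) →ₐ[𝒪] QuotPow R n := Ideal.Quotient.factorₐ 𝒪 hker'
  refine ⟨g0.comp (e.symm : B →ₐ[𝒪] (R ⧸ RingHom.ker q)), AlgHom.ext fun x => ?_⟩
  have h1 : e.symm (q x) = Ideal.Quotient.mk _ x := by
    apply e.injective
    rw [AlgEquiv.apply_symm_apply]
    rfl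
  show g0 (e.symm (q x)) = _
  rw [h1]
  rfl

/-- **Level transfer.** If the reduction of `ru` along a surjection `q : R → B` with kernel inside
`m_R ^ (n+1)` is a pair, then the reduction of `ru` modulo `m_R ^ (n+1)` is of type `𝒟`. -/
theorem lvt_type_quotPow_of_pair (h𝒟 : IsDeformationCondition 𝒪 𝒟)
    {R : Type} [CommRing R] [IsLocalRing R] [IsNoetherianRing R] [Algebra 𝒪 R]
    (hloc : IsLocalHom (algebraMap 𝒪 R))
    (hsurj : Function.Surjective (residue R ∘ algebraMap 𝒪 R))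
    (ru : GQ →* M2 R) (hcont : MatCont ru) (n : ℕ)
    {B : Type} [CommRing B] [IsLocalRing B] [Algebra 𝒪 B] (q : R →ₐ[𝒪] B)
    (hq : Function.Surjective q)
    (hker : ∀ x : R, q x = 0 → x ∈ maximalIdeal R ^ (n + 1))
    (hp : IsPair D 𝒟 B (mapMat (q : R →+* B) ru)) :
    𝒟 (ofMatrix
      (mapMat ((quotPowMk (𝒪 := 𝒪) R n : R →ₐ[𝒪] QuotPow R n) : R →+* QuotPow R n) ru)
      (matCont_mapMat hcont _ (isLocalHom_quotPowMk (𝒪 := 𝒪) R n))) := by
  obtain ⟨g, hg⟩ := lvt_exists_factor (𝒪 := 𝒪) n q hq hker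
  have hQ := isArtinianTestAlgebra_quotPow (𝒪 := 𝒪) R hloc hsurj n
  have hp' := IsPair.map h𝒟 hp hQ g
  refine lvt_type_of_eq hp'.cont _ ?_ hp'.type
  rw [mapMat_mapMat]
  congr 1
  rw [← hg]
  rfl

/-- The same, for all levels at once, in the form needed by `asm_deformationRingData`. -/
theorem lvt_hlevel (h𝒟 : IsDeformationCondition 𝒪 𝒟)
    {R : Type} [CommRing R] [IsLocalRing R] [IsNoetherianRing R] [Algebra 𝒪 R]
    (hloc : IsLocalHom (algebraMap 𝒪 R))
    (hsurj : Function.Surjective (residue R ∘ algebraMap 𝒪 R))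
    (ru : GQ →* M2 R) (hcont : MatCont ru)
    (hlev : ∀ n : ℕ, ∃ (B : Type) (_ : CommRing B) (_ : IsLocalRing B) (_ : Algebra 𝒪 B)
      (q : R →ₐ[𝒪] B), Function.Surjective q ∧
        (∀ x : R, q x = 0 → x ∈ maximalIdeal R ^ (n + 1)) ∧
        IsPair D 𝒟 B (mapMat (q : R →+* B) ru)) (n : ℕ) :
    𝒟 (ofMatrix
      (mapMat ((quotPowMk (𝒪 := 𝒪) R n : R →ₐ[𝒪] QuotPow R n) : R →+* QuotPow R n) ru)
      (matCont_mapMat hcont _ (isLocalHom_quotPowMk (𝒪 := 𝒪) R n))) := by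
  obtain ⟨B, _, _, _, q, hq, hker, hp⟩ := hlev n
  exact lvt_type_quotPow_of_pair h𝒟 hloc hsurj ru hcont n q hq hker hp

end Fermat.Agent.S53
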