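import Mathlib
import Fermat.Agent.S53.Levels
import Fermat.Agent.S53.LevelType

/-!
# S53 (E)(d): the limit representation is of type `𝒟` at all finite levels (helper24)

Against the interface of `Levels.lean` (helper20): given `ru` over the limit ring `LimRing` whose
reduction to every universal pair `(A, r)` of finite level is `r`, the reduction of `ru` modulo
`m_R ^ (n+1)` is of type `𝒟` (the hypothesis `hlevel` of `asm_deformationRingData`), via
`lvt_type_quotPow_of_pair` (helper21).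
-/

set_option autoImplicit false
set_option linter.unusedSectionVars false
set_option linter.style.haveILetI false

namespace Fermat.Agent.S53.Lv2

open IsLocalRing GaloisRep MatrixModel MvPowerSeries Fermat.Agent.S53.Lv

variable {𝒪 : Type} [CommRing 𝒪] [IsLocalRing 𝒪] {ρbar : ResidualGaloisRep (ResidueField 𝒪)}
  {D : SliceData 𝒪 ρbar}
  {𝒟 : ∀ ⦃A : Type⦄ [CommRing A] [IsLocalRing A] [Algebra 𝒪 A], GaloisRepAdic A → Prop}
  {C : Coords D} {ϖ : 𝒪}

/-- The kernel of the projection to a universal pair of level `n` is `m_R ^ n`. -/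
theorem ker_proj_eq_pow [IsNoetherianRing 𝒪] [Finite (ResidueField 𝒪)]
    (H : LevelHyp D 𝒟 C ϖ) {n : ℕ} {A : Type} [CommRing A] [IsLocalRing A] [Algebra 𝒪 A]
    {r : GQ →* M2 A} {π : C.PS →ₐ[𝒪] A} (hU : IsUnivLevel D 𝒟 C ϖ n A r π) :
    haveI := (isIdealChain_levelIdeal H).isLocalRing_quotient
    RingHom.ker (hU.proj : LimRing D 𝒟 C ϖ →+* A) = maximalIdeal (LimRing D 𝒟 C ϖ) ^ n := by
  haveI := (isIdealChain_levelIdeal H).isLocalRing_quotient
  rw [hU.ker_proj, (isIdealChain_levelIdeal H).map_mk_eq_maximalIdeal_pow n]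

/-- **(d)** The reductions of `ru` modulo `m_R ^ (n+1)` are of type `𝒟`. -/
theorem hlevel [IsNoetherianRing 𝒪] [Finite (ResidueField 𝒪)]
    (H : LevelHyp D 𝒟 C ϖ) (ru : GQ →* M2 (LimRing D 𝒟 C ϖ))
    (hru : ∀ (n : ℕ) (A : Type) [CommRing A] [IsLocalRing A] [Algebra 𝒪 A] (r : GQ →* M2 A)
      (π : C.PS →ₐ[𝒪] A) (hU : IsUnivLevel D 𝒟 C ϖ n A r π),
      mapMat (hU.proj : LimRing D 𝒟 C ϖ →+* A) ru = r) :
    haveI := (isIdealChain_levelIdeal H).isLocalRing_quotient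
    ∀ (hcont : MatCont ru) (n : ℕ), 𝒟 (ofMatrix
      (mapMat ((quotPowMk (𝒪 := 𝒪) (LimRing D 𝒟 C ϖ) n :
        LimRing D 𝒟 C ϖ →ₐ[𝒪] QuotPow (LimRing D 𝒟 C ϖ) n) :
        LimRing D 𝒟 C ϖ →+* QuotPow (LimRing D 𝒟 C ϖ) n) ru)
      (matCont_mapMat hcont _ (isLocalHom_quotPowMk (𝒪 := 𝒪) (LimRing D 𝒟 C ϖ) n))) := by
  haveI := (isIdealChain_levelIdeal H).isLocalRing_quotient
  intro hcont n
  have hc := isIdealChain_levelIdeal H
  obtain ⟨A, _, _, _, r, π, hU⟩ := exists_isUnivLevel H (Nat.le_add_left 1 n)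
  have hker : ∀ x : LimRing D 𝒟 C ϖ, hU.proj x = 0 →
      x ∈ maximalIdeal (LimRing D 𝒟 C ϖ) ^ (n + 1) := by
    intro x hx
    rw [← ker_proj_eq_pow H hU]
    exact (RingHom.mem_ker).mpr hx
  have hp : IsPair D 𝒟 A (mapMat (hU.proj : LimRing D 𝒟 C ϖ →+* A) ru) := by
    rw [hru (n + 1) A r π hU]
    exact hU.pair
  exact lvt_type_quotPow_of_pair H.cond hc.isLocalHom_algebraMap_quotient
    hc.residue_surjective_quotient ru hcont n hU.proj hU.proj_surjective hker hp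

end Fermat.Agent.S53.Lv2
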