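/-
T-S53 (B2, corollaries) (helper21): the slice lemma in terms of `GaloisRepAdic.IsEquiv`.
-/
import Fermat.Agent.S53.Slice
import Fermat.Agent.S53.MatrixModel

set_option autoImplicit false

namespace Fermat.Agent.S53

open IsLocalRing Matrix

section

variable {𝒪 : Type} [CommRing 𝒪] [IsLocalRing 𝒪]
variable {ρbar : ResidualGaloisRep (ResidueField 𝒪)}

/-- Two normalised lifts whose attached Galois representations are equivalent are equal. -/
theorem eq_of_isEquiv_of_isNormalized (D : SliceData 𝒪 ρbar) {A : Type} [CommRing A]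
    [IsLocalRing A] [Algebra 𝒪 A] [IsLocalHom (algebraMap 𝒪 A)]
    (hsurj : Function.Surjective (residue A ∘ algebraMap 𝒪 A))
    {r r' : GQ →* M2 A} (hr : MatCont r) (hr' : MatCont r')
    (hn : IsNormalized D r) (hn' : IsNormalized D r')
    (he : (ofMatrix r hr).IsEquiv (ofMatrix r' hr')) : r = r' := by
  obtain ⟨g, hg, hconj⟩ := (MatrixModel.ofMatrix_isEquiv_iff hr hr').mp he
  exact (normalized_unique' D hsurj hn hn' g hg hconj).1

/-- Conjugating a matrix representation does not change the equivalence class. -/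
theorem isEquiv_ofMatrix_conjHomGQ {A : Type} [CommRing A] [IsLocalRing A] (u : (M2 A)ˣ)
    {r : GQ →* M2 A} (hr : MatCont r) :
    (ofMatrix r hr).IsEquiv (ofMatrix (Slice.conjHomGQ u r) (Slice.matCont_conjHomGQ u hr)) := by
  refine (MatrixModel.ofMatrix_isEquiv_iff hr _).mpr
    ⟨((u⁻¹ : (M2 A)ˣ) : M2 A), (u⁻¹).isUnit, fun σ => ?_⟩
  rw [Slice.conjHomGQ_apply, mul_assoc, mul_assoc, Units.mul_inv, mul_one]

/-- Over a complete local `𝒪`-algebra, every continuous strict lift is equivalent to a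
normalised one. -/
theorem exists_normalized_isEquiv (D : SliceData 𝒪 ρbar) {A : Type} [CommRing A] [IsLocalRing A]
    [Algebra 𝒪 A] [IsLocalHom (algebraMap 𝒪 A)] [IsAdicComplete (maximalIdeal A) A]
    {r : GQ →* M2 A} (hr : MatCont r) (hs : IsStrictLift D.rbar r) :
    ∃ (r' : GQ →* M2 A) (hr' : MatCont r'), IsNormalized D r' ∧
      (ofMatrix r hr).IsEquiv (ofMatrix r' hr') := by
  obtain ⟨u, -, hn⟩ := exists_normalized D hs
  exact ⟨Slice.conjHomGQ u r, Slice.matCont_conjHomGQ u hr, hn, isEquiv_ofMatrix_conjHomGQ u hr⟩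

end

end Fermat.Agent.S53
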