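import Mathlib
import Fermat.Agent.S53.SliceEquiv
import Fermat.Agent.S53.TypeLevels
import Fermat.Agent.S53.MatrixRes

/-!
# The universal property from level-wise universality (S53, part of (E))

Suppose `(R, ru)` is a local `𝒪`-algebra with a normalized continuous matrix representation such
that every pair `(B, s)` receives a unique `𝒪`-algebra map `f : R → B` with `mapMat f ru = s`.
Then `ofMatrix ru` satisfies the universal property required in `DeformationRingData`
for all complete Noetherian local `𝒪`-algebras.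
-/

set_option autoImplicit false

namespace Fermat.Agent.S53

open IsLocalRing GaloisRep MatrixModel

variable {𝒪 : Type} [CommRing 𝒪] [IsLocalRing 𝒪]

omit [IsLocalRing 𝒪] in
/-- Every `𝒪`-algebra homomorphism into a local `𝒪`-algebra `A` whose residue field is generated
by `𝒪` (and whose structure map is local) is a local homomorphism. -/
theorem up_isLocalHom_of_algHom {R A : Type} [CommRing R] [IsLocalRing R] [Algebra 𝒪 R]
    [CommRing A] [IsLocalRing A] [Algebra 𝒪 A] (hloc : IsLocalHom (algebraMap 𝒪 A))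
    (hsurj : Function.Surjective (IsLocalRing.residue A ∘ algebraMap 𝒪 A)) (φ : R →ₐ[𝒪] A) :
    IsLocalHom (φ : R →+* A) := by
  constructor
  intro x hx
  by_contra hxu
  have hxm : x ∈ maximalIdeal R := (mem_maximalIdeal x).mpr hxu
  obtain ⟨c, hc⟩ := hsurj (residue A (φ x))
  simp only [Function.comp_apply] at hc
  have hcu : IsUnit c := by
    by_contra hcn
    have h1 : algebraMap 𝒪 A c ∈ maximalIdeal A := by
      rw [mem_maximalIdeal]
      intro hu
      exact hcn (hloc.map_nonunit c hu)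
    have h2 : residue A (φ x) = 0 := by
      rw [← hc]; exact (residue_eq_zero_iff _).mpr h1
    have h3 : φ x ∈ maximalIdeal A := (residue_eq_zero_iff _).mp h2
    exact (mem_maximalIdeal _).mp h3 hx
  have hcR : IsUnit (algebraMap 𝒪 R c) := hcu.map (algebraMap 𝒪 R)
  have hdiff : IsUnit (x - algebraMap 𝒪 R c) := by
    by_contra hnu
    have h1 : x - algebraMap 𝒪 R c ∈ maximalIdeal R := (mem_maximalIdeal _).mpr hnu
    have h2 : algebraMap 𝒪 R c ∈ maximalIdeal R := by
      have := (maximalIdeal R).sub_mem hxm h1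
      simpa using this
    exact (mem_maximalIdeal _).mp h2 hcR
  have himg : IsUnit ((φ : R →+* A) (x - algebraMap 𝒪 R c)) := hdiff.map (φ : R →+* A)
  have hmem : (φ : R →+* A) (x - algebraMap 𝒪 R c) ∈ maximalIdeal A := by
    rw [← residue_eq_zero_iff, map_sub, map_sub]
    have : (φ : R →+* A) (algebraMap 𝒪 R c) = algebraMap 𝒪 A c := φ.commutes c
    rw [this, hc]
    exact sub_self _
  exact (mem_maximalIdeal _).mp hmem himg

/-- Separatedness: elements agreeing modulo all powers of the maximal ideal are equal. -/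
theorem up_eq_of_forall_quotPow_mk_eq {A : Type} [CommRing A] [IsLocalRing A]
    [IsHausdorff (maximalIdeal A) A] {a b : A}
    (h : ∀ n : ℕ, Ideal.Quotient.mk (maximalIdeal A ^ (n + 1)) a =
      Ideal.Quotient.mk (maximalIdeal A ^ (n + 1)) b) : a = b := by
  rw [← sub_eq_zero]
  apply IsHausdorff.haus' (I := maximalIdeal A)
  intro n
  rw [SModEq.zero, smul_eq_mul, Ideal.mul_top]
  have h1 : a - b ∈ maximalIdeal A ^ (n + 1) := Ideal.Quotient.eq.mp (h n)
  exact Ideal.pow_le_pow_right (Nat.le_succ n) h1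

variable {ρbar : ResidualGaloisRep (ResidueField 𝒪)}
  {𝒟 : ∀ ⦃A : Type⦄ [CommRing A] [IsLocalRing A] [Algebra 𝒪 A], GaloisRepAdic A → Prop}

/-- **Universal property from level-wise universality.** -/
theorem universal_of_pairs (D : SliceData 𝒪 ρbar) (h𝒟 : IsDeformationCondition 𝒪 𝒟)
    {R : Type} [CommRing R] [IsLocalRing R] [Algebra 𝒪 R]
    (ru : GQ →* M2 R) (hcont : MatCont ru) (hnorm : IsNormalized D ru)
    (hpairs : ∀ (B : Type) [CommRing B] [IsLocalRing B] [Algebra 𝒪 B] (s : GQ →* M2 B),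
      IsPair D 𝒟 B s → ∃! f : R →ₐ[𝒪] B, mapMat (f : R →+* B) ru = s) :
    ∀ (A : Type) [CommRing A] [IsLocalRing A] [IsNoetherianRing A]
      [IsAdicComplete (IsLocalRing.maximalIdeal A) A] [Algebra 𝒪 A]
      [IsLocalHom (algebraMap 𝒪 A)],
      Function.Surjective (IsLocalRing.residue A ∘ algebraMap 𝒪 A) →
      ∀ ρA : GaloisRepAdic A, 𝒟 ρA →
        ρA.residual.IsEquiv
          (ρbar.baseChangeAlong (IsLocalRing.ResidueField.map (algebraMap 𝒪 A))) →
        ∃! φ : R →ₐ[𝒪] A, ∃ hφ : IsLocalHom (φ : R →+* A),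
          ((ofMatrix ru hcont).baseChangeAlong (φ : R →+* A) hφ).IsEquiv ρA := by
  intro A _ _ _ _ _ hloc hsurj ρA hρA hres
  obtain ⟨r₀, hr₀, hs₀, ⟨e₀⟩⟩ := exists_strictLift D ρA hres
  obtain ⟨rA, hrA, hnA, ⟨eA⟩⟩ := exists_normalized_isEquiv D hr₀ hs₀
  have hρA_eq : GaloisRepAdic.Equiv ρA (ofMatrix rA hrA) := e₀.trans eA
  have htypeA : 𝒟 (ofMatrix rA hrA) :=
    type_of_isEquiv_complete h𝒟 hloc hsurj ⟨hρA_eq⟩ hρA
  -- the level maps
  have hpairA := fun n => isPair_quotPow D h𝒟 hloc hsurj rA hrA hnA htypeA n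
  have hex := fun n => hpairs (QuotPow A n) _ (hpairA n)
  choose f hf huniq using hex
  have hcompat : ∀ n, (quotPowFactor (𝒪 := 𝒪) A (Nat.le_succ n)).comp (f (n + 1)) = f n := by
    intro n
    apply huniq n
    ext σ i j
    have h1 := congrFun (congrFun (DFunLike.congr_fun (hf (n + 1)) σ) i) j
    rw [mapMat_apply] at h1 ⊢
    rw [mapMat_apply] at h1
    show (quotPowFactor (𝒪 := 𝒪) A (Nat.le_succ n)) ((f (n + 1)) (ru σ i j)) = _
    have h2 : (f (n + 1)) (ru σ i j) = Ideal.Quotient.mk _ (rA σ i j) := h1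
    rw [h2, mapMat_apply]
    rfl
  obtain ⟨φ, hφ⟩ := exists_lift_of_compatible (𝒪 := 𝒪) A f hcompat
  have hφloc : IsLocalHom (φ : R →+* A) := up_isLocalHom_of_algHom hloc hsurj φ
  have hmat : mapMat (φ : R →+* A) ru = rA := by
    ext σ i j
    rw [mapMat_apply]
    apply up_eq_of_forall_quotPow_mk_eq
    intro n
    have h1 := congrFun (congrFun (DFunLike.congr_fun (hf n) σ) i) j
    rw [mapMat_apply, mapMat_apply] at h1
    have h2 : (quotPowMk (𝒪 := 𝒪) A n) (φ (ru σ i j)) = f n (ru σ i j) :=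
      DFunLike.congr_fun (hφ n) (ru σ i j)
    exact h2.trans h1
  have hbc := baseChangeAlong_ofMatrix (φ : R →+* A) hφloc ru hcont
  obtain ⟨ebc⟩ := hbc
  have heq : GaloisRepAdic.Equiv (ofMatrix (mapMat (φ : R →+* A) ru)
      (matCont_mapMat hcont _ hφloc)) (ofMatrix rA hrA) :=
    (ofMatrix_isEquiv_of_eq _ hrA hmat).some
  refine ⟨φ, ⟨hφloc, ⟨(ebc.trans heq).trans hρA_eq.symm⟩⟩, ?_⟩
  -- uniqueness
  rintro φ' ⟨hφ', ⟨e'⟩⟩
  have hn' : IsNormalized D (mapMat (φ' : R →+* A) ru) := isNormalized_mapMat D φ' hφ' hnorm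
  obtain ⟨ebc'⟩ := baseChangeAlong_ofMatrix (φ' : R →+* A) hφ' ru hcont
  have e1 : (ofMatrix (mapMat (φ' : R →+* A) ru) (matCont_mapMat hcont _ hφ')).IsEquiv
      (ofMatrix rA hrA) := ⟨(ebc'.symm.trans e').trans hρA_eq⟩
  have hmat' : mapMat (φ' : R →+* A) ru = rA :=
    eq_of_isEquiv_of_isNormalized D hsurj _ hrA hn' hnA e1
  apply algHom_ext_of_quotPow (𝒪 := 𝒪) A
  intro n
  have h1 : (quotPowMk (𝒪 := 𝒪) A n).comp φ' = f n := by
    apply huniq n
    ext σ i j
    rw [mapMat_apply, mapMat_apply, ← hmat', mapMat_apply]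
    rfl
  rw [h1, hφ n]

end Fermat.Agent.S53
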