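/-
T-S53 (helper20): final wiring -- existence of the universal deformation ring from all the pieces.
-/
import Mathlib
import Fermat.Agent.S53.Levels
import Fermat.Agent.S53.Levels2
import Fermat.Agent.S53.Universal
import Fermat.Agent.S53.Assembly
import Fermat.Agent.S53.Convert
import Fermat.Agent.S53.ResidualData

set_option autoImplicit false
set_option linter.style.haveILetI false

namespace Fermat.Agent.S53.LvMain

open IsLocalRing GaloisRep

/-- Convert coordinate data into the coordinates used by `Levels.lean`. -/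
def coordsOfCoordData {𝒪 : Type} [CommRing 𝒪] [IsLocalRing 𝒪]
    {ρbar : ResidualGaloisRep (ResidueField 𝒪)} {D : SliceData 𝒪 ρbar}
    {𝒟 : ∀ ⦃A : Type⦄ [CommRing A] [IsLocalRing A] [Algebra 𝒪 A], GaloisRepAdic A → Prop}
    (CD : CoordData D 𝒟) : Lv.Coords D :=
  ⟨CD.d, CD.γ, CD.a, CD.b, CD.ct, CD.hct⟩

theorem generates_coordsOfCoordData {𝒪 : Type} [CommRing 𝒪] [IsLocalRing 𝒪]
    {ρbar : ResidualGaloisRep (ResidueField 𝒪)} {D : SliceData 𝒪 ρbar}
    {𝒟 : ∀ ⦃A : Type⦄ [CommRing A] [IsLocalRing A] [Algebra 𝒪 A], GaloisRepAdic A → Prop}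
    (CD : CoordData D 𝒟) : (coordsOfCoordData CD).Generates 𝒟 := by
  intro A _ _ _ r hr σ i j
  have h1 : Algebra.adjoin 𝒪 (Set.range fun s =>
      r (CD.γ s) (CD.a s) (CD.b s) - algebraMap 𝒪 A (CD.ct s)) ≤
      Algebra.adjoin 𝒪 (Set.range fun s => r (CD.γ s) (CD.a s) (CD.b s)) := by
    rw [Algebra.adjoin_le_iff]
    rintro _ ⟨s, rfl⟩
    exact Subalgebra.sub_mem _ (Algebra.subset_adjoin ⟨s, rfl⟩) (Subalgebra.algebraMap_mem _ _)
  exact h1 (CD.gen A r hr σ i j)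

/-- Existence of the universal deformation ring (statement S53). -/
theorem nonempty_deformationRingData
    (𝒪 : Type) [CommRing 𝒪] [IsDomain 𝒪] [IsDiscreteValuationRing 𝒪]
    [IsAdicComplete (IsLocalRing.maximalIdeal 𝒪) 𝒪] [Finite (IsLocalRing.ResidueField 𝒪)]
    (ρbar : ResidualGaloisRep (IsLocalRing.ResidueField 𝒪))
    (𝒟 : ∀ ⦃A : Type⦄ [CommRing A] [IsLocalRing A] [Algebra 𝒪 A], GaloisRepAdic A → Prop)
    (habs : ρbar.IsAbsolutelyIrreducible)
    (h𝒟 : GaloisRep.IsDeformationCondition 𝒪 𝒟)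
    (hbar : 𝒟 (GaloisRepAdic.ofResidualGaloisRep ρbar))
    (hfin : GaloisRep.TangentFinite 𝒪 ρbar 𝒟) :
    Nonempty (GaloisRep.DeformationRingData 𝒪 ρbar 𝒟) := by
  obtain ⟨D⟩ := exists_sliceData (𝒪 := 𝒪) ρbar habs
  obtain ⟨CD⟩ := exists_coordData h𝒟 hfin D
  obtain ⟨ϖ, hϖ⟩ := IsDiscreteValuationRing.exists_irreducible 𝒪
  have hmax : maximalIdeal 𝒪 = Ideal.span {ϖ} := hϖ.maximalIdeal_eq
  have H : Lv.LevelHyp D 𝒟 (coordsOfCoordData CD) ϖ :=
    ⟨h𝒟, hbar, hmax, generates_coordsOfCoordData CD⟩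
  have hc := Lv.isIdealChain_levelIdeal H
  haveI := hc.isLocalRing_quotient
  haveI := hc.isAdicComplete_quotient
  exact asm_deformationRingData habs h𝒟 D hc.isLocalHom_algebraMap_quotient
    hc.residue_surjective_quotient (Lv.ru H) (Lv.matCont_ru H) (Lv.isNormalized_ru H)
    (Lv2.hlevel H (Lv.ru H) (Lv.exists_ru H).choose_spec (Lv.matCont_ru H))
    (universal_of_pairs D h𝒟 (Lv.ru H) (Lv.matCont_ru H) (Lv.isNormalized_ru H)
      (Lv.existsUnique_algHom_of_isPair H))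

end Fermat.Agent.S53.LvMain
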