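import Mathlib
import Fermat.Agent.S53.Levels

/-!
# S53 (E), piece (b): continuity and normalization of the universal matrix representation (helper9)

Built on helper20's `Levels.lean` (namespace `Fermat.Agent.S53.Lv`).  Given `ru` over the limit ring
`LimRing D 𝒟 C ϖ` which reduces to every universal pair of finite level (`hru`), we show
`MatCont ru` and `IsNormalized D ru`.

Names are prefixed `lvb_` and live in `Fermat.Agent.S53.LvB`.
-/

set_option autoImplicit false
set_option linter.unusedSectionVars false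
set_option linter.style.haveILetI false

namespace Fermat.Agent.S53.LvB

open MvPowerSeries IsLocalRing GaloisRep Fermat.Agent.S53 Fermat.Agent.S53.Lv

variable {𝒪 : Type} [CommRing 𝒪] [IsLocalRing 𝒪] [IsNoetherianRing 𝒪] [Finite (ResidueField 𝒪)]
  {ρbar : ResidualGaloisRep (ResidueField 𝒪)} {D : SliceData 𝒪 ρbar}
  {𝒟 : ∀ ⦃A : Type⦄ [CommRing A] [IsLocalRing A] [Algebra 𝒪 A], GaloisRepAdic A → Prop}
  {C : Coords D} {ϖ : 𝒪}

/-- The entries of `ru` map to the entries of the universal pairs. -/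
theorem lvb_proj_apply (ru : GQ →* M2 (LimRing D 𝒟 C ϖ))
    (hru : ∀ (n : ℕ) (A : Type) [CommRing A] [IsLocalRing A] [Algebra 𝒪 A] (r : GQ →* M2 A)
      (π : C.PS →ₐ[𝒪] A) (hU : IsUnivLevel D 𝒟 C ϖ n A r π),
      mapMat (hU.proj : LimRing D 𝒟 C ϖ →+* A) ru = r)
    {n : ℕ} {A : Type} [CommRing A] [IsLocalRing A] [Algebra 𝒪 A] {r : GQ →* M2 A}
    {π : C.PS →ₐ[𝒪] A} (hU : IsUnivLevel D 𝒟 C ϖ n A r π) (σ : GQ) (i j : Fin 2) :
    hU.proj (ru σ i j) = r σ i j := by
  have h1 := congrFun (congrFun (DFunLike.congr_fun (hru n A r π hU) σ) i) j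
  rw [mapMat_apply] at h1
  exact h1

/-- (b1) The universal matrix representation is continuous. -/
theorem lvb_matCont (H : LevelHyp D 𝒟 C ϖ) (ru : GQ →* M2 (LimRing D 𝒟 C ϖ))
    (hru : ∀ (n : ℕ) (A : Type) [CommRing A] [IsLocalRing A] [Algebra 𝒪 A] (r : GQ →* M2 A)
      (π : C.PS →ₐ[𝒪] A) (hU : IsUnivLevel D 𝒟 C ϖ n A r π),
      mapMat (hU.proj : LimRing D 𝒟 C ϖ →+* A) ru = r) :
    haveI := (isIdealChain_levelIdeal H).isLocalRing_quotient
    MatCont ru := by
  haveI := (isIdealChain_levelIdeal H).isLocalRing_quotient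
  intro n
  obtain ⟨A, _, _, _, r, π, hU⟩ := exists_isUnivLevel H (Nat.le_add_left 1 n)
  obtain ⟨L, hL, hσ⟩ := hU.pair.cont (n + 1)
  refine ⟨L, hL, fun σ hσL i j => ?_⟩
  have h1 := hσ σ hσL i j
  rw [hU.level, Ideal.mem_bot] at h1
  have hmem : (ru σ - 1) i j ∈ maximalIdeal (LimRing D 𝒟 C ϖ) ^ (n + 1) := by
    rw [← (isIdealChain_levelIdeal H).map_mk_eq_maximalIdeal_pow (n + 1), ← hU.ker_proj,
      RingHom.mem_ker]
    have h2 : (hU.proj : LimRing D 𝒟 C ϖ →+* A) ((ru σ - 1) i j) = (r σ - 1) i j := by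
      rw [Matrix.sub_apply, Matrix.sub_apply, map_sub]
      congr 1
      · exact lvb_proj_apply ru hru hU σ i j
      · rw [Matrix.one_apply, Matrix.one_apply]
        split_ifs <;> simp
    rw [h2, h1]
  exact Ideal.pow_le_pow_right (Nat.le_succ n) hmem

/-- (b2) The universal matrix representation is normalized. -/
theorem lvb_isNormalized (H : LevelHyp D 𝒟 C ϖ) (ru : GQ →* M2 (LimRing D 𝒟 C ϖ))
    (hru : ∀ (n : ℕ) (A : Type) [CommRing A] [IsLocalRing A] [Algebra 𝒪 A] (r : GQ →* M2 A)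
      (π : C.PS →ₐ[𝒪] A) (hU : IsUnivLevel D 𝒟 C ϖ n A r π),
      mapMat (hU.proj : LimRing D 𝒟 C ϖ →+* A) ru = r) :
    haveI := (isIdealChain_levelIdeal H).isLocalRing_quotient
    IsNormalized D ru := by
  haveI := (isIdealChain_levelIdeal H).isLocalRing_quotient
  refine ⟨?_, ?_, ?_, ?_⟩
  · obtain ⟨A, _, _, _, r, π, hU⟩ := exists_isUnivLevel H (le_refl 1)
    have h1 : IsStrictLift D.rbar r := hU.pair.norm.1
    rw [← hru 1 A r π hU] at h1
    exact isStrictLift_of_mapMat hU.proj h1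
  · refine eq_zero_of_forall_proj H _ fun n A _ _ _ r π hU => ?_
    rw [lvb_proj_apply ru hru hU]
    exact hU.pair.norm.2.1
  · rw [← sub_eq_zero]
    refine eq_zero_of_forall_proj H _ fun n A _ _ _ r π hU => ?_
    rw [map_sub, map_one, lvb_proj_apply ru hru hU, hU.pair.norm.2.2.1, sub_self]
  · rw [← sub_eq_zero]
    refine eq_zero_of_forall_proj H _ fun n A _ _ _ r π hU => ?_
    rw [map_sub, lvb_proj_apply ru hru hU, hU.pair.norm.2.2.2, AlgHom.commutes, sub_self]

end Fermat.Agent.S53.LvB
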