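/-
T-S53 (helper21): (d) the universal lift over the limit ring `Lv.LimRing` is of type `𝒟` at every
finite level (the hypothesis `hlevel` of `Assembly.lean`), from the universal pairs of finite level
of `Levels.lean` and the level transfer lemma of `LevelType.lean`.
-/
import Mathlib
import Fermat.Agent.S53.Levels
import Fermat.Agent.S53.LevelType
import Fermat.Agent.S53.MatrixModel
import Fermat.Agent.S53.CompleteQuot

set_option autoImplicit false
set_option linter.unusedSectionVars false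
set_option linter.style.haveILetI false

namespace Fermat.Agent.S53.LvD

open Fermat.Agent.S53.Lv IsLocalRing GaloisRep MatrixModel

variable {𝒪 : Type} [CommRing 𝒪] [IsLocalRing 𝒪] [IsNoetherianRing 𝒪] [Finite (ResidueField 𝒪)]
  {ρbar : ResidualGaloisRep (ResidueField 𝒪)} {D : SliceData 𝒪 ρbar}
  {𝒟 : ∀ ⦃A : Type⦄ [CommRing A] [IsLocalRing A] [Algebra 𝒪 A], GaloisRepAdic A → Prop}
  {C : Coords D} {ϖ : 𝒪}

/-- The kernel of the projection to a universal pair of level `n` is `m_R ^ n`. -/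
theorem lvd_ker_proj (H : LevelHyp D 𝒟 C ϖ) {n : ℕ} {A : Type} [CommRing A] [IsLocalRing A]
    [Algebra 𝒪 A] {r : GQ →* M2 A} {π : C.PS →ₐ[𝒪] A} (hU : IsUnivLevel D 𝒟 C ϖ n A r π) :
    haveI := (isIdealChain_levelIdeal H).isLocalRing_quotient
    RingHom.ker (hU.proj : LimRing D 𝒟 C ϖ →+* A) = maximalIdeal (LimRing D 𝒟 C ϖ) ^ n := by
  haveI := (isIdealChain_levelIdeal H).isLocalRing_quotient
  rw [hU.ker_proj, (isIdealChain_levelIdeal H).map_mk_eq_maximalIdeal_pow]

/-- (d) The universal lift is of type `𝒟` modulo every power of the maximal ideal. -/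
theorem lvd_hlevel (H : LevelHyp D 𝒟 C ϖ) (ru : GQ →* M2 (LimRing D 𝒟 C ϖ))
    (hru : ∀ (n : ℕ) (A : Type) [CommRing A] [IsLocalRing A] [Algebra 𝒪 A] (r : GQ →* M2 A)
      (π : C.PS →ₐ[𝒪] A) (hU : IsUnivLevel D 𝒟 C ϖ n A r π),
      mapMat (hU.proj : LimRing D 𝒟 C ϖ →+* A) ru = r) :
    haveI := (isIdealChain_levelIdeal H).isLocalRing_quotient
    ∀ (hcont : MatCont ru) (n : ℕ), 𝒟 (ofMatrix
      (mapMat ((quotPowMk (𝒪 := 𝒪) (LimRing D 𝒟 C ϖ) n :
        LimRing D 𝒟 C ϖ →ₐ[𝒪] QuotPow (LimRing D 𝒟 C ϖ) n) :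
        LimRing D 𝒟 C ϖ →+* QuotPow (LimRing D 𝒟 C ϖ) n) ru)
      (matCont_mapMat hcont _ (isLocalHom_quotPowMk (𝒪 := 𝒪) (LimRing D 𝒟 C ϖ) n))) := by
  haveI := (isIdealChain_levelIdeal H).isLocalRing_quotient
  intro hcont n
  have hc := isIdealChain_levelIdeal H
  obtain ⟨A, _, _, _, r, π, hU⟩ := exists_isUnivLevel H (Nat.le_add_left 1 n)
  refine lvt_type_quotPow_of_pair (D := D) H.cond hc.isLocalHom_algebraMap_quotient
    hc.residue_surjective_quotient ru hcont n hU.proj hU.proj_surjective ?_ ?_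
  · intro x hx
    have h1 : x ∈ RingHom.ker (hU.proj : LimRing D 𝒟 C ϖ →+* A) := hx
    rwa [lvd_ker_proj H hU] at h1
  · rw [hru (n + 1) A r π hU]
    exact hU.pair

end Fermat.Agent.S53.LvD
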