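import Mathlib
import Fermat.Agent.S53.Defs
import Fermat.Agent.S53.Pairs
import Fermat.Agent.S53.Coord
import Fermat.Agent.S53.PowerSeries

/-!
# S53 (E): the limit matrix representation over `R = P ⧸ cInf c` (helper9)

`P = MvPowerSeries σ 𝒪`, `h : IsIdealChain c`.  From a compatible family of matrix representations
`rl n : GQ →* M2 (P ⧸ c n)` we build `lvl_ru : GQ →* M2 (P ⧸ cInf c)` reducing to `rl n` for all
`n`, and show that it is continuous (`MatCont`) and normalized as soon as the `rl n` are.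

All names are prefixed `lvl_`.
-/

set_option autoImplicit false
set_option linter.unusedSectionVars false
set_option linter.style.haveILetI false

noncomputable section

namespace Fermat.Agent.S53

open MvPowerSeries IsLocalRing IsIdealChain

variable {𝒪 : Type} [CommRing 𝒪] [IsLocalRing 𝒪] {σ : Type}
  {c : ℕ → Ideal (MvPowerSeries σ 𝒪)}

/-- `P ⧸ c n` is a local ring for `n ≥ 1`. -/
theorem lvl_isLocalRing_level (h : IsIdealChain c) {n : ℕ} (hn : 1 ≤ n) :
    IsLocalRing (MvPowerSeries σ 𝒪 ⧸ c n) := by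
  refine isLocalRing_quotient (c n) ?_
  intro htop
  have h1 : (⊤ : Ideal (MvPowerSeries σ 𝒪)) ≤ maximalIdeal _ :=
    htop ▸ (h.anti hn).trans h.le_max
  exact (maximalIdeal.isMaximal (MvPowerSeries σ 𝒪)).ne_top (top_le_iff.mp h1)

/-- Elements of `P ⧸ cInf c` are determined by their images in all `P ⧸ c n`, `n ≥ 1`. -/
theorem lvl_quot_ext (h : IsIdealChain c) {x y : MvPowerSeries σ 𝒪 ⧸ cInf c}
    (hxy : ∀ n, 1 ≤ n → Ideal.Quotient.factor (cInf_le (c := c) n) x =
      Ideal.Quotient.factor (cInf_le (c := c) n) y) : x = y := by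
  obtain ⟨p, rfl⟩ := Ideal.Quotient.mk_surjective x
  obtain ⟨q, rfl⟩ := Ideal.Quotient.mk_surjective y
  rw [Ideal.Quotient.eq, Ideal.mem_iInf]
  intro n
  have h1 := hxy (n + 1) (Nat.le_add_left 1 n)
  rw [Ideal.Quotient.factor_mk, Ideal.Quotient.factor_mk, Ideal.Quotient.eq] at h1
  exact h.anti (Nat.le_succ n) h1

/-- An element of `P ⧸ cInf c` vanishing in all `P ⧸ c n`, `n ≥ 1`, is zero. -/
theorem lvl_quot_eq_zero (h : IsIdealChain c) {x : MvPowerSeries σ 𝒪 ⧸ cInf c}
    (hx : ∀ n, 1 ≤ n → Ideal.Quotient.factor (cInf_le (c := c) n) x = 0) : x = 0 :=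
  lvl_quot_ext h fun n hn => by rw [hx n hn, map_zero]

/-- Over a local ring with nilpotent maximal ideal a continuous matrix representation factors
through a finite level. -/
theorem lvl_factors_of_matCont {A : Type} [CommRing A] [IsLocalRing A] {r : GQ →* M2 A}
    (hr : MatCont r) {N : ℕ} (hN : maximalIdeal A ^ N = ⊥) :
    GaloisFactorsThroughFiniteLevel r := by
  obtain ⟨L, hL, h⟩ := hr N
  refine ⟨L, hL, fun τ hτ => ?_⟩
  ext i j
  have h1 := h τ hτ i j
  rw [hN, Ideal.mem_bot, Matrix.sub_apply, sub_eq_zero] at h1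
  exact h1

variable [Finite σ] [IsNoetherianRing 𝒪]

/-- The entries of the limit representation. -/
theorem lvl_entry_existsUnique (h : IsIdealChain c)
    (rl : ∀ n, GQ →* M2 (MvPowerSeries σ 𝒪 ⧸ c n))
    (hrl : ∀ n, mapMat (Ideal.Quotient.factor (h.anti (Nat.le_succ n))) (rl (n + 1)) = rl n)
    (τ : GQ) (i j : Fin 2) :
    ∃! y : MvPowerSeries σ 𝒪 ⧸ cInf c,
      ∀ n, Ideal.Quotient.factor (cInf_le (c := c) n) y = rl n τ i j := by
  refine h.existsUnique_of_compatible (fun n => rl n τ i j) fun n => ?_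
  have h1 := congrFun (congrFun (DFunLike.congr_fun (hrl n) τ) i) j
  rw [mapMat_apply] at h1
  exact h1

/-- The limit of a compatible family of matrix representations. -/
def lvl_ru (h : IsIdealChain c) (rl : ∀ n, GQ →* M2 (MvPowerSeries σ 𝒪 ⧸ c n))
    (hrl : ∀ n, mapMat (Ideal.Quotient.factor (h.anti (Nat.le_succ n))) (rl (n + 1)) = rl n) :
    GQ →* M2 (MvPowerSeries σ 𝒪 ⧸ cInf c) where
  toFun τ := Matrix.of fun i j => (lvl_entry_existsUnique h rl hrl τ i j).exists.choose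
  map_one' := by
    ext i j
    refine lvl_quot_ext h fun n _ => ?_
    rw [Matrix.of_apply, (lvl_entry_existsUnique h rl hrl 1 i j).exists.choose_spec n, map_one,
      Matrix.one_apply, Matrix.one_apply]
    split_ifs <;> simp
  map_mul' τ τ' := by
    ext i j
    refine lvl_quot_ext h fun n _ => ?_
    rw [Matrix.of_apply, (lvl_entry_existsUnique h rl hrl (τ * τ') i j).exists.choose_spec n,
      map_mul, Matrix.mul_apply, Matrix.mul_apply, map_sum]
    refine Finset.sum_congr rfl fun l _ => ?_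
    rw [map_mul, Matrix.of_apply, Matrix.of_apply,
      (lvl_entry_existsUnique h rl hrl τ i l).exists.choose_spec n,
      (lvl_entry_existsUnique h rl hrl τ' l j).exists.choose_spec n]

theorem lvl_factor_ru_apply (h : IsIdealChain c)
    (rl : ∀ n, GQ →* M2 (MvPowerSeries σ 𝒪 ⧸ c n))
    (hrl : ∀ n, mapMat (Ideal.Quotient.factor (h.anti (Nat.le_succ n))) (rl (n + 1)) = rl n)
    (n : ℕ) (τ : GQ) (i j : Fin 2) :
    Ideal.Quotient.factor (cInf_le (c := c) n) (lvl_ru h rl hrl τ i j) = rl n τ i j :=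
  (lvl_entry_existsUnique h rl hrl τ i j).exists.choose_spec n

theorem lvl_mapMat_ru (h : IsIdealChain c) (rl : ∀ n, GQ →* M2 (MvPowerSeries σ 𝒪 ⧸ c n))
    (hrl : ∀ n, mapMat (Ideal.Quotient.factor (h.anti (Nat.le_succ n))) (rl (n + 1)) = rl n)
    (n : ℕ) : mapMat (Ideal.Quotient.factor (cInf_le (c := c) n)) (lvl_ru h rl hrl) = rl n := by
  ext τ i j
  rw [mapMat_apply]
  exact lvl_factor_ru_apply h rl hrl n τ i j

theorem lvl_ru_unique (h : IsIdealChain c) (rl : ∀ n, GQ →* M2 (MvPowerSeries σ 𝒪 ⧸ c n))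
    (hrl : ∀ n, mapMat (Ideal.Quotient.factor (h.anti (Nat.le_succ n))) (rl (n + 1)) = rl n)
    (r : GQ →* M2 (MvPowerSeries σ 𝒪 ⧸ cInf c))
    (hr : ∀ n, 1 ≤ n → mapMat (Ideal.Quotient.factor (cInf_le (c := c) n)) r = rl n) :
    r = lvl_ru h rl hrl := by
  ext τ i j
  refine lvl_quot_ext h fun n hn => ?_
  rw [lvl_factor_ru_apply, ← hr n hn, mapMat_apply]

/-- The limit representation is continuous if all levels factor through finite levels. -/
theorem lvl_matCont_ru (h : IsIdealChain c) (rl : ∀ n, GQ →* M2 (MvPowerSeries σ 𝒪 ⧸ c n))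
    (hrl : ∀ n, mapMat (Ideal.Quotient.factor (h.anti (Nat.le_succ n))) (rl (n + 1)) = rl n)
    (hf : ∀ n, 1 ≤ n → GaloisFactorsThroughFiniteLevel (rl n)) :
    haveI := h.isLocalRing_quotient
    MatCont (lvl_ru h rl hrl) := by
  haveI := h.isLocalRing_quotient
  intro n
  obtain ⟨L, hL, hτ⟩ := hf (n + 1) (Nat.le_add_left 1 n)
  refine ⟨L, hL, fun τ hτL i j => ?_⟩
  have hmem : (lvl_ru h rl hrl τ - 1) i j ∈
      maximalIdeal (MvPowerSeries σ 𝒪 ⧸ cInf c) ^ (n + 1) := by
    rw [← h.ker_factor (n + 1), RingHom.mem_ker, Matrix.sub_apply, map_sub,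
      lvl_factor_ru_apply, hτ τ hτL, Matrix.one_apply, Matrix.one_apply]
    split_ifs <;> simp
  exact Ideal.pow_le_pow_right (Nat.le_succ n) hmem

/-! ### Normalization and coordinates of the limit -/

section Normalized

variable {ρbar : ResidualGaloisRep (ResidueField 𝒪)}

/-- The limit representation is normalized if all levels `n ≥ 1` are. -/
theorem lvl_isNormalized_ru (D : SliceData 𝒪 ρbar) (h : IsIdealChain c)
    (rl : ∀ n, GQ →* M2 (MvPowerSeries σ 𝒪 ⧸ c n))
    (hrl : ∀ n, mapMat (Ideal.Quotient.factor (h.anti (Nat.le_succ n))) (rl (n + 1)) = rl n)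
    (hnorm : ∀ n (hn : 1 ≤ n), haveI := lvl_isLocalRing_level h hn; IsNormalized D (rl n)) :
    haveI := h.isLocalRing_quotient
    IsNormalized D (lvl_ru h rl hrl) := by
  haveI := h.isLocalRing_quotient
  haveI := lvl_isLocalRing_level h (le_refl 1)
  refine ⟨?_, ?_, ?_, ?_⟩
  · have h1 := (hnorm 1 le_rfl).1
    rw [← lvl_mapMat_ru h rl hrl 1] at h1
    exact isStrictLift_of_mapMat (Ideal.Quotient.factorₐ 𝒪 (cInf_le (c := c) 1)) h1
  · refine lvl_quot_eq_zero h fun n hn => ?_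
    rw [lvl_factor_ru_apply]
    exact (hnorm n hn).2.1
  · refine lvl_quot_ext h fun n hn => ?_
    rw [lvl_factor_ru_apply, map_one]
    exact (hnorm n hn).2.2.1
  · refine lvl_quot_ext h fun n hn => ?_
    rw [lvl_factor_ru_apply, (hnorm n hn).2.2.2]
    rfl

variable {D : SliceData 𝒪 ρbar}
  {𝒟 : ∀ ⦃A : Type⦄ [CommRing A] [IsLocalRing A] [Algebra 𝒪 A], GaloisRepAdic A → Prop}

/-- Coordinates of the limit: if the coordinates of every level are the images of the variables,
so are those of the limit. -/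
theorem lvl_coord_ru (C : CoordData D 𝒟) (ϖ : 𝒪)
    {c : ℕ → Ideal (MvPowerSeries (Fin (C.d + 1)) 𝒪)} (h : IsIdealChain c)
    (rl : ∀ n, GQ →* M2 (MvPowerSeries (Fin (C.d + 1)) 𝒪 ⧸ c n))
    (hrl : ∀ n, mapMat (Ideal.Quotient.factor (h.anti (Nat.le_succ n))) (rl (n + 1)) = rl n)
    (hcoord : ∀ n, 1 ≤ n → ∀ i, C.coord ϖ (rl n) i = Ideal.Quotient.mk (c n) (X i))
    (i : Fin (C.d + 1)) :
    C.coord ϖ (lvl_ru h rl hrl) i = Ideal.Quotient.mk (cInf c) (X i) := by
  refine lvl_quot_ext h fun n hn => ?_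
  rw [Ideal.Quotient.factor_mk, ← hcoord n hn i, ← lvl_mapMat_ru h rl hrl n]
  have h1 := congrFun (C.coord_mapMat ϖ (Ideal.Quotient.factorₐ 𝒪 (cInf_le (c := c) n))
    (lvl_ru h rl hrl)) i
  exact h1.symm

end Normalized

end Fermat.Agent.S53
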