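import Mathlib
import Fermat.Agent.S53.Coord
import Fermat.Agent.S53.PowerSeries
import Fermat.Agent.S53.Universal

/-!
# S53 (E), uniqueness half of `hpairs` (helper24)

`P = MvPowerSeries σ 𝒪`.  Two `𝒪`-algebra homomorphisms from a quotient `P ⧸ I` to an Artinian test
algebra which agree on the images of the variables are equal.  Consequently, for a lift `ru` over
`P ⧸ I` whose coordinates are the images of the variables, an `𝒪`-algebra map `f` out of `P ⧸ I`
into a test algebra is determined by `mapMat f ru`.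

All names are prefixed `lvu_`.
-/

set_option autoImplicit false
set_option linter.unusedSectionVars false

namespace Fermat.Agent.S53

open IsLocalRing GaloisRep MvPowerSeries

section

variable {𝒪 : Type} [CommRing 𝒪] [IsLocalRing 𝒪] {σ : Type} [Finite σ]
  {B : Type} [CommRing B] [IsLocalRing B] [Algebra 𝒪 B]

/-- An `𝒪`-algebra map from the power series ring to a test algebra sends the variables into the
maximal ideal. -/
theorem lvu_apply_X_mem (hB : IsArtinianTestAlgebra 𝒪 B) (φ : MvPowerSeries σ 𝒪 →ₐ[𝒪] B) (i : σ) :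
    φ (X i) ∈ maximalIdeal B := by
  have hloc : IsLocalHom (φ : MvPowerSeries σ 𝒪 →+* B) :=
    up_isLocalHom_of_algHom hB.isLocalHom hB.residue_surjective φ
  have hX : (X i : MvPowerSeries σ 𝒪) ∈ maximalIdeal (MvPowerSeries σ 𝒪) :=
    varIdeal_le_maximalIdeal (Ideal.subset_span ⟨i, rfl⟩)
  exact map_mem_maximalIdeal (φ : MvPowerSeries σ 𝒪 →+* B) hloc hX

/-- Two `𝒪`-algebra maps from the power series ring to a test algebra agreeing on the variables are
equal. -/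
theorem lvu_algHom_ext_powerSeries (hB : IsArtinianTestAlgebra 𝒪 B)
    (φ ψ : MvPowerSeries σ 𝒪 →ₐ[𝒪] B) (h : ∀ i, φ (X i) = ψ (X i)) : φ = ψ := by
  obtain ⟨n, hn⟩ := test_exists_pow_eq_bot hB
  have hu : Ideal.span (Set.range fun i => φ (X i)) ^ n = ⊥ := by
    rw [eq_bot_iff, ← hn]
    refine Ideal.pow_right_mono ?_ n
    rw [Ideal.span_le]
    rintro _ ⟨i, rfl⟩
    exact lvu_apply_X_mem hB φ i
  rw [eq_evalNilp φ (fun i => φ (X i)) n hu (fun _ => rfl),
    eq_evalNilp ψ (fun i => φ (X i)) n hu (fun i => (h i).symm)]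

/-- Two `𝒪`-algebra maps from a quotient of the power series ring to a test algebra agreeing on the
images of the variables are equal. -/
theorem lvu_algHom_ext (hB : IsArtinianTestAlgebra 𝒪 B) {I : Ideal (MvPowerSeries σ 𝒪)}
    (f g : (MvPowerSeries σ 𝒪 ⧸ I) →ₐ[𝒪] B)
    (h : ∀ i, f (Ideal.Quotient.mk I (X i)) = g (Ideal.Quotient.mk I (X i))) : f = g := by
  have h1 : f.comp (Ideal.Quotient.mkₐ 𝒪 I) = g.comp (Ideal.Quotient.mkₐ 𝒪 I) :=
    lvu_algHom_ext_powerSeries hB _ _ h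
  ext x
  obtain ⟨p, rfl⟩ := Ideal.Quotient.mk_surjective x
  exact DFunLike.congr_fun h1 p

end

section

variable {𝒪 : Type} [CommRing 𝒪] [IsLocalRing 𝒪]
  {ρbar : ResidualGaloisRep (ResidueField 𝒪)} {D : SliceData 𝒪 ρbar}
  {𝒟 : ∀ ⦃A : Type⦄ [CommRing A] [IsLocalRing A] [Algebra 𝒪 A], GaloisRepAdic A → Prop}
  {B : Type} [CommRing B] [IsLocalRing B] [Algebra 𝒪 B]

/-- Uniqueness half of `hpairs`: if the coordinates of `ru` are the images of the variables, an
`𝒪`-algebra map `f` from `P ⧸ I` to a test algebra is determined by `mapMat f ru`. -/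
theorem lvu_unique_of_coord (C : CoordData D 𝒟) (ϖ : 𝒪)
    {I : Ideal (MvPowerSeries (Fin (C.d + 1)) 𝒪)}
    (ru : GQ →* M2 (MvPowerSeries (Fin (C.d + 1)) 𝒪 ⧸ I))
    (hcoord : ∀ i, C.coord ϖ ru i = Ideal.Quotient.mk I (X i))
    (hB : IsArtinianTestAlgebra 𝒪 B)
    (f g : (MvPowerSeries (Fin (C.d + 1)) 𝒪 ⧸ I) →ₐ[𝒪] B)
    (h : mapMat (f : _ →+* B) ru = mapMat (g : _ →+* B) ru) : f = g := by
  apply lvu_algHom_ext hB
  intro i
  have h1 : C.coord ϖ (mapMat (f : _ →+* B) ru) i = C.coord ϖ (mapMat (g : _ →+* B) ru) i := by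
    rw [h]
  rw [C.coord_mapMat ϖ f ru, C.coord_mapMat ϖ g ru, Function.comp_apply, Function.comp_apply,
    hcoord i] at h1
  exact h1

/-- `∃` + coordinates ⇒ `∃!` (the shape of the `hpairs` hypothesis of `universal_of_pairs`). -/
theorem lvu_existsUnique_of_coord (C : CoordData D 𝒟) (ϖ : 𝒪)
    {I : Ideal (MvPowerSeries (Fin (C.d + 1)) 𝒪)}
    (ru : GQ →* M2 (MvPowerSeries (Fin (C.d + 1)) 𝒪 ⧸ I))
    (hcoord : ∀ i, C.coord ϖ ru i = Ideal.Quotient.mk I (X i))
    (hB : IsArtinianTestAlgebra 𝒪 B) (s : GQ →* M2 B)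
    (hex : ∃ f : (MvPowerSeries (Fin (C.d + 1)) 𝒪 ⧸ I) →ₐ[𝒪] B, mapMat (f : _ →+* B) ru = s) :
    ∃! f : (MvPowerSeries (Fin (C.d + 1)) 𝒪 ⧸ I) →ₐ[𝒪] B, mapMat (f : _ →+* B) ru = s := by
  obtain ⟨f, hf⟩ := hex
  exact ⟨f, hf, fun g hg => lvu_unique_of_coord C ϖ ru hcoord hB g f (hg.trans hf.symm)⟩

end

end Fermat.Agent.S53
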