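import Mathlib

/-!
# S53 (T3): the Nakayama step for test algebras (helper24)

Let `B` be a local `𝒪`-algebra with nilpotent maximal ideal `m` whose residue field is generated
by `𝒪`, and let `J` be an ideal of `𝒪` mapping into `m`.  If `S ⊆ m` is a set whose image spans
`m / (m ^ 2 + J B)`, then `S` generates `B` as an `𝒪`-algebra.

Main statements (namespace `Fermat.Agent.S53`, all prefixed `tgen_`):
* `tgen_adjoin_eq_top` : general form with an ideal `J` of `𝒪`.
* `tgen_adjoin_eq_top_of_span_singleton` : the form with `J = (ϖ)`.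
* `tgen_adjoin_range_eq_top` : the same for an indexed family `u : ι → B`.
* `tgen_mem_adjoin_add_pow` : the intermediate approximation statement (no nilpotency needed).
-/

set_option autoImplicit false

namespace Fermat.Agent.S53

open IsLocalRing

section

variable {𝒪 B : Type*} [CommRing 𝒪] [CommRing B] [IsLocalRing B] [Algebra 𝒪 B]

/-- Step 0: every element is congruent to a constant modulo the maximal ideal. -/
theorem tgen_exists_sub_mem_maximalIdeal
    (hsurj : Function.Surjective (IsLocalRing.residue B ∘ algebraMap 𝒪 B))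
    (E : Subalgebra 𝒪 B) (b : B) : ∃ e ∈ E, b - e ∈ maximalIdeal B := by
  obtain ⟨c, hc⟩ := hsurj (residue B b)
  refine ⟨algebraMap 𝒪 B c, E.algebraMap_mem c, ?_⟩
  rw [← residue_eq_zero_iff, map_sub]
  simp only [Function.comp_apply] at hc
  rw [hc, sub_self]

/-- Step 1 (linear part): elements of the ideal generated by a subset `T ⊆ E ∩ m` are congruent
to elements of the subalgebra `E` modulo `m ^ 2`. -/
theorem tgen_exists_sub_mem_sq_of_mem_span
    (hsurj : Function.Surjective (IsLocalRing.residue B ∘ algebraMap 𝒪 B))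
    (E : Subalgebra 𝒪 B) (T : Set B) (hTE : T ⊆ E) (hTm : T ⊆ maximalIdeal B)
    {a : B} (ha : a ∈ Ideal.span T) : ∃ e ∈ E, a - e ∈ maximalIdeal B ^ 2 := by
  have hle : Ideal.span T ≤ maximalIdeal B := Ideal.span_le.mpr hTm
  induction ha using Submodule.span_induction with
  | mem x hx => exact ⟨x, hTE hx, by rw [sub_self]; exact Ideal.zero_mem _⟩
  | zero => exact ⟨0, E.zero_mem, by rw [sub_self]; exact Ideal.zero_mem _⟩
  | add x y _ _ hx hy =>
    obtain ⟨e₁, he₁, h₁⟩ := hx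
    obtain ⟨e₂, he₂, h₂⟩ := hy
    refine ⟨e₁ + e₂, E.add_mem he₁ he₂, ?_⟩
    have : x + y - (e₁ + e₂) = (x - e₁) + (y - e₂) := by ring
    rw [this]
    exact Ideal.add_mem _ h₁ h₂
  | smul b x hxT hx =>
    obtain ⟨e, he, h⟩ := hx
    obtain ⟨c, hcE, hc⟩ := tgen_exists_sub_mem_maximalIdeal hsurj E b
    refine ⟨c * e, E.mul_mem hcE he, ?_⟩
    have hxm : x ∈ maximalIdeal B := hle hxT
    have : b • x - c * e = (b - c) * x + c * (x - e) := by
      rw [smul_eq_mul]; ring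
    rw [this, pow_two]
    refine Ideal.add_mem _ (Ideal.mul_mem_mul hc hxm) ?_
    rw [← pow_two]
    exact Ideal.mul_mem_left _ _ h

variable (J : Ideal 𝒪)

/-- Step 1: if `S` spans `m / (m ^ 2 + J B)` then every element of `m` is congruent to an element of
`adjoin 𝒪 S` modulo `m ^ 2`. -/
theorem tgen_exists_sub_mem_sq
    (hsurj : Function.Surjective (IsLocalRing.residue B ∘ algebraMap 𝒪 B))
    (hJ : J.map (algebraMap 𝒪 B) ≤ maximalIdeal B)
    (S : Set B) (hS : S ⊆ maximalIdeal B)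
    (hspan : maximalIdeal B ≤
      Ideal.span S ⊔ maximalIdeal B ^ 2 ⊔ J.map (algebraMap 𝒪 B))
    {x : B} (hx : x ∈ maximalIdeal B) :
    ∃ e ∈ Algebra.adjoin 𝒪 S, x - e ∈ maximalIdeal B ^ 2 := by
  obtain ⟨ay, hay, z, hz, rfl⟩ := Submodule.mem_sup.mp (hspan hx)
  obtain ⟨a, ha, y, hy, rfl⟩ := Submodule.mem_sup.mp hay
  obtain ⟨e₁, he₁, h₁⟩ := tgen_exists_sub_mem_sq_of_mem_span hsurj (Algebra.adjoin 𝒪 S) S
    Algebra.subset_adjoin hS ha
  have hTE : (algebraMap 𝒪 B '' (J : Set 𝒪)) ⊆ (Algebra.adjoin 𝒪 S : Subalgebra 𝒪 B) := by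
    rintro _ ⟨c, _, rfl⟩
    exact Subalgebra.algebraMap_mem _ c
  have hTm : (algebraMap 𝒪 B '' (J : Set 𝒪)) ⊆ maximalIdeal B := by
    rintro _ ⟨c, hc, rfl⟩
    exact hJ (Ideal.mem_map_of_mem _ hc)
  obtain ⟨e₂, he₂, h₂⟩ := tgen_exists_sub_mem_sq_of_mem_span hsurj (Algebra.adjoin 𝒪 S)
    (algebraMap 𝒪 B '' (J : Set 𝒪)) hTE hTm (a := z) hz
  refine ⟨e₁ + e₂, Subalgebra.add_mem _ he₁ he₂, ?_⟩
  have : a + y + z - (e₁ + e₂) = (a - e₁) + y + (z - e₂) := by ring
  rw [this]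
  exact Ideal.add_mem _ (Ideal.add_mem _ h₁ hy) h₂

/-- Step `n`: every element of `m ^ (n+1)` is congruent to an element of `adjoin 𝒪 S` modulo
`m ^ (n+2)`. -/
theorem tgen_exists_sub_mem_pow_succ
    (hsurj : Function.Surjective (IsLocalRing.residue B ∘ algebraMap 𝒪 B))
    (hJ : J.map (algebraMap 𝒪 B) ≤ maximalIdeal B)
    (S : Set B) (hS : S ⊆ maximalIdeal B)
    (hspan : maximalIdeal B ≤
      Ideal.span S ⊔ maximalIdeal B ^ 2 ⊔ J.map (algebraMap 𝒪 B))
    (n : ℕ) {x : B} (hx : x ∈ maximalIdeal B ^ (n + 1)) :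
    ∃ e ∈ Algebra.adjoin 𝒪 S, x - e ∈ maximalIdeal B ^ (n + 2) := by
  induction n generalizing x with
  | zero =>
    rw [zero_add, pow_one] at hx
    exact tgen_exists_sub_mem_sq J hsurj hJ S hS hspan hx
  | succ n ih =>
    rw [pow_succ] at hx
    induction hx using Submodule.mul_induction_on' with
    | mem_mul_mem u hu v hv =>
      obtain ⟨e₁, he₁, h₁⟩ := ih hu
      obtain ⟨e₂, he₂, h₂⟩ := tgen_exists_sub_mem_sq J hsurj hJ S hS hspan hv
      refine ⟨e₁ * e₂, Subalgebra.mul_mem _ he₁ he₂, ?_⟩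
      have he₁m : e₁ ∈ maximalIdeal B ^ (n + 1) := by
        have h3 : u - e₁ ∈ maximalIdeal B ^ (n + 1) :=
          Ideal.pow_le_pow_right (Nat.le_succ _) h₁
        have : e₁ = u - (u - e₁) := by ring
        rw [this]
        exact Ideal.sub_mem _ hu h3
      have : u * v - e₁ * e₂ = (u - e₁) * v + e₁ * (v - e₂) := by ring
      rw [this]
      refine Ideal.add_mem _ ?_ ?_
      · have : maximalIdeal B ^ (n + 1 + 2) = maximalIdeal B ^ (n + 2) * maximalIdeal B := by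
          rw [← pow_succ]
        rw [this]
        exact Ideal.mul_mem_mul h₁ hv
      · have : maximalIdeal B ^ (n + 1 + 2) = maximalIdeal B ^ (n + 1) * maximalIdeal B ^ 2 := by
          rw [← pow_add]
        rw [this]
        exact Ideal.mul_mem_mul he₁m h₂
    | add x _ y _ hx hy =>
      obtain ⟨e₁, he₁, h₁⟩ := hx
      obtain ⟨e₂, he₂, h₂⟩ := hy
      refine ⟨e₁ + e₂, Subalgebra.add_mem _ he₁ he₂, ?_⟩
      have : x + y - (e₁ + e₂) = (x - e₁) + (y - e₂) := by ring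
      rw [this]
      exact Ideal.add_mem _ h₁ h₂

/-- Approximation: under the spanning hypothesis every element of `B` is congruent to an element
of `adjoin 𝒪 S` modulo any power of the maximal ideal (no nilpotency needed). -/
theorem tgen_mem_adjoin_add_pow
    (hsurj : Function.Surjective (IsLocalRing.residue B ∘ algebraMap 𝒪 B))
    (hJ : J.map (algebraMap 𝒪 B) ≤ maximalIdeal B)
    (S : Set B) (hS : S ⊆ maximalIdeal B)
    (hspan : maximalIdeal B ≤
      Ideal.span S ⊔ maximalIdeal B ^ 2 ⊔ J.map (algebraMap 𝒪 B))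
    (n : ℕ) (b : B) : ∃ e ∈ Algebra.adjoin 𝒪 S, b - e ∈ maximalIdeal B ^ n := by
  induction n with
  | zero => exact ⟨0, Subalgebra.zero_mem _, by simp⟩
  | succ n ih =>
    obtain ⟨e, he, h⟩ := ih
    rcases n with _ | n
    · obtain ⟨e', he', h'⟩ := tgen_exists_sub_mem_maximalIdeal hsurj (Algebra.adjoin 𝒪 S) b
      exact ⟨e', he', by simpa using h'⟩
    · obtain ⟨e', he', h'⟩ := tgen_exists_sub_mem_pow_succ J hsurj hJ S hS hspan n h
      refine ⟨e + e', Subalgebra.add_mem _ he he', ?_⟩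
      have : b - (e + e') = b - e - e' := by ring
      rw [this]
      exact h'

/-- **Nakayama step (T3).**  `B` a local `𝒪`-algebra with nilpotent maximal ideal `m` and residue
field generated by `𝒪`; `J` an ideal of `𝒪` mapping into `m`; `S ⊆ m` spanning
`m / (m ^ 2 + J B)`.  Then `S` generates `B` as an `𝒪`-algebra. -/
theorem tgen_adjoin_eq_top
    (hsurj : Function.Surjective (IsLocalRing.residue B ∘ algebraMap 𝒪 B))
    (hnil : ∃ n : ℕ, maximalIdeal B ^ n = ⊥)
    (hJ : J.map (algebraMap 𝒪 B) ≤ maximalIdeal B)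
    (S : Set B) (hS : S ⊆ maximalIdeal B)
    (hspan : maximalIdeal B ≤
      Ideal.span S ⊔ maximalIdeal B ^ 2 ⊔ J.map (algebraMap 𝒪 B)) :
    Algebra.adjoin 𝒪 S = ⊤ := by
  obtain ⟨n, hn⟩ := hnil
  rw [eq_top_iff]
  intro b _
  obtain ⟨e, he, h⟩ := tgen_mem_adjoin_add_pow J hsurj hJ S hS hspan n b
  rw [hn, Ideal.mem_bot, sub_eq_zero] at h
  rw [h]
  exact he

/-- The Nakayama step with `J = (ϖ)`. -/
theorem tgen_adjoin_eq_top_of_span_singleton
    (hsurj : Function.Surjective (IsLocalRing.residue B ∘ algebraMap 𝒪 B))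
    (hnil : ∃ n : ℕ, maximalIdeal B ^ n = ⊥)
    (ϖ : 𝒪) (hϖ : algebraMap 𝒪 B ϖ ∈ maximalIdeal B)
    (S : Set B) (hS : S ⊆ maximalIdeal B)
    (hspan : maximalIdeal B ≤
      Ideal.span S ⊔ maximalIdeal B ^ 2 ⊔ Ideal.span {algebraMap 𝒪 B ϖ}) :
    Algebra.adjoin 𝒪 S = ⊤ := by
  have hmap : (Ideal.span {ϖ}).map (algebraMap 𝒪 B) = Ideal.span {algebraMap 𝒪 B ϖ} := by
    rw [Ideal.map_span, Set.image_singleton]
  refine tgen_adjoin_eq_top (Ideal.span {ϖ}) hsurj hnil ?_ S hS ?_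
  · rw [hmap, Ideal.span_singleton_le_iff_mem]
    exact hϖ
  · rw [hmap]
    exact hspan

/-- The Nakayama step for an indexed family. -/
theorem tgen_adjoin_range_eq_top {ι : Type*}
    (hsurj : Function.Surjective (IsLocalRing.residue B ∘ algebraMap 𝒪 B))
    (hnil : ∃ n : ℕ, maximalIdeal B ^ n = ⊥)
    (ϖ : 𝒪) (hϖ : algebraMap 𝒪 B ϖ ∈ maximalIdeal B)
    (u : ι → B) (hu : ∀ i, u i ∈ maximalIdeal B)
    (hspan : maximalIdeal B ≤
      Ideal.span (Set.range u) ⊔ maximalIdeal B ^ 2 ⊔ Ideal.span {algebraMap 𝒪 B ϖ}) :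
    Algebra.adjoin 𝒪 (Set.range u) = ⊤ :=
  tgen_adjoin_eq_top_of_span_singleton hsurj hnil ϖ hϖ (Set.range u)
    (by rintro _ ⟨i, rfl⟩; exact hu i) hspan

end

end Fermat.Agent.S53
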