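import Mathlib
import Fermat.Agent.S53.Defs
import Fermat.Agent.S53.Pairs

/-!
# S53 (C3), piece (T2): tangent homomorphisms of test algebras (helper9)

`kε := DualNumber (ResidueField 𝒪)`, with ANY `𝒪`-algebra structure whose structure map is
`c ↦ inl (residue c)` (hypothesis `halg`), e.g. the `letI` one inside `GaloisRep.TangentFinite`.

* `homOfDer` : the `𝒪`-algebra homomorphism `B → kε`, `x ↦ res x + lam x • ε`, attached to a
  derivation-like additive functional `lam : B →+ k`.
* `exists_der` : for an ideal `m_B ^ 2 + m_𝒪 B ≤ J < m_B` of a test algebra `B` and `x ∈ m_B \ J`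
  there is such a functional vanishing on `J` and not at `x`.
* `eq_top_of_maximalIdeal_le_span`, `maximalIdeal_le_span_mE` : Nakayama's lemma, twice.
* `exists_tangentHom_of_ne_top` : a proper subalgebra `E` of a test algebra `B` is detected by
  two distinct `𝒪`-algebra homomorphisms `B → kε` which agree on `E`.

All names live in the sub-namespace `Fermat.Agent.S53.TangentHom`.
-/

set_option autoImplicit false
set_option linter.style.haveILetI false
set_option linter.unnecessarySimpa false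

namespace Fermat.Agent.S53.TangentHom

open IsLocalRing GaloisRep Fermat.Agent.S53

variable {𝒪 : Type} [CommRing 𝒪] [IsLocalRing 𝒪]

section Der

variable [alg : Algebra 𝒪 (DualNumber (ResidueField 𝒪))]
  {B : Type} [CommRing B] [Algebra 𝒪 B]

/-- The algebra homomorphism `B → k[ε]`, `x ↦ res x + lam x ε`, attached to a derivation-like
functional `lam`. -/
noncomputable def homOfDer
    (halg : ∀ c : 𝒪, algebraMap 𝒪 (DualNumber (ResidueField 𝒪)) c =
      TrivSqZeroExt.inl (residue 𝒪 c))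
    (res : B →ₐ[𝒪] ResidueField 𝒪) (lam : B →+ ResidueField 𝒪)
    (hmul : ∀ x y, lam (x * y) = res x * lam y + res y * lam x)
    (hconst : ∀ c : 𝒪, lam (algebraMap 𝒪 B c) = 0) :
    B →ₐ[𝒪] DualNumber (ResidueField 𝒪) where
  toFun x := TrivSqZeroExt.inl (res x) + TrivSqZeroExt.inr (lam x)
  map_one' := by
    have h1 : lam 1 = 0 := by simpa using hconst 1
    rw [h1, map_one]
    simp
  map_mul' x y := by
    apply TrivSqZeroExt.ext
    · simp
    · simp [hmul]
      ring
  map_zero' := by simp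
  map_add' x y := by
    simp only [map_add, TrivSqZeroExt.inl_add, TrivSqZeroExt.inr_add]
    abel
  commutes' c := by
    show TrivSqZeroExt.inl (res (algebraMap 𝒪 B c)) + TrivSqZeroExt.inr (lam (algebraMap 𝒪 B c)) = _
    rw [hconst, AlgHom.commutes, halg, ResidueField.algebraMap_eq]
    simp

theorem homOfDer_apply
    (halg : ∀ c : 𝒪, algebraMap 𝒪 (DualNumber (ResidueField 𝒪)) c =
      TrivSqZeroExt.inl (residue 𝒪 c))
    (res : B →ₐ[𝒪] ResidueField 𝒪) (lam : B →+ ResidueField 𝒪)
    (hmul : ∀ x y, lam (x * y) = res x * lam y + res y * lam x)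
    (hconst : ∀ c : 𝒪, lam (algebraMap 𝒪 B c) = 0) (x : B) :
    homOfDer halg res lam hmul hconst x =
      TrivSqZeroExt.inl (res x) + TrivSqZeroExt.inr (lam x) := rfl

end Der

section Nakayama

variable [Finite (ResidueField 𝒪)] {B : Type} [CommRing B] [IsLocalRing B] [Algebra 𝒪 B]

/-- The set of elements of the subalgebra `E` lying in the maximal ideal. -/
def mE (E : Subalgebra 𝒪 B) : Set B := {x | x ∈ E ∧ x ∈ maximalIdeal B}

theorem maximalIdeal_le_span_mE (hB : IsArtinianTestAlgebra 𝒪 B) (E : Subalgebra 𝒪 B)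
    (h : maximalIdeal B ≤ Ideal.span (mE E) ⊔ maximalIdeal B ^ 2) :
    maximalIdeal B ≤ Ideal.span (mE E) := by
  haveI := test_finite hB
  refine Submodule.le_of_le_smul_of_le_jacobson_bot (I := maximalIdeal B)
    (IsNoetherian.noetherian _) ?_ ?_
  · exact (IsLocalRing.jacobson_eq_maximalIdeal ⊥ bot_ne_top).ge
  · rwa [smul_eq_mul, ← pow_two]

theorem eq_top_of_maximalIdeal_le_span (hB : IsArtinianTestAlgebra 𝒪 B) (E : Subalgebra 𝒪 B)
    (h : maximalIdeal B ≤ Ideal.span (mE E)) : E = ⊤ := by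
  haveI := test_finite hB
  haveI := isLocalRing_subalgebra hB E
  have hsm : ∀ x ∈ Ideal.span (mE E), x ∈ maximalIdeal E • (⊤ : Submodule E B) := by
    intro x hx
    refine Submodule.span_induction ?_ ?_ ?_ ?_ hx
    · rintro y ⟨hyE, hym⟩
      have h1 : (⟨y, hyE⟩ : E) ∈ maximalIdeal E :=
        (mem_maximalIdeal_subalgebra_iff hB E ⟨y, hyE⟩).mpr hym
      have h2 : y = (⟨y, hyE⟩ : E) • (1 : B) := by
        rw [Subalgebra.smul_def]; simp
      rw [h2]
      exact Submodule.smul_mem_smul h1 Submodule.mem_top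
    · exact Submodule.zero_mem _
    · intro x y _ _ hx hy
      exact Submodule.add_mem _ hx hy
    · intro a y _ hy
      refine Submodule.smul_induction_on hy ?_ ?_
      · intro r hr n _
        have : a • (r • n) = r • (a • n) := by
          rw [Subalgebra.smul_def, Subalgebra.smul_def]
          simp only [smul_eq_mul]
          ring
        rw [this]
        exact Submodule.smul_mem_smul hr Submodule.mem_top
      · intro x y hx hy
        rw [smul_add]
        exact Submodule.add_mem _ hx hy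
  have key : (⊤ : Submodule E B) ≤ Submodule.span E {(1 : B)} := by
    refine Submodule.le_of_le_smul_of_le_jacobson_bot (I := maximalIdeal E)
      (Module.Finite.fg_top) ?_ ?_
    · exact (IsLocalRing.jacobson_eq_maximalIdeal ⊥ bot_ne_top).ge
    · intro b _
      obtain ⟨c, hc⟩ := test_exists_sub_mem hB b
      have h1 : b = algebraMap 𝒪 B c + (b - algebraMap 𝒪 B c) := by ring
      rw [h1]
      refine Submodule.add_mem_sup ?_ (hsm _ (h hc))
      have h2 : algebraMap 𝒪 B c = (algebraMap 𝒪 E c) • (1 : B) := by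
        rw [Subalgebra.smul_def]; simp
      rw [h2]
      exact Submodule.smul_mem _ _ (Submodule.subset_span rfl)
  rw [eq_top_iff]
  intro b _
  have hb := key (Submodule.mem_top : b ∈ (⊤ : Submodule E B))
  rw [Submodule.mem_span_singleton] at hb
  obtain ⟨e, he⟩ := hb
  rw [← he, Subalgebra.smul_def]
  simpa using e.2

end Nakayama

section Functional

variable {B : Type} [CommRing B] [IsLocalRing B] [Algebra 𝒪 B]

theorem exists_der (hB : IsArtinianTestAlgebra 𝒪 B) (res : B →ₐ[𝒪] ResidueField 𝒪)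
    (hres : ∀ (a : B) (c : 𝒪), res a = residue 𝒪 c ↔ a - algebraMap 𝒪 B c ∈ maximalIdeal B)
    (J : Ideal B) (hJm : J ≤ maximalIdeal B) (hsq : maximalIdeal B ^ 2 ≤ J)
    (hO : ∀ c ∈ maximalIdeal 𝒪, algebraMap 𝒪 B c ∈ J)
    (x : B) (hx : x ∈ maximalIdeal B) (hxJ : x ∉ J) :
    ∃ lam : B →+ ResidueField 𝒪, (∀ y ∈ J, lam y = 0) ∧ (∀ c : 𝒪, lam (algebraMap 𝒪 B c) = 0) ∧
      (∀ y z, lam (y * z) = res y * lam z + res z * lam y) ∧ lam x ≠ 0 := by
  have hM : Module.IsTorsionBySet 𝒪 (B ⧸ J) (maximalIdeal 𝒪 : Set 𝒪) := by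
    intro q a
    obtain ⟨b, rfl⟩ := Ideal.Quotient.mk_surjective q
    have h1 : (a : 𝒪) • (Ideal.Quotient.mk J b) = Ideal.Quotient.mk J (algebraMap 𝒪 B a * b) := by
      rw [← Algebra.smul_def]; rfl
    rw [h1, Ideal.Quotient.eq_zero_iff_mem]
    exact J.mul_mem_right _ (hO a a.2)
  letI : Module (ResidueField 𝒪) (B ⧸ J) := (hM.module : Module (𝒪 ⧸ maximalIdeal 𝒪) (B ⧸ J))
  have hsmul : ∀ (c : 𝒪) (q : B ⧸ J), (residue 𝒪 c) • q = c • q := fun c q =>
    Module.IsTorsionBySet.mk_smul hM c q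
  have hsmul' : ∀ (c : 𝒪) (b : B), (residue 𝒪 c) • (Ideal.Quotient.mk J b) =
      Ideal.Quotient.mk J (algebraMap 𝒪 B c * b) := by
    intro c b
    rw [hsmul, ← Algebra.smul_def]; rfl
  have hv : Ideal.Quotient.mk J x ∉
      Submodule.span (ResidueField 𝒪) {(Ideal.Quotient.mk J (1 : B))} := by
    rw [Submodule.mem_span_singleton]
    rintro ⟨κ, hκ⟩
    obtain ⟨c, rfl⟩ := residue_surjective κ
    rw [hsmul', mul_one, Ideal.Quotient.eq] at hκ
    have h1 : algebraMap 𝒪 B c ∈ maximalIdeal B := by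
      have := add_mem (hJm hκ) hx
      simpa using this
    have h2 : c ∈ maximalIdeal 𝒪 := (algebraMap_mem_maximalIdeal_iff hB c).mp h1
    apply hxJ
    have := sub_mem (hO c h2) hκ
    simpa using this
  obtain ⟨Λ, hΛx, hΛ1⟩ := Submodule.exists_le_ker_of_notMem hv
  have hΛone : Λ (Ideal.Quotient.mk J (1 : B)) = 0 :=
    hΛ1 (Submodule.subset_span rfl)
  let lam : B →+ ResidueField 𝒪 :=
    { toFun := fun b => Λ (Ideal.Quotient.mk J b)
      map_zero' := by rw [map_zero, map_zero]
      map_add' := fun a b => by rw [map_add, map_add] }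
  have hlam : ∀ b, lam b = Λ (Ideal.Quotient.mk J b) := fun _ => rfl
  have hJ0 : ∀ y ∈ J, lam y = 0 := by
    intro y hy
    rw [hlam, Ideal.Quotient.eq_zero_iff_mem.mpr hy, map_zero]
  have hlin : ∀ (c : 𝒪) (b : B), lam (algebraMap 𝒪 B c * b) = residue 𝒪 c * lam b := by
    intro c b
    rw [hlam, ← hsmul', map_smul, smul_eq_mul, hlam]
  have hconst : ∀ c : 𝒪, lam (algebraMap 𝒪 B c) = 0 := by
    intro c
    have := hlin c 1
    rw [mul_one, hlam 1, hΛone, mul_zero] at this
    exact this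
  refine ⟨lam, hJ0, hconst, ?_, hΛx⟩
  intro y z
  obtain ⟨c, hc⟩ := test_exists_sub_mem hB y
  obtain ⟨c', hc'⟩ := test_exists_sub_mem hB z
  have hy : res y = residue 𝒪 c := (hres y c).mpr hc
  have hz : res z = residue 𝒪 c' := (hres z c').mpr hc'
  have h1 : y * z = (y - algebraMap 𝒪 B c) * (z - algebraMap 𝒪 B c') + algebraMap 𝒪 B c' * y
      + algebraMap 𝒪 B c * z - algebraMap 𝒪 B (c * c') := by
    rw [map_mul]; ring
  have h2 : lam ((y - algebraMap 𝒪 B c) * (z - algebraMap 𝒪 B c')) = 0 := by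
    apply hJ0
    apply hsq
    rw [pow_two]
    exact Ideal.mul_mem_mul hc hc'
  rw [h1, map_sub, map_add, map_add, h2, hlin, hlin, hconst, hy, hz]
  ring

end Functional

section Main

variable [Finite (ResidueField 𝒪)] [alg : Algebra 𝒪 (DualNumber (ResidueField 𝒪))]
  {B : Type} [CommRing B] [IsLocalRing B] [Algebra 𝒪 B]

/-- **Lemma X.** A proper subalgebra of a test algebra is detected by tangent homomorphisms:
there are two distinct `𝒪`-algebra homomorphisms `B → k[ε]` agreeing on `E`. -/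
theorem exists_tangentHom_of_ne_top
    (halg : ∀ c : 𝒪, algebraMap 𝒪 (DualNumber (ResidueField 𝒪)) c =
      TrivSqZeroExt.inl (residue 𝒪 c))
    (hB : IsArtinianTestAlgebra 𝒪 B) (E : Subalgebra 𝒪 B) (hE : E ≠ ⊤) :
    ∃ f f₀ : B →ₐ[𝒪] DualNumber (ResidueField 𝒪), f ≠ f₀ ∧ ∀ x ∈ E, f x = f₀ x := by
  obtain ⟨res, hres⟩ := exists_resk hB
  have hJm : Ideal.span (mE E) ⊔ maximalIdeal B ^ 2 ≤ maximalIdeal B :=
    sup_le (Ideal.span_le.mpr fun y hy => hy.2) (Ideal.pow_le_self two_ne_zero)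
  have hne : ¬ maximalIdeal B ≤ Ideal.span (mE E) ⊔ maximalIdeal B ^ 2 := fun h =>
    hE (eq_top_of_maximalIdeal_le_span hB E (maximalIdeal_le_span_mE hB E h))
  obtain ⟨x, hx, hxJ⟩ := SetLike.not_le_iff_exists.mp hne
  have hO : ∀ c ∈ maximalIdeal 𝒪,
      algebraMap 𝒪 B c ∈ Ideal.span (mE E) ⊔ maximalIdeal B ^ 2 := fun c hc =>
    (le_sup_left : Ideal.span (mE E) ≤ _) (Ideal.subset_span
      ⟨E.algebraMap_mem c, (algebraMap_mem_maximalIdeal_iff hB c).mpr hc⟩)
  obtain ⟨lam, hJ0, hconst, hmul, hlx⟩ :=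
    exists_der hB res hres _ hJm le_sup_right hO x hx hxJ
  refine ⟨homOfDer halg res lam hmul hconst, homOfDer halg res 0 (by simp) (by simp), ?_, ?_⟩
  · intro h
    have h1 := congrArg TrivSqZeroExt.snd (DFunLike.congr_fun h x)
    rw [homOfDer_apply, homOfDer_apply] at h1
    simp at h1
    exact hlx h1
  · intro e he
    rw [homOfDer_apply, homOfDer_apply]
    have h0 : lam e = 0 := by
      obtain ⟨c, hc⟩ := test_exists_sub_mem hB e
      have h1 : e - algebraMap 𝒪 B c ∈ Ideal.span (mE E) ⊔ maximalIdeal B ^ 2 :=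
        (le_sup_left : Ideal.span (mE E) ≤ _) (Ideal.subset_span
          ⟨E.sub_mem he (E.algebraMap_mem c), hc⟩)
      have h2 := hJ0 _ h1
      rw [map_sub, hconst, sub_zero] at h2
      exact h2
    rw [h0]
    simp

end Main

end Fermat.Agent.S53.TangentHom
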