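/-
T-S53 (helper18): the classifying map `theta : 𝒪⟦X_0, …, X_d⟧ → A` of a pair `(A, r)`
(`X_0 ↦ ϖ`, `X_(s+1) ↦ u_s`), the finite sets `levelSet n` of its kernels and the ideals `cLevel n`.
-/
import Mathlib
import Fermat.Agent.S53.Defs
import Fermat.Agent.S53.Pairs
import Fermat.Agent.S53.Coord
import Fermat.Agent.S53.EvalNilp
import Fermat.Agent.S53.PowerSeries

set_option autoImplicit false
set_option linter.style.haveILetI false
set_option linter.unusedSectionVars false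

namespace Fermat.Agent.S53

open IsLocalRing GaloisRep MvPowerSeries

variable {𝒪 : Type} [CommRing 𝒪] [IsLocalRing 𝒪]
  {ρbar : ResidualGaloisRep (ResidueField 𝒪)} {D : SliceData 𝒪 ρbar}
  {𝒟 : ∀ ⦃A : Type⦄ [CommRing A] [IsLocalRing A] [Algebra 𝒪 A], GaloisRepAdic A → Prop}

/-- The power series ring `𝒪⟦X_0, …, X_d⟧` attached to coordinate data. -/
abbrev CoordData.PS (C : CoordData D 𝒟) : Type := MvPowerSeries (Fin (C.d + 1)) 𝒪

section Theta

variable (C : CoordData D 𝒟) {ϖ : 𝒪} (hϖ : ϖ ∈ maximalIdeal 𝒪)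
  {A : Type} [CommRing A] [IsLocalRing A] [Algebra 𝒪 A] {r : GQ →* M2 A}

include hϖ in
theorem th_span_coord_le (hp : IsPair D 𝒟 A r) :
    Ideal.span (Set.range (C.coord ϖ r)) ≤ maximalIdeal A := by
  haveI := hp.test.isLocalHom
  rw [Ideal.span_le]
  rintro _ ⟨i, rfl⟩
  exact C.coord_mem_maximalIdeal hϖ hp.norm.1 i

include hϖ in
theorem th_span_coord_pow (hp : IsPair D 𝒟 A r) {n : ℕ} (hn : maximalIdeal A ^ n = ⊥) :
    Ideal.span (Set.range (C.coord ϖ r)) ^ n = ⊥ :=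
  le_bot_iff.mp (hn ▸ Ideal.pow_right_mono (th_span_coord_le C hϖ hp) n)

/-- The classifying map of a pair. -/
noncomputable def theta (hp : IsPair D 𝒟 A r) : C.PS →ₐ[𝒪] A :=
  evalNilp (C.coord ϖ r) (Classical.choose (test_exists_pow_eq_bot hp.test))
    (th_span_coord_pow C hϖ hp (Classical.choose_spec (test_exists_pow_eq_bot hp.test)))

@[simp] theorem theta_X (hp : IsPair D 𝒟 A r) (i : Fin (C.d + 1)) :
    theta C hϖ hp (X i) = C.coord ϖ r i := by
  simp [theta]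

/-- Uniqueness of the classifying map. -/
theorem theta_unique (hp : IsPair D 𝒟 A r) (φ : C.PS →ₐ[𝒪] A)
    (hφ : ∀ i, φ (X i) = C.coord ϖ r i) : φ = theta C hϖ hp :=
  eq_evalNilp φ _ _ _ hφ

/-- Naturality of the classifying map. -/
theorem theta_comp {B : Type} [CommRing B] [IsLocalRing B] [Algebra 𝒪 B]
    (hp : IsPair D 𝒟 A r) (f : A →ₐ[𝒪] B) (hp' : IsPair D 𝒟 B (mapMat (f : A →+* B) r)) :
    f.comp (theta C hϖ hp) = theta C hϖ hp' := by
  refine theta_unique C hϖ hp' _ fun i => ?_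
  rw [AlgHom.comp_apply, theta_X, C.coord_mapMat ϖ f r]
  rfl

theorem theta_range (hp : IsPair D 𝒟 A r) :
    (theta C hϖ hp).range = Algebra.adjoin 𝒪 (Set.range (C.coord ϖ r)) :=
  evalNilp_range _ _ _

/-- Every entry of a pair is in the range of its classifying map. -/
theorem entry_mem_range_theta (hp : IsPair D 𝒟 A r) (σ : GQ) (i j : Fin 2) :
    r σ i j ∈ (theta C hϖ hp).range := by
  rw [theta_range]
  exact C.entry_mem_adjoin_coord ϖ hp σ i j

theorem pow_le_ker_theta (hp : IsPair D 𝒟 A r) {n : ℕ} (hn : maximalIdeal A ^ n = ⊥) :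
    varIdeal 𝒪 (Fin (C.d + 1)) ^ n ≤ RingHom.ker (theta C hϖ hp) :=
  pow_span_X_le_ker_of_apply_X _ _ n (th_span_coord_pow C hϖ hp hn) (theta_X C hϖ hp)

theorem X_zero_sub_C_mem_ker_theta (hp : IsPair D 𝒟 A r) :
    (X 0 - MvPowerSeries.C ϖ : C.PS) ∈ RingHom.ker (theta C hϖ hp) := by
  rw [RingHom.mem_ker, map_sub, theta_X, CoordData.coord_zero]
  have : (MvPowerSeries.C ϖ : C.PS) = algebraMap 𝒪 C.PS ϖ := rfl
  rw [this, AlgHom.commutes, sub_self]

theorem ker_theta_ne_top (hp : IsPair D 𝒟 A r) : RingHom.ker (theta C hϖ hp) ≠ ⊤ :=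
  RingHom.ker_ne_top _

end Theta

section Level

variable (C : CoordData D 𝒟) {ϖ : 𝒪} (hϖ : ϖ ∈ maximalIdeal 𝒪)

/-- Kernels of the classifying maps of the pairs `(A, r)` with `m_A ^ n = 0`. -/
def levelSet (n : ℕ) : Set (Ideal C.PS) :=
  {I | ∃ (A : Type) (_ : CommRing A) (_ : IsLocalRing A) (_ : Algebra 𝒪 A) (r : GQ →* M2 A)
    (hp : IsPair D 𝒟 A r), maximalIdeal A ^ n = ⊥ ∧ RingHom.ker (theta C hϖ hp) = I}

/-- The `n`-th level ideal: intersection of the kernels of all pairs of level `n`. -/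
noncomputable def cLevel (n : ℕ) : Ideal C.PS := sInf (levelSet C hϖ n)

theorem ker_theta_mem_levelSet {A : Type} [CommRing A] [IsLocalRing A] [Algebra 𝒪 A]
    {r : GQ →* M2 A} (hp : IsPair D 𝒟 A r) {n : ℕ} (hn : maximalIdeal A ^ n = ⊥) :
    RingHom.ker (theta C hϖ hp) ∈ levelSet C hϖ n :=
  ⟨A, _, _, _, r, hp, hn, rfl⟩

theorem cLevel_le_ker_theta {A : Type} [CommRing A] [IsLocalRing A] [Algebra 𝒪 A]
    {r : GQ →* M2 A} (hp : IsPair D 𝒟 A r) {n : ℕ} (hn : maximalIdeal A ^ n = ⊥) :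
    cLevel C hϖ n ≤ RingHom.ker (theta C hϖ hp) :=
  sInf_le (ker_theta_mem_levelSet C hϖ hp hn)

theorem levelSet_mono {n m : ℕ} (h : n ≤ m) : levelSet C hϖ n ⊆ levelSet C hϖ m := by
  rintro I ⟨A, _, _, _, r, hp, hn, rfl⟩
  refine ⟨A, _, _, _, r, hp, ?_, rfl⟩
  exact le_bot_iff.mp (hn ▸ Ideal.pow_le_pow_right h)

theorem cLevel_anti : Antitone (cLevel C hϖ) := fun _ _ h =>
  sInf_le_sInf (levelSet_mono C hϖ h)

theorem pow_le_cLevel (n : ℕ) : varIdeal 𝒪 (Fin (C.d + 1)) ^ n ≤ cLevel C hϖ n := by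
  refine le_sInf ?_
  rintro I ⟨A, _, _, _, r, hp, hn, rfl⟩
  exact pow_le_ker_theta C hϖ hp hn

theorem X_zero_sub_C_mem_cLevel (n : ℕ) : (X 0 - MvPowerSeries.C ϖ : C.PS) ∈ cLevel C hϖ n := by
  rw [cLevel, Ideal.mem_sInf]
  rintro I ⟨A, _, _, _, r, hp, hn, rfl⟩
  exact X_zero_sub_C_mem_ker_theta C hϖ hp

end Level

end Fermat.Agent.S53
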