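/-
T-S53 (helper18): every member of `levelSet n` is the kernel of a SURJECTIVE classifying map.
-/
import Mathlib
import Fermat.Agent.S53.Theta

set_option autoImplicit false
set_option linter.style.haveILetI false
set_option linter.unusedSectionVars false

namespace Fermat.Agent.S53

open IsLocalRing GaloisRep MvPowerSeries

variable {𝒪 : Type} [CommRing 𝒪] [IsLocalRing 𝒪] [Finite (ResidueField 𝒪)]
  {ρbar : ResidualGaloisRep (ResidueField 𝒪)} {D : SliceData 𝒪 ρbar}
  {𝒟 : ∀ ⦃A : Type⦄ [CommRing A] [IsLocalRing A] [Algebra 𝒪 A], GaloisRepAdic A → Prop}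
  (C : CoordData D 𝒟) {ϖ : 𝒪} (hϖ : ϖ ∈ maximalIdeal 𝒪)

/-- Nilpotency of the maximal ideal passes to a subalgebra of a test algebra. -/
theorem ts_pow_subalgebra {A : Type} [CommRing A] [IsLocalRing A] [Algebra 𝒪 A]
    (hA : IsArtinianTestAlgebra 𝒪 A) (E : Subalgebra 𝒪 A) {n : ℕ}
    (hn : maximalIdeal A ^ n = ⊥) :
    haveI := isLocalRing_subalgebra hA E
    maximalIdeal E ^ n = ⊥ := by
  haveI := isLocalRing_subalgebra hA E
  have hloc : IsLocalHom ((E.val : E →ₐ[𝒪] A) : E →+* A) :=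
    isLocalHom_of_test (test_subalgebra hA E) E.val
  rw [eq_bot_iff]
  intro x hx
  have h1 : Ideal.map ((E.val : E →ₐ[𝒪] A) : E →+* A) (maximalIdeal E ^ n) ≤ maximalIdeal A ^ n := by
    rw [Ideal.map_pow]
    refine Ideal.pow_right_mono ?_ n
    rw [Ideal.map_le_iff_le_comap]
    intro y hy
    exact map_mem_maximalIdeal _ hloc hy
  have h2 := h1 (Ideal.mem_map_of_mem _ hx)
  rw [hn, Ideal.mem_bot] at h2
  rw [Ideal.mem_bot]
  exact Subtype.ext h2

/-- Every member of `levelSet n` is the kernel of a surjective classifying map of a pair of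
level `n`. -/
theorem exists_surj_pair (h𝒟 : IsDeformationCondition 𝒪 𝒟) {n : ℕ} {I : Ideal C.PS}
    (hI : I ∈ levelSet C hϖ n) :
    ∃ (E : Type) (_ : CommRing E) (_ : IsLocalRing E) (_ : Algebra 𝒪 E) (r : GQ →* M2 E)
      (hp : IsPair D 𝒟 E r), maximalIdeal E ^ n = ⊥ ∧ RingHom.ker (theta C hϖ hp) = I ∧
        Function.Surjective (theta C hϖ hp) := by
  obtain ⟨A, _, _, _, r, hp, hn, rfl⟩ := hI
  set E : Subalgebra 𝒪 A := (theta C hϖ hp).range with hE
  have hent : ∀ σ i j, r σ i j ∈ E := entry_mem_range_theta C hϖ hp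
  haveI := isLocalRing_subalgebra hp.test E
  have hpE : IsPair D 𝒟 E (restrictMat E r hent) := IsPair.restrict h𝒟 hp E hent
  have hp' : IsPair D 𝒟 A (mapMat ((E.val : E →ₐ[𝒪] A) : E →+* A) (restrictMat E r hent)) := by
    have : mapMat ((E.val : E →ₐ[𝒪] A) : E →+* A) (restrictMat E r hent) = r :=
      mapMat_val_restrictMat E r hent
    rw [this]; exact hp
  have hcomp : (E.val).comp (theta C hϖ hpE) = theta C hϖ hp := by
    rw [theta_comp C hϖ hpE E.val hp']
    refine theta_unique C hϖ hp _ fun i => ?_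
    rw [theta_X, mapMat_val_restrictMat E r hent]
  have hval : ∀ p, ((theta C hϖ hpE p : E) : A) = theta C hϖ hp p := fun p =>
    DFunLike.congr_fun hcomp p
  refine ⟨E, _, _, _, restrictMat E r hent, hpE, ts_pow_subalgebra hp.test E hn, ?_, ?_⟩
  · ext p
    rw [RingHom.mem_ker, RingHom.mem_ker, ← hval p]
    constructor
    · intro h; rw [h]; rfl
    · intro h; exact Subtype.ext h
  · rintro ⟨x, p, rfl⟩
    exact ⟨p, Subtype.ext (hval p)⟩

end Fermat.Agent.S53
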